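/-
T1-A leaf T1A-EMB (helper5), part 1 (pure field theory): if `σ_i : F → Ω` (`i ∈ ι`) are
`[F : K(z)]` distinct `K`-embeddings of a finite separable extension `F / K(z)` which agree at `z`,
then `σ_{i₀}(N_{F/K(z)} f) = ∏_i σ_i f`.
-/
import Mathlib

set_option autoImplicit false
set_option linter.style.haveILetI false
set_option linter.unusedSectionVars false

namespace Fermat.Agent.T1

open IntermediateField

variable {K F Ω : Type*} [Field K] [Field F] [Algebra K F] [Field Ω] [Algebra K Ω]

/-- two `K`-embeddings of `F` which agree at `z` agree on `K(z)` -/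
theorem ta_algHom_eq_on_adjoin {z : F} {σ τ : F →ₐ[K] Ω} (h : σ z = τ z) (c : K⟮z⟯) :
    σ (c : F) = τ (c : F) := by
  have h1 : σ.comp K⟮z⟯.val = τ.comp K⟮z⟯.val := by
    apply IntermediateField.adjoin_algHom_ext
    intro x hx
    rw [Set.mem_singleton_iff] at hx
    subst hx
    exact h
  exact DFunLike.congr_fun h1 c

/-- **the norm is the product over the embeddings** -/
theorem ta_norm_eq_prod {z : F} [FiniteDimensional K⟮z⟯ F] [Algebra.IsSeparable K⟮z⟯ F]
    {ι : Type*} [Fintype ι] (σ : ι → (F →ₐ[K] Ω)) (hσ : Function.Injective σ)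
    (hσz : ∀ i j, σ i z = σ j z) (hcard : Fintype.card ι = Module.finrank K⟮z⟯ F) (i₀ : ι)
    (f : F) : σ i₀ (algebraMap K⟮z⟯ F (Algebra.norm K⟮z⟯ f)) = ∏ i, σ i f := by
  classical
  set E := AlgebraicClosure Ω with hE
  let φ₀ : K⟮z⟯ →+* Ω := ((σ i₀).comp K⟮z⟯.val).toRingHom
  letI algΩ : Algebra K⟮z⟯ Ω := φ₀.toAlgebra
  haveI : IsScalarTower K⟮z⟯ Ω E := inferInstance
  have halg : ∀ c : K⟮z⟯, algebraMap K⟮z⟯ E c = algebraMap Ω E (σ i₀ (c : F)) := fun c =>
    IsScalarTower.algebraMap_apply K⟮z⟯ Ω E c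
  -- the embeddings as `K(z)`-embeddings into the algebraic closure
  let τ : ι → (F →ₐ[K⟮z⟯] E) := fun i =>
    { toRingHom := (algebraMap Ω E).comp (σ i).toRingHom
      commutes' := fun c => by
        rw [halg c]
        show algebraMap Ω E (σ i (c : F)) = algebraMap Ω E (σ i₀ (c : F))
        rw [ta_algHom_eq_on_adjoin (hσz i i₀) c] }
  have hτ : ∀ i g, τ i g = algebraMap Ω E (σ i g) := fun _ _ => rfl
  have hτinj : Function.Injective τ := by
    intro i j hij
    apply hσ
    ext g
    have := DFunLike.congr_fun hij g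
    rw [hτ, hτ] at this
    exact (algebraMap Ω E).injective this
  have hτbij : Function.Bijective τ := by
    rw [Fintype.bijective_iff_injective_and_card]
    refine ⟨hτinj, ?_⟩
    rw [AlgHom.card, hcard]
  have h1 := Algebra.norm_eq_prod_embeddings K⟮z⟯ E f
  rw [← (Equiv.ofBijective τ hτbij).prod_comp] at h1
  simp only [Equiv.ofBijective_apply, hτ] at h1
  rw [← map_prod] at h1
  rw [halg] at h1
  exact (algebraMap Ω E).injective h1

end Fermat.Agent.T1
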