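/-
T1-A leaf T1A-EMB (helper5): every pole of `x` is the pull-back of the `t`-adic valuation under one
of the `n = [F : K(x)]` embeddings `F → K((t))` over `K(x)` (`K` algebraically closed, `x` a
separating generator of the function field `F / K`, the embeddings pairwise distinct, equal at `x`,
and `σ_i x` of negative order).

* `taEmbVal τ` : the valuation ring `{f | 0 ≤ order (τ f)}` of an embedding `τ : F → K((t))`;
* `taEmbPrime τ hy` : its centre on the integral closure of `K[y]` (`0 < order (τ y)`);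
* `ta_exists_embPrime_eq` : every prime over `(y)` is the centre of one of the embeddings
  (prime avoidance + `σ_{i₀} (N f) = ∏ σ_i f`, `NormEmb.lean`, + `f ∣ N f`);
* `ta_pole_of_embeddings`, `ta_pole_of_embeddings_fin` (the task signature), `ta_ncard_poles_le`.
-/
import Mathlib
import Fermat.Agent.Lib.CurveP.Riemann
import Fermat.Agent.Lib.T1.GoodRed.NormEmb

set_option autoImplicit false
set_option linter.style.haveILetI false
set_option linter.unusedSectionVars false

namespace Fermat.Agent.T1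

open AlgebraicCurve IsDedekindDomain IntermediateField Fermat.Agent.Curve
  Fermat.Agent.Curve.PlaceAux
open scoped IntermediateField.algebraAdjoinAdjoin

variable {K F : Type*} [Field K] [Field F] [Algebra K F]

section Order

variable (τ : F →ₐ[K] LaurentSeries K)

lemma ta_emb_ne_zero {f : F} (hf : f ≠ 0) : τ f ≠ 0 :=
  (map_ne_zero_iff _ τ.toRingHom.injective).mpr hf

lemma ta_order_mul {f g : F} (hf : f ≠ 0) (hg : g ≠ 0) :
    (τ (f * g)).order = (τ f).order + (τ g).order := by
  rw [map_mul, HahnSeries.order_mul (ta_emb_ne_zero τ hf) (ta_emb_ne_zero τ hg)]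

lemma ta_order_inv (f : F) : (τ f⁻¹).order = -(τ f).order := by
  by_cases hf : f = 0
  · rw [hf, inv_zero, map_zero, HahnSeries.order_zero, neg_zero]
  · have h := ta_order_mul τ hf (inv_ne_zero hf)
    rw [mul_inv_cancel₀ hf, map_one, HahnSeries.order_one] at h
    omega

lemma ta_order_algebraMap (a : K) : (τ (algebraMap K F a)).order = 0 := by
  rw [τ.commutes a, LaurentSeries.algebraMap_apply]
  exact HahnSeries.order_C

/-- the valuation ring of `F` attached to an embedding into the Laurent series -/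
def taEmbVal : ValuationSubring F where
  carrier := {f | 0 ≤ (τ f).order}
  mul_mem' := by
    intro f g hf hg
    simp only [Set.mem_ofPred_eq] at hf hg ⊢
    by_cases hf0 : f = 0
    · rw [hf0, zero_mul, map_zero, HahnSeries.order_zero]
    by_cases hg0 : g = 0
    · rw [hg0, mul_zero, map_zero, HahnSeries.order_zero]
    rw [ta_order_mul τ hf0 hg0]
    omega
  one_mem' := by
    simp only [Set.mem_ofPred_eq]
    rw [map_one, HahnSeries.order_one]
  add_mem' := by
    intro f g hf hg
    simp only [Set.mem_ofPred_eq] at hf hg ⊢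
    by_cases h0 : τ f + τ g = 0
    · rw [map_add, h0, HahnSeries.order_zero]
    · rw [map_add]
      exact le_trans (le_min hf hg) (HahnSeries.min_order_le_order_add h0)
  zero_mem' := by
    simp only [Set.mem_ofPred_eq]
    rw [map_zero, HahnSeries.order_zero]
  neg_mem' := by
    intro f hf
    simp only [Set.mem_ofPred_eq] at hf ⊢
    rw [map_neg, HahnSeries.order_neg]
    exact hf
  mem_or_inv_mem' := by
    intro f
    simp only [Set.mem_ofPred_eq]
    rw [ta_order_inv]
    omega

lemma mem_taEmbVal {f : F} : f ∈ taEmbVal τ ↔ 0 ≤ (τ f).order := Iff.rfl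

lemma ta_algebraMap_mem_embVal (a : K) : algebraMap K F a ∈ taEmbVal τ := by
  rw [mem_taEmbVal, ta_order_algebraMap]

/-- an element integral over a ring mapping into a valuation ring lies in the valuation ring -/
theorem ta_mem_of_isIntegral (V : ValuationSubring F) {R : Type*} [CommRing R] [Algebra R F]
    (hR : ∀ r : R, algebraMap R F r ∈ V) {f : F} (hf : IsIntegral R f) : f ∈ V := by
  obtain ⟨p, hmonic, hp⟩ := hf
  let φ : R →+* V := (algebraMap R F).codRestrict V.toSubring hR
  have hint : IsIntegral V f := by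
    refine ⟨p.map φ, hmonic.map φ, ?_⟩
    rw [Polynomial.eval₂_map]
    exact hp
  obtain ⟨g, hg⟩ := IsIntegrallyClosed.isIntegral_iff.mp hint
  rw [← hg]
  exact g.2

variable {y : F} (hy : 0 < (τ y).order)
include hy

/-- `K[y]` lies in the valuation ring if `τ y` has positive order -/
theorem ta_Ax_le (r : CurveP.Ax K y) : algebraMap (CurveP.Ax K y) F r ∈ taEmbVal τ := by
  let S : Subalgebra K F :=
    { (taEmbVal τ).toSubring with
      algebraMap_mem' := fun a => ta_algebraMap_mem_embVal τ a }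
  have h : Algebra.adjoin K {y} ≤ S := Algebra.adjoin_le (by
    intro z hz
    rw [Set.mem_singleton_iff] at hz
    rw [hz]
    exact hy.le)
  exact h r.2

/-- the integral closure of `K[y]` lies in the valuation ring if `τ y` has positive order -/
theorem ta_Bx_le (b : CurveP.Bx K y) : algebraMap (CurveP.Bx K y) F b ∈ taEmbVal τ :=
  ta_mem_of_isIntegral (taEmbVal τ) (ta_Ax_le τ hy) b.2

/-- the centre of the embedding on the integral closure of `K[y]` -/
def taEmbPrime : Ideal (CurveP.Bx K y) where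
  carrier := {b | b = 0 ∨ 0 < (τ (b : F)).order}
  add_mem' := by
    intro b c hb hc
    simp only [Set.mem_ofPred_eq] at hb hc ⊢
    rcases hb with rfl | hb
    · rw [zero_add]; exact hc
    rcases hc with rfl | hc
    · rw [add_zero]; exact Or.inr hb
    by_cases h0 : b + c = 0
    · exact Or.inl h0
    right
    have h1 : τ (b : F) + τ (c : F) ≠ 0 := by
      rw [← map_add]
      apply ta_emb_ne_zero
      intro h
      apply h0
      exact Subtype.ext h
    have h2 := HahnSeries.min_order_le_order_add h1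
    have h3 : ((b + c : CurveP.Bx K y) : F) = (b : F) + (c : F) := rfl
    rw [h3, map_add]
    exact lt_of_lt_of_le (lt_min hb hc) h2
  zero_mem' := Or.inl rfl
  smul_mem' := by
    intro c b hb
    simp only [Set.mem_ofPred_eq] at hb ⊢
    rcases hb with rfl | hb
    · left; rw [smul_zero]
    by_cases hc0 : c = 0
    · left; rw [hc0, zero_smul]
    by_cases hb0 : b = 0
    · left; rw [hb0, smul_zero]
    right
    have hcF : (c : F) ≠ 0 := fun h => hc0 (Subtype.ext h)
    have hbF : (b : F) ≠ 0 := fun h => hb0 (Subtype.ext h)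
    have h3 : ((c • b : CurveP.Bx K y) : F) = (c : F) * (b : F) := rfl
    rw [h3, ta_order_mul τ hcF hbF]
    have := ta_Bx_le τ hy c
    rw [mem_taEmbVal] at this
    have h4 : algebraMap (CurveP.Bx K y) F c = (c : F) := rfl
    rw [h4] at this
    omega

theorem mem_taEmbPrime {b : CurveP.Bx K y} :
    b ∈ taEmbPrime τ hy ↔ b = 0 ∨ 0 < (τ (b : F)).order := Iff.rfl

theorem taEmbPrime_isPrime : (taEmbPrime τ hy).IsPrime := by
  refine ⟨?_, ?_⟩
  · intro h
    have h1 : (1 : CurveP.Bx K y) ∈ taEmbPrime τ hy := by rw [h]; exact Submodule.mem_top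
    rw [mem_taEmbPrime] at h1
    rcases h1 with h1 | h1
    · exact one_ne_zero h1
    · have h2 : ((1 : CurveP.Bx K y) : F) = 1 := rfl
      rw [h2, map_one, HahnSeries.order_one] at h1
      exact lt_irrefl _ h1
  · intro b c hbc
    rw [mem_taEmbPrime] at hbc
    rw [mem_taEmbPrime, mem_taEmbPrime]
    by_cases hb0 : b = 0
    · exact Or.inl (Or.inl hb0)
    by_cases hc0 : c = 0
    · exact Or.inr (Or.inl hc0)
    have hbF : (b : F) ≠ 0 := fun h => hb0 (Subtype.ext h)
    have hcF : (c : F) ≠ 0 := fun h => hc0 (Subtype.ext h)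
    rcases hbc with h | h
    · exact absurd h (mul_ne_zero hb0 hc0)
    · have h3 : ((b * c : CurveP.Bx K y) : F) = (b : F) * (c : F) := rfl
      rw [h3, ta_order_mul τ hbF hcF] at h
      have h1 := ta_Bx_le τ hy b
      have h2 := ta_Bx_le τ hy c
      rw [mem_taEmbVal] at h1 h2
      have h4 : algebraMap (CurveP.Bx K y) F b = (b : F) := rfl
      have h5 : algebraMap (CurveP.Bx K y) F c = (c : F) := rfl
      rw [h4] at h1
      rw [h5] at h2
      by_cases hb : 0 < (τ (b : F)).order
      · exact Or.inl (Or.inr hb)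
      · right; right; omega

end Order

section Main

variable [IsAlgClosed K] {y : F} [hyF : Fact (IsFunctionFieldGen K F y)]
  [Algebra.IsSeparable K⟮y⟯ F]

section One

variable (τ : F →ₐ[K] LaurentSeries K) (hy : 0 < (τ y).order)

theorem taEmbPrime_liesOver : (taEmbPrime τ hy).LiesOver (CurveP.pa y (0 : K)) := by
  haveI := taEmbPrime_isPrime τ hy
  refine ⟨?_⟩
  have hle : CurveP.pa y (0 : K) ≤ (taEmbPrime τ hy).under (CurveP.Ax K y) := by
    rw [CurveP.pa, Ideal.span_le, Set.singleton_subset_iff]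
    show algebraMap (CurveP.Ax K y) (CurveP.Bx K y) (CurveP.xi y (0 : K)) ∈ taEmbPrime τ hy
    rw [mem_taEmbPrime]
    right
    have hcoe : ((algebraMap (CurveP.Ax K y) (CurveP.Bx K y) (CurveP.xi y (0 : K)) :
        CurveP.Bx K y) : F) = y - algebraMap K F 0 := rfl
    rw [hcoe, map_zero, sub_zero]
    exact hy
  have hne : (taEmbPrime τ hy).under (CurveP.Ax K y) ≠ ⊤ :=
    (Ideal.IsPrime.under (CurveP.Ax K y) (taEmbPrime τ hy)).ne_top
  exact (CurveP.pa_isMaximal (x := y) (0 : K)).eq_of_le hne hle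

/-- the prime over `(y)` attached to the embedding -/
def taEmbPrimeOver : (CurveP.pa y (0 : K)).primesOver (CurveP.Bx K y) :=
  ⟨taEmbPrime τ hy, taEmbPrime_isPrime τ hy, taEmbPrime_liesOver τ hy⟩

/-- the valuation ring of the place attached to the centre of an embedding is the valuation ring
of the embedding -/
theorem ta_placeOver_embPrime (q : (CurveP.pa y (0 : K)).primesOver (CurveP.Bx K y))
    (hq : q.1 = taEmbPrime τ hy) :
    (CurveP.placeOver (x := y) (0 : K) q).toValuationSubring = taEmbVal τ := by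
  haveI : IsDedekindDomain (CurveP.Bx K y) := CurveP.Bx.isDedekindDomain
  haveI : IsFractionRing (CurveP.Bx K y) F := CurveP.Bx.isFractionRing
  have hne : taEmbVal τ ≠ ⊤ := by
    intro h
    have h1 : y⁻¹ ∈ taEmbVal τ := by rw [h]; exact ValuationSubring.mem_top _
    rw [mem_taEmbVal, ta_order_inv] at h1
    omega
  refine ValuationSubring.eq_of_le_of_ne_top _ ?_ hne
  intro f hf
  rw [CurveP.placeOver, Place.ofHeightOneSpectrum_toValuationSubring,
    Valuation.mem_valuationSubring_iff] at hf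
  obtain ⟨n, d, hnd⟩ :=
    (CurveP.heightOneOfPrimesOver (0 : K) q).exists_primeCompl_mul_eq_of_integer f hf
  have hd : (d : CurveP.Bx K y) ∉ q.1 := d.2
  rw [hq, mem_taEmbPrime] at hd
  push Not at hd
  have hdF : ((d : CurveP.Bx K y) : F) ≠ 0 := fun h => hd.1 (Subtype.ext h)
  have hd0 : (τ ((d : CurveP.Bx K y) : F)).order = 0 := by
    have h1 := ta_Bx_le τ hy (d : CurveP.Bx K y)
    rw [mem_taEmbVal] at h1
    have h2 : algebraMap (CurveP.Bx K y) F (d : CurveP.Bx K y) = ((d : CurveP.Bx K y) : F) := rfl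
    rw [h2] at h1
    omega
  have hn := ta_Bx_le τ hy n
  rw [← hnd, mem_taEmbVal] at hn
  rw [mem_taEmbVal]
  by_cases hf0 : f = 0
  · rw [hf0, map_zero, HahnSeries.order_zero]
  · have h3 : algebraMap (CurveP.Bx K y) F (d : CurveP.Bx K y) = ((d : CurveP.Bx K y) : F) := rfl
    rw [h3, ta_order_mul τ hf0 hdF, hd0, add_zero] at hn
    exact hn

end One

/-- a product of nonzero Laurent series of order `0` is nonzero of order `0` -/
lemma ta_order_prod {ι : Type*} (s : Finset ι) (g : ι → LaurentSeries K)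
    (h : ∀ i ∈ s, g i ≠ 0 ∧ (g i).order = 0) :
    (∏ i ∈ s, g i) ≠ 0 ∧ (∏ i ∈ s, g i).order = 0 := by
  classical
  induction s using Finset.induction_on with
  | empty =>
    rw [Finset.prod_empty]
    exact ⟨one_ne_zero, HahnSeries.order_one⟩
  | insert a s ha ih =>
    rw [Finset.prod_insert ha]
    obtain ⟨h1, h2⟩ := ih (fun i hi => h i (Finset.mem_insert_of_mem hi))
    obtain ⟨h3, h4⟩ := h a (Finset.mem_insert_self a s)
    refine ⟨mul_ne_zero h3 h1, ?_⟩
    rw [HahnSeries.order_mul h3 h1, h2, h4, add_zero]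

section Family

variable {ι : Type*} [Fintype ι] (σ : ι → (F →ₐ[K] LaurentSeries K))
  (hσ : Function.Injective σ) (hσy : ∀ i j, σ i y = σ j y) (hord : ∀ i, 0 < (σ i y).order)
  (hcard : Fintype.card ι = Module.finrank K⟮y⟯ F)

include hσ hσy hcard in
/-- **every prime over `(y)` is the centre of one of the embeddings** -/
theorem ta_exists_embPrime_eq (q : (CurveP.pa y (0 : K)).primesOver (CurveP.Bx K y)) :
    ∃ i, q.1 = taEmbPrime (σ i) (hord i) := by
  classical
  haveI : FiniteDimensional K⟮y⟯ F := hyF.out.finite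
  haveI : IsPrincipalIdealRing (CurveP.Ax K y) := CurveP.Ax.isPrincipalIdealRing
  haveI : IsDedekindDomain (CurveP.Bx K y) := CurveP.Bx.isDedekindDomain
  haveI : IsFractionRing (CurveP.Bx K y) F := CurveP.Bx.isFractionRing
  haveI : Module.Finite (CurveP.Ax K y) (CurveP.Bx K y) := CurveP.Bx.moduleFinite
  by_contra hcon
  push Not at hcon
  -- `ι` is nonempty
  have hpos : 0 < Fintype.card ι := by rw [hcard]; exact Module.finrank_pos
  obtain ⟨i₀⟩ := Fintype.card_pos_iff.mp hpos
  -- prime avoidance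
  have hqmax : q.1.IsMaximal := (CurveP.heightOneOfPrimesOver (0 : K) q).isMaximal
  have hnle : ¬ ∃ i ∈ (Finset.univ : Finset ι), q.1 ≤ taEmbPrime (σ i) (hord i) := by
    rintro ⟨i, -, hle⟩
    exact hcon i (hqmax.eq_of_le (taEmbPrime_isPrime (σ i) (hord i)).ne_top hle)
  rw [← Ideal.subset_union_prime (s := Finset.univ)
    (f := fun i => taEmbPrime (σ i) (hord i)) i₀ i₀
    (fun i _ _ _ => taEmbPrime_isPrime (σ i) (hord i))] at hnle
  rw [Set.not_subset] at hnle
  obtain ⟨b, hbq, hbn⟩ := hnle
  have hbi : ∀ i, b ∉ taEmbPrime (σ i) (hord i) := by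
    intro i hi
    apply hbn
    simp only [Finset.coe_univ, Set.mem_univ, Set.iUnion_true, Set.mem_iUnion, SetLike.mem_coe]
    exact ⟨i, hi⟩
  -- the orders of the `σ i b`
  have hb0 : b ≠ 0 := by
    rintro rfl
    exact hbi i₀ (Ideal.zero_mem _)
  have hbF : (b : F) ≠ 0 := fun h => hb0 (Subtype.ext h)
  have hfac : ∀ i ∈ (Finset.univ : Finset ι), σ i (b : F) ≠ 0 ∧ (σ i (b : F)).order = 0 := by
    intro i _
    refine ⟨ta_emb_ne_zero (σ i) hbF, ?_⟩
    have h1 := ta_Bx_le (σ i) (hord i) b
    rw [mem_taEmbVal] at h1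
    have h2 : algebraMap (CurveP.Bx K y) F b = (b : F) := rfl
    rw [h2] at h1
    have h3 := hbi i
    rw [mem_taEmbPrime] at h3
    push Not at h3
    omega
  obtain ⟨hprod0, hprodord⟩ := ta_order_prod Finset.univ (fun i => σ i (b : F)) hfac
  -- the norm
  set N := Algebra.intNorm (CurveP.Ax K y) (CurveP.Bx K y) b with hN
  have hdvd := Algebra.dvd_algebraMap_intNorm_self (CurveP.Ax K y) (CurveP.Bx K y) b
  have hNq : algebraMap (CurveP.Ax K y) (CurveP.Bx K y) N ∈ q.1 := by
    obtain ⟨c, hc⟩ := hdvd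
    rw [hc]
    exact q.1.mul_mem_right c hbq
  have hlo : q.1.LiesOver (CurveP.pa y (0 : K)) := q.2.2
  rw [← Ideal.mem_of_liesOver q.1 (CurveP.pa y (0 : K)), CurveP.pa,
    Ideal.mem_span_singleton'] at hNq
  obtain ⟨r, hr⟩ := hNq
  have hNF : ((N : CurveP.Ax K y) : F) = (r : F) * y := by
    rw [← hr]
    show (r : F) * (y - algebraMap K F 0) = (r : F) * y
    rw [map_zero, sub_zero]
  have hnorm : algebraMap K⟮y⟯ F (Algebra.norm K⟮y⟯ (b : F)) = ((N : CurveP.Ax K y) : F) := by
    have h1 := Algebra.algebraMap_intNorm (A := CurveP.Ax K y) (K := K⟮y⟯) (L := F)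
      (B := CurveP.Bx K y) b
    have h2 : algebraMap (CurveP.Bx K y) F b = (b : F) := rfl
    rw [h2] at h1
    rw [← h1, ← IsScalarTower.algebraMap_apply (CurveP.Ax K y) K⟮y⟯ F]
    rfl
  have hmain := ta_norm_eq_prod σ hσ hσy hcard i₀ (b : F)
  rw [hnorm, hNF] at hmain
  have hry : (r : F) * y ≠ 0 := by
    intro h
    rw [h, map_zero] at hmain
    exact hprod0 hmain.symm
  have hrF : (r : F) ≠ 0 := left_ne_zero_of_mul hry
  have hyF0 : y ≠ 0 := right_ne_zero_of_mul hry
  have hrord := ta_Ax_le (σ i₀) (hord i₀) r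
  rw [mem_taEmbVal] at hrord
  have h4 : algebraMap (CurveP.Ax K y) F r = (r : F) := rfl
  rw [h4] at hrord
  have hlhs := ta_order_mul (σ i₀) hrF hyF0
  rw [hmain, hprodord] at hlhs
  have := hord i₀
  omega

end Family

end Main

section Final

variable [IsAlgClosed K] {x : F} (hx : IsFunctionFieldGen K F x) [Algebra.IsSeparable K⟮x⟯ F]
  {ι : Type*} [Fintype ι] (σ : ι → (F →ₐ[K] LaurentSeries K)) (hσ : Function.Injective σ)
  (hσx : ∀ i j, σ i x = σ j x) (hord : ∀ i, (σ i x).order < 0)
  (hcard : Fintype.card ι = Module.finrank K⟮x⟯ F)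

include hx hσ hσx hord hcard in
/-- **every pole of `x` is the pull-back of the `t`-adic valuation under one of the `n`
embeddings `F → K((t))` over `K(x)`** -/
theorem ta_pole_of_embeddings (Q : Place K F) (hQ : Q.ord x < 0) :
    ∃ i, ∀ f : F, f ∈ Q.toValuationSubring ↔ 0 ≤ (σ i f).order := by
  haveI : Fact (IsFunctionFieldGen K F x⁻¹) := ⟨CurveP.isFunctionFieldGen_inv hx⟩
  haveI := CurveP.isSeparable_adjoin_inv (K := K) x
  have hσy : ∀ i j, σ i x⁻¹ = σ j x⁻¹ := fun i j => by rw [map_inv₀, map_inv₀, hσx i j]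
  have hordy : ∀ i, 0 < (σ i x⁻¹).order := fun i => by
    rw [ta_order_inv]
    have := hord i
    omega
  have hcardy : Fintype.card ι = Module.finrank K⟮x⁻¹⟯ F := by
    rw [hcard, CurveP.adjoin_simple_inv_eq]
  have hQmem : Q ∈ Set.range (CurveP.placeOver (x := x⁻¹) (0 : K)) := by
    rw [CurveP.range_placeOver]
    show 0 < Q.ord (x⁻¹ - algebraMap K F 0)
    rw [map_zero, sub_zero, Q.ord_inv]
    omega
  obtain ⟨q, rfl⟩ := hQmem
  obtain ⟨i, hi⟩ := ta_exists_embPrime_eq σ hσ hσy hordy hcardy q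
  refine ⟨i, fun f => ?_⟩
  rw [ta_placeOver_embPrime (σ i) (hordy i) q hi]
  exact mem_taEmbVal (σ i)

include hx hσ hσx hord hcard in
/-- the number of poles of `x` is at most the number of classes of embeddings, for any
classification `cls` of the embeddings which is finer than "same valuation ring" -/
theorem ta_ncard_poles_le {C : Type*} (cls : ι → C)
    (hcls : ∀ i j, cls i = cls j → ∀ f : F, 0 ≤ (σ i f).order ↔ 0 ≤ (σ j f).order) :
    {Q : Place K F | Q.ord x < 0}.ncard ≤ (Set.range cls).ncard := by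
  classical
  haveI : FiniteDimensional K⟮x⟯ F := hx.finite
  have hpos : 0 < Fintype.card ι := by rw [hcard]; exact Module.finrank_pos
  obtain ⟨i₀⟩ := Fintype.card_pos_iff.mp hpos
  have hex := ta_pole_of_embeddings hx σ hσ hσx hord hcard
  let g : Place K F → C := fun Q =>
    if h : Q.ord x < 0 then cls (hex Q h).choose else cls i₀
  refine Set.ncard_le_ncard_of_injOn g ?_ ?_ (Set.finite_range cls)
  · intro Q _
    show g Q ∈ Set.range cls
    simp only [g]
    split_ifs
    · exact ⟨_, rfl⟩
    · exact ⟨_, rfl⟩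
  · intro Q hQ Q' hQ' hgg
    have hQ1 : Q.ord x < 0 := hQ
    have hQ2 : Q'.ord x < 0 := hQ'
    simp only [g, dif_pos hQ1, dif_pos hQ2] at hgg
    apply Place.ext
    ext f
    rw [(hex Q hQ1).choose_spec f, (hex Q' hQ2).choose_spec f]
    exact hcls _ _ hgg f

include hx in
/-- the task signature (`ι = Fin n`) -/
theorem ta_pole_of_embeddings_fin {n : ℕ} [NeZero n] (hn : Module.finrank K⟮x⟯ F = n)
    (σ : Fin n → (F →ₐ[K] LaurentSeries K)) (hσ : Function.Injective σ)
    (hσx : ∀ i, σ i x = σ 0 x) (hord : (σ 0 x).order < 0) (Q : Place K F) (hQ : Q.ord x < 0) :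
    ∃ i, ∀ f : F, f ∈ Q.toValuationSubring ↔ 0 ≤ (σ i f).order ∨ σ i f = 0 := by
  obtain ⟨i, hi⟩ := ta_pole_of_embeddings hx σ hσ (fun i j => (hσx i).trans (hσx j).symm)
    (fun i => by rw [hσx i]; exact hord) (by rw [Fintype.card_fin, hn]) Q hQ
  refine ⟨i, fun f => ?_⟩
  rw [hi f]
  constructor
  · exact Or.inl
  · rintro (h | h)
    · exact h
    · rw [h, HahnSeries.order_zero]

end Final

end Fermat.Agent.T1
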