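/-
T1-A, T1A-BASE (helper5): the place of a function field `F / K` attached to an embedding
`τ : F → K((t))` (the pull-back of the `t`-adic valuation), and a criterion for two such places to
be different.
-/
import Mathlib
import Fermat.Agent.Lib.Curve.PlaceOfValuation
import Fermat.Agent.Lib.T1.GoodRed.PoleEmb

set_option autoImplicit false
set_option linter.style.haveILetI false
set_option linter.unusedSectionVars false

namespace Fermat.Agent.T1

open AlgebraicCurve WithZero Fermat.Agent.Curve

variable {K F : Type*} [Field K] [Field F] [Algebra K F] (τ : F →ₐ[K] LaurentSeries K)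

open Classical in
/-- the pull-back of the `t`-adic valuation under `τ` -/
noncomputable def taEmbValuation : Valuation F ℤᵐ⁰ where
  toFun f := if f = 0 then 0 else exp (-(τ f).order)
  map_zero' := if_pos rfl
  map_one' := by
    rw [if_neg one_ne_zero, map_one, HahnSeries.order_one, neg_zero, exp_zero]
  map_mul' f g := by
    by_cases hf : f = 0
    · simp [hf]
    by_cases hg : g = 0
    · simp [hg]
    rw [if_neg hf, if_neg hg, if_neg (mul_ne_zero hf hg), ← exp_add, ta_order_mul τ hf hg]
    congr 1
    ring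
  map_add_le_max' f g := by
    by_cases hf : f = 0
    · simp [hf]
    by_cases hg : g = 0
    · simp [hg]
    by_cases hfg : f + g = 0
    · rw [if_pos hfg]; exact zero_le
    rw [if_neg hf, if_neg hg, if_neg hfg, le_max_iff, exp_le_exp, exp_le_exp, map_add]
    have h1 := HahnSeries.min_order_le_order_add (x := τ f) (y := τ g)
      (by rw [← map_add]; exact ta_emb_ne_zero τ hfg)
    rcases min_le_iff.mp h1 with h | h
    · left; omega
    · right; omega

theorem taEmbValuation_apply {f : F} (hf : f ≠ 0) :
    taEmbValuation τ f = exp (-(τ f).order) := by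
  classical
  show (if f = 0 then 0 else exp (-(τ f).order)) = _
  rw [if_neg hf]

theorem taEmbValuation_algebraMap_le_one (c : K) :
    taEmbValuation τ (algebraMap K F c) ≤ 1 := by
  by_cases hc : algebraMap K F c = 0
  · rw [hc, map_zero]; exact zero_le
  · rw [taEmbValuation_apply τ hc, ta_order_algebraMap, neg_zero, exp_zero]

theorem taEmbValuation_nontrivial (h : ∃ y : F, (τ y).order ≠ 0) :
    ∃ y : F, y ≠ 0 ∧ taEmbValuation τ y ≠ 1 := by
  obtain ⟨y, hy⟩ := h
  have hy0 : y ≠ 0 := by
    rintro rfl
    rw [map_zero, HahnSeries.order_zero] at hy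
    exact hy rfl
  refine ⟨y, hy0, ?_⟩
  rw [taEmbValuation_apply τ hy0, ← exp_zero, Ne, exp_inj]
  omega

/-- **the place of `F` defined by the embedding `τ`** -/
noncomputable def taEmbPlace (h : ∃ y : F, (τ y).order ≠ 0) : Place K F :=
  placeOfValuation (taEmbValuation τ) (taEmbValuation_algebraMap_le_one τ)
    (taEmbValuation_nontrivial τ h)

/-- the `t`-order is a positive multiple of the normalised order -/
theorem taEmbPlace_ord (h : ∃ y : F, (τ y).order ≠ 0) :
    ∃ m : ℕ, 0 < m ∧ ∀ f : F, (τ f).order = (m : ℤ) * (taEmbPlace τ h).ord f := by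
  obtain ⟨m, hm, hord⟩ := placeOfValuation_ord (taEmbValuation τ)
    (taEmbValuation_algebraMap_le_one τ) (taEmbValuation_nontrivial τ h)
  refine ⟨m, hm, fun f => ?_⟩
  rcases eq_or_ne f 0 with rfl | hf
  · rw [Place.ord_zero, map_zero, HahnSeries.order_zero, mul_zero]
  have h1 := hord f hf
  rw [taEmbValuation_apply τ hf, exp_inj] at h1
  show (τ f).order = (m : ℤ) * (placeOfValuation (taEmbValuation τ)
    (taEmbValuation_algebraMap_le_one τ) (taEmbValuation_nontrivial τ h)).ord f
  omega

theorem taEmbPlace_ord_neg (h : ∃ y : F, (τ y).order ≠ 0) {f : F} (hf : (τ f).order < 0) :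
    (taEmbPlace τ h).ord f < 0 := by
  obtain ⟨m, hm, hord⟩ := taEmbPlace_ord τ h
  rw [hord f] at hf
  have hm' : (0 : ℤ) < m := by exact_mod_cast hm
  by_contra hcon
  rw [not_lt] at hcon
  have := mul_nonneg hm'.le hcon
  omega

/-- two embeddings with the same place and the same (nonzero) order at one function have the same
orders everywhere -/
theorem taEmbPlace_order_eq {τ τ' : F →ₐ[K] LaurentSeries K} (h : ∃ y : F, (τ y).order ≠ 0)
    (h' : ∃ y : F, (τ' y).order ≠ 0) (heq : taEmbPlace τ h = taEmbPlace τ' h') {x : F}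
    (hx : (τ x).order = (τ' x).order) (hx0 : (τ x).order ≠ 0) (f : F) :
    (τ f).order = (τ' f).order := by
  obtain ⟨m, hm, hord⟩ := taEmbPlace_ord τ h
  obtain ⟨m', hm', hord'⟩ := taEmbPlace_ord τ' h'
  rw [← heq] at hord'
  have h1 : (m : ℤ) * (taEmbPlace τ h).ord x = (m' : ℤ) * (taEmbPlace τ h).ord x := by
    rw [← hord x, ← hord' x, hx]
  have h2 : (taEmbPlace τ h).ord x ≠ 0 := by
    intro h0
    rw [hord x, h0, mul_zero] at hx0
    exact hx0 rfl
  have h3 : (m : ℤ) = m' := mul_right_cancel₀ h2 h1
  rw [hord f, hord' f, h3]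

/-- the places of two embeddings differ if the orders of some function differ while the
(nonzero) orders of another one agree -/
theorem taEmbPlace_ne {τ τ' : F →ₐ[K] LaurentSeries K} (h : ∃ y : F, (τ y).order ≠ 0)
    (h' : ∃ y : F, (τ' y).order ≠ 0) {x : F}
    (hx : (τ x).order = (τ' x).order) (hx0 : (τ x).order ≠ 0) {f : F}
    (hf : (τ f).order ≠ (τ' f).order) : taEmbPlace τ h ≠ taEmbPlace τ' h' :=
  fun heq => hf (taEmbPlace_order_eq h h' heq hx hx0 f)

/-- the places of two embeddings differ if some function is integral for one and not for the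
other -/
theorem taEmbPlace_ne_of_mem {τ τ' : F →ₐ[K] LaurentSeries K} (h : ∃ y : F, (τ y).order ≠ 0)
    (h' : ∃ y : F, (τ' y).order ≠ 0) {f : F} (hf : 0 ≤ (τ f).order) (hf' : (τ' f).order < 0) :
    taEmbPlace τ h ≠ taEmbPlace τ' h' := by
  intro heq
  obtain ⟨m, hm, hord⟩ := taEmbPlace_ord τ h
  obtain ⟨m', hm', hord'⟩ := taEmbPlace_ord τ' h'
  rw [← heq] at hord'
  rw [hord f] at hf
  rw [hord' f] at hf'
  have hm0 : (0 : ℤ) < m := by exact_mod_cast hm
  have hm0' : (0 : ℤ) < m' := by exact_mod_cast hm'
  have h1 : 0 ≤ (taEmbPlace τ h).ord f := by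
    by_contra hcon
    rw [not_le] at hcon
    have := mul_neg_of_pos_of_neg hm0 hcon
    omega
  have := mul_nonneg hm0'.le h1
  omega

end Fermat.Agent.T1
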