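/-
T1-A leaf T1A-P (helper5): the pole / integrality dictionary in `CurveP` (any characteristic,
separating generator `x`; port of helper9's `Lib/Eis/Geom/D3/PoleInt.lean`): a function regular at
all places where `x` is regular is integral over `K[x]`, and conversely; a function in
`L(n (x)_∞)` is integral over `K[x]`, and `f x⁻ⁿ` is integral over `K[x⁻¹]`.
-/
import Mathlib
import Fermat.Agent.Lib.CurveP.Riemann

set_option autoImplicit false
set_option linter.style.haveILetI false
set_option linter.unusedSectionVars false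

namespace Fermat.Agent.T1

open AlgebraicCurve IsDedekindDomain IntermediateField Fermat.Agent.Curve
  Fermat.Agent.Curve.PlaceAux

variable {K F : Type*} [Field K] [Field F] [Algebra K F]

/-- a function which is regular at every place where `x` is regular is integral over `K[x]`
(valuation ring form) -/
theorem ta_isIntegral_of_regular_mem {x : F} (hx : IsFunctionFieldGen K F x)
    [Algebra.IsSeparable K⟮x⟯ F] (f : F)
    (h : ∀ v : Place K F, x ∈ v.toValuationSubring → f ∈ v.toValuationSubring) :
    IsIntegral ↥(Algebra.adjoin K {x}) f := by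
  haveI : Fact (IsFunctionFieldGen K F x) := ⟨hx⟩
  haveI : IsDedekindDomain (CurveP.Bx K x) := CurveP.Bx.isDedekindDomain
  haveI : IsFractionRing (CurveP.Bx K x) F := CurveP.Bx.isFractionRing
  have hmem : f ∈ (algebraMap (CurveP.Bx K x) F).range := by
    refine HeightOneSpectrum.mem_integers_of_valuation_le_one F f (fun w => ?_)
    have hxw : x ∈ (Place.ofHeightOneSpectrum (K := K) (F := F) w).toValuationSubring := by
      rw [Place.ofHeightOneSpectrum_toValuationSubring, Valuation.mem_valuationSubring_iff]
      have hxB : x ∈ CurveP.Bx K x :=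
        (CurveP.Bx K x).algebraMap_mem ⟨x, Algebra.self_mem_adjoin_singleton K x⟩
      exact HeightOneSpectrum.valuation_le_one w (⟨x, hxB⟩ : CurveP.Bx K x)
    have hf := h _ hxw
    rwa [Place.ofHeightOneSpectrum_toValuationSubring, Valuation.mem_valuationSubring_iff] at hf
  obtain ⟨b, rfl⟩ := hmem
  exact b.2

/-- **a function which is regular at every place where `x` is regular is integral over `K[x]`** -/
theorem ta_isIntegral_of_regular {x : F} (hx : IsFunctionFieldGen K F x)
    [Algebra.IsSeparable K⟮x⟯ F] (f : F)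
    (hf : ∀ v : Place K F, 0 ≤ v.ord x → 0 ≤ v.ord f) :
    IsIntegral ↥(Algebra.adjoin K {x}) f := by
  have hx0 : x ≠ 0 := fun h0 => hx.transcendental (h0 ▸ isAlgebraic_zero)
  refine ta_isIntegral_of_regular_mem hx f fun v hxv => ?_
  rw [PlaceAux.mem_iff] at hxv ⊢
  exact Or.inr (hf v (hxv.resolve_left hx0))

/-- **an element integral over `K[x]` is regular at every place where `x` is regular** -/
theorem ta_ord_nonneg_of_isIntegral {x : F} {f : F}
    (hf : IsIntegral ↥(Algebra.adjoin K {x}) f) (v : Place K F) (hxv : 0 ≤ v.ord x) :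
    0 ≤ v.ord f := by
  have hxm : x ∈ v.toValuationSubring := mem_of_ord_nonneg v hxv
  have hfm : f ∈ v.toValuationSubring :=
    CurveP.PlaceAux.mem_of_isIntegral_of_algebraMap_mem v
      (fun r => CurveP.PlaceAux.Ax_le v hxm r) hf
  exact ord_nonneg_of_mem v hfm

/-- an element of `L(n (x)_∞)` is integral over `K[x]`, and `f x⁻ⁿ` is integral over `K[x⁻¹]` -/
theorem ta_isIntegral_of_mem_riemannRochSpace [IsAlgClosed K] {x : F}
    (hx : IsFunctionFieldGen K F x) [Algebra.IsSeparable K⟮x⟯ F] (n : ℕ) {f : F}
    (hf : f ∈ riemannRochSpace ((n : ℤ) • CurveP.RRAux.poleDiv hx x)) :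
    IsIntegral ↥(Algebra.adjoin K {x}) f ∧
      IsIntegral ↥(Algebra.adjoin K {x⁻¹}) (f * x⁻¹ ^ n) := by
  have hx0 : x ≠ 0 := fun h0 => hx.transcendental (h0 ▸ isAlgebraic_zero)
  haveI := CurveP.isSeparable_adjoin_inv (K := K) x
  rw [mem_riemannRochSpace_iff] at hf
  constructor
  · refine ta_isIntegral_of_regular_mem hx f (fun v hxv => ?_)
    rw [PlaceAux.mem_iff] at hxv ⊢
    have hord : 0 ≤ v.ord x := hxv.resolve_left hx0
    rcases hf v with h0 | h1
    · exact Or.inl h0
    · right
      rw [Finsupp.smul_apply, CurveP.RRAux.poleDiv_apply, max_eq_left (by omega), smul_zero,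
        neg_zero] at h1
      exact h1
  · refine ta_isIntegral_of_regular_mem (CurveP.isFunctionFieldGen_inv hx) _ (fun v hxv => ?_)
    rw [PlaceAux.mem_iff] at hxv ⊢
    have hord : 0 ≤ v.ord x⁻¹ := hxv.resolve_left (inv_ne_zero hx0)
    rw [v.ord_inv] at hord
    rcases hf v with h0 | h1
    · left
      rw [h0, zero_mul]
    · by_cases hf0 : f = 0
      · left
        rw [hf0, zero_mul]
      right
      rw [Finsupp.smul_apply, CurveP.RRAux.poleDiv_apply, max_eq_right (by omega),
        smul_eq_mul] at h1
      rw [v.ord_mul hf0 (pow_ne_zero n (inv_ne_zero hx0)), ← zpow_natCast, v.ord_zpow,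
        v.ord_inv]
      nlinarith

end Fermat.Agent.T1
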