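/-
T1-A leaf T1A-U (helper5): the Igusa units lie in `k(j̄, j̄_r)`;
`modularFunctionFieldFullC k N = k(j̄)(igGenSet k N)` and `ψ(N) ≤ [k(j̄(q^d) : d ∣ N) : k(j̄)]`.
-/
import Mathlib
import Fermat.Agent.Lib.T1.GoodRed.Orb.UnitAbs
import Fermat.Agent.Lib.Igusa.TowerBridge
import Fermat.Agent.Lib.Igusa.TowerMain

set_option autoImplicit false

open HahnSeries ModularCurve IntermediateField Fermat.Agent.Igusa

namespace Fermat.Agent.T1

variable (k : Type*) [Field k] [IsAlgClosed k]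

/-- **the Igusa unit `Ū_r = r¹² Δ̄(q^r)/Δ̄(q)` lies in `k(j̄, j̄_r)`** (`r` prime, `r ≠ 0` in `k`) -/
theorem ta_unitInfLS_mem (r : ℕ) [NeZero r] (hr : r.Prime) (hrk : (r : k) ≠ 0) :
    unitInfLS k r ∈ adjoin k {jqModC k, qExpand k r (jqModC k)} := by
  have h := (pzTowerData k r hrk).ur_mem_adjoin_xj hr (dvd_refl r)
  rw [pzTowerData_ur, pzTowerData_xj_one, pzTowerData_xj r hrk r] at h
  have hmap : adjoin k {qExpand k r (jqModC k), qExpand k r (qExpand k r (jqModC k))} =
      (adjoin k {jqModC k, qExpand k r (jqModC k)}).map (qExpandAlgHomC k r) := by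
    rw [IntermediateField.adjoin_map, Set.image_pair]
    rfl
  rw [hmap] at h
  obtain ⟨y, hy, hyx⟩ := h
  have hyx' : y = unitInfLS k r := (qExpandAlgHomC k r).injective hyx
  rw [← hyx']
  exact hy

variable (N : ℕ) [NeZero N]

omit [IsAlgClosed k] in
theorem ta_natCast_ne_zero_of_dvd (hN : (N : k) ≠ 0) {r : ℕ} (hrN : r ∣ N) : (r : k) ≠ 0 := by
  intro h
  obtain ⟨d, rfl⟩ := hrN
  apply hN
  rw [Nat.cast_mul, h, zero_mul]

/-- all Igusa generators lie in `k(j̄(q^d) : d ∣ N)` -/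
theorem ta_igGenSet_subset_full (hN : (N : k) ≠ 0) :
    igGenSet k N ⊆ (modularFunctionFieldFullC k N : Set (LaurentSeries k)) := by
  rintro x (⟨d, hd0, hd, rfl⟩ | ⟨r, hr0, hr, hd, rfl⟩)
  · exact jqModCd_mem_full k N hd
  · have h1 := ta_unitInfLS_mem k r hr (ta_natCast_ne_zero_of_dvd k N hN hd)
    have h2 : adjoin k {jqModC k, qExpand k r (jqModC k)} ≤ modularFunctionFieldFullC k N := by
      rw [adjoin_le_iff]
      rintro y (rfl | hy)
      · exact jqModC_mem_full k N
      · rw [Set.mem_singleton_iff] at hy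
        rw [hy]
        exact jqModCd_mem_full k N hd
    exact h2 h1

omit [IsAlgClosed k] [NeZero N] in
theorem ta_kappaJ_le_full : kappaJ k ≤ modularFunctionFieldFullC k N := by
  rw [IntermediateField.adjoin_simple_le_iff]
  exact jqModC_mem_full k N

/-- **`k(j̄(q^d) : d ∣ N) = k(j̄)(X_d, Ū_r)`** -/
theorem ta_adjoin_igGenSet_eq (hN : (N : k) ≠ 0) :
    (adjoin ↥(kappaJ k) (igGenSet k N)).restrictScalars k = modularFunctionFieldFullC k N := by
  apply le_antisymm
  · intro x hx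
    have h1 : adjoin ↥(kappaJ k) (igGenSet k N) ≤ extendScalars (ta_kappaJ_le_full k N) := by
      rw [adjoin_le_iff]
      intro y hy
      exact ta_igGenSet_subset_full k N hN hy
    have hx' : x ∈ adjoin ↥(kappaJ k) (igGenSet k N) := hx
    exact (mem_extendScalars (ta_kappaJ_le_full k N)).mp (h1 hx')
  · rw [modularFunctionFieldFullC, adjoin_le_iff]
    rintro x ⟨d, hd0, hd, rfl⟩
    have h1 : qExpand k d (jqModC k) ∈ adjoin ↥(kappaJ k) (igGenSet k N) :=
      subset_adjoin ↥(kappaJ k) (igGenSet k N) (qExpand_jqModC_mem_igGenSet hd)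
    exact h1

theorem ta_adjoin_full_eq (hN : (N : k) ≠ 0) :
    adjoin ↥(kappaJ k) (modularFunctionFieldFullC k N : Set (LaurentSeries k)) =
      adjoin ↥(kappaJ k) (igGenSet k N) := by
  apply le_antisymm
  · rw [adjoin_le_iff]
    intro x hx
    have h := (ta_adjoin_igGenSet_eq k N hN).ge hx
    exact h
  · exact adjoin.mono _ _ _ (ta_igGenSet_subset_full k N hN)

/-- **`ψ(N) ≤ [k(j̄(q^d) : d ∣ N) : k(j̄)]`** (the `≥` part of `ta_finrank_bar`) -/
theorem ta_dedekindPsi_le_finrank_full (hN : (N : k) ≠ 0) :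
    dedekindPsi N ≤ Module.finrank ↥(kappaJ k)
      ↥(adjoin ↥(kappaJ k) (modularFunctionFieldFullC k N : Set (LaurentSeries k))) := by
  rw [ta_adjoin_full_eq k N hN]
  exact ig_tower_bound_of_relfinrank k N hN ((pzTowerData k N hN).dedekindPsi_le)

omit [NeZero N] in
/-- the image of `k(j̄(q^d) : d ∣ N)` under `q = t^N` is the top field of the Puiseux tower, and
it is generated by the `X_{r^i}` alone -/
theorem ta_pzTowerData_KM_eq (hN : (N : k) ≠ 0) :
    (pzTowerData k N hN).KM N = (pzTowerData k N hN).orbK N :=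
  (pzTowerData k N hN).KM_eq_orbK (dvd_refl N)

end Fermat.Agent.T1
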