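/-
T1-A, T1A-BARFIELD (helper5): `F̄ = modularFunctionFieldFullC k N = k(j̄(q^d) : d ∣ N)` as a
function field of one variable over the algebraically closed field `k` (`N ≠ 0` in `k`):
`j̄` is a separating transcendental generator.
-/
import Mathlib
import Fermat.Agent.Lib.T1.GoodRed.UnitMem
import Fermat.Agent.Lib.T1.GoodRed.Orb.PhiSep
import Fermat.Agent.Lib.Eis.Geom.FieldTwo

set_option autoImplicit false
set_option linter.unusedSectionVars false

open HahnSeries ModularCurve IntermediateField Polynomial Fermat.Agent.Igusa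

noncomputable section

namespace Fermat.Agent.T1

/-! ### Two general lemmas -/

section General

variable {k Ω : Type*} [Field k] [Field Ω] [Algebra k Ω]

/-- a root `s` of a separable polynomial `P(X, x)` with `x` separable over `κ` is separable
over `κ` -/
theorem ta_isSeparable_of_biv (κ : IntermediateField k Ω) {x s : Ω} (hx : IsSeparable ↥κ x)
    (P : Polynomial (Polynomial k)) (hroot : ((P.map (twEv x)).eval s) = 0)
    (hsep : (P.map (twEv x)).Separable) : IsSeparable ↥κ s := by
  set E : IntermediateField ↥κ Ω := (↥κ)⟮x⟯ with hE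
  have hsepE : Algebra.IsSeparable ↥κ ↥E :=
    (isSeparable_adjoin_simple_iff_isSeparable ↥κ Ω).mpr hx
  let xE : ↥E := ⟨x, mem_adjoin_simple_self ↥κ x⟩
  let φ : Polynomial k →+* ↥E := (Polynomial.aeval xE : Polynomial k →ₐ[k] ↥E).toRingHom
  have hcomp : (algebraMap ↥E Ω).comp φ = twEv x := by
    apply Polynomial.ringHom_ext
    · intro a
      simp [φ, twEv]
      rfl
    · simp [φ, twEv, xE]
  set Q : Polynomial ↥E := P.map φ with hQ
  have hQmap : Q.map (algebraMap ↥E Ω) = P.map (twEv x) := by
    rw [hQ, Polynomial.map_map, hcomp]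
  have hQsep : Q.Separable := by
    rw [← Polynomial.separable_map (algebraMap ↥E Ω), hQmap]
    exact hsep
  have hQroot : aeval s Q = 0 := by
    rw [aeval_def, ← eval_map, hQmap]
    exact hroot
  have hsE : IsSeparable ↥E s := hQsep.of_dvd (minpoly.dvd _ _ hQroot)
  exact IsSeparable.of_algebra_isSeparable_of_isSeparable ↥κ hsE

/-- `twEv` commutes with algebra homomorphisms -/
theorem ta_twEv_algHom {Ω' : Type*} [Field Ω'] [Algebra k Ω'] (φ : Ω →ₐ[k] Ω') (x : Ω) :
    (φ : Ω →+* Ω').comp (twEv (k := k) x) = twEv (k := k) (φ x) := by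
  apply Polynomial.ringHom_ext
  · intro a
    simp [twEv]
  · simp [twEv]

/-- transport of a bivariate evaluation along an algebra homomorphism -/
theorem ta_eval_biv_algHom {Ω' : Type*} [Field Ω'] [Algebra k Ω'] (φ : Ω →ₐ[k] Ω') (x s : Ω)
    (P : Polynomial (Polynomial k)) :
    φ ((P.map (twEv x)).eval s) = (P.map (twEv (φ x))).eval (φ s) := by
  rw [eval_map, eval_map, ← ta_twEv_algHom φ x]
  exact Polynomial.hom_eval₂ P (twEv x) (φ : Ω →+* Ω') s

theorem ta_map_biv_algHom {Ω' : Type*} [Field Ω'] [Algebra k Ω'] (φ : Ω →ₐ[k] Ω') (x : Ω)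
    (P : Polynomial (Polynomial k)) :
    (P.map (twEv x)).map (φ : Ω →+* Ω') = P.map (twEv (φ x)) := by
  rw [Polynomial.map_map, ta_twEv_algHom φ x]

end General

/-! ### Separability of the generators -/

section Sep

variable (k : Type*) [Field k] [IsAlgClosed k] (N : ℕ) [NeZero N]

/-- `j̄(q^d)` is separable over `k(j̄)` for every `d` all of whose prime factors divide `N` -/
theorem ta_isSeparable_jq (hN : (N : k) ≠ 0) :
    ∀ (d : ℕ) (hd : d ≠ 0), (∀ r : ℕ, r.Prime → r ∣ d → r ∣ N) →
      IsSeparable ↥(kappaJ k) (@qExpand k _ d ⟨hd⟩ (jqModC k)) := by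
  intro d
  induction d using Nat.strong_induction_on with
  | _ d ih =>
    intro hd hprimes
    by_cases h1 : d = 1
    · subst h1
      rw [qExpand_one_apply]
      exact isSeparable_algebraMap
        (⟨jqModC k, mem_adjoin_simple_self k _⟩ : ↥(kappaJ k))
    · obtain ⟨r, hr, hrd⟩ : ∃ r : ℕ, r.Prime ∧ r ∣ d :=
        ⟨d.minFac, Nat.minFac_prime h1, Nat.minFac_dvd d⟩
      have hrN : r ∣ N := hprimes r hr hrd
      obtain ⟨d', rfl⟩ : ∃ d', d = d' * r := ⟨d / r, (Nat.div_mul_cancel hrd).symm⟩
      have hd'0 : d' ≠ 0 := by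
        rintro rfl
        rw [zero_mul] at hd
        exact hd rfl
      have hd'lt : d' < d' * r := by
        have := hr.two_le
        have := Nat.pos_of_ne_zero hd'0
        nlinarith
      have hprimes' : ∀ s : ℕ, s.Prime → s ∣ d' → s ∣ N := fun s hs hsd =>
        hprimes s hs (Dvd.dvd.mul_right hsd r)
      have hx := ih d' hd'lt hd'0 hprimes'
      have : NeZero d' := ⟨hd'0⟩
      have : NeZero (d' * r) := ⟨hd⟩
      set D := pzTowerData k N hN with hD
      have hxj' : D.xj d' = qExpand k N (qExpand k d' (jqModC k)) := pzTowerData_xj N hN d'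
      have hxj : D.xj (d' * r) = qExpand k N (qExpand k (d' * r) (jqModC k)) :=
        pzTowerData_xj N hN (d' * r)
      have hrN' : r ∣ D.N := hrN
      have hup := D.Phi_rel_up hr hrN' (d := d') (Nat.pos_of_ne_zero hd'0)
      have hsepD := D.Phi_map_separable hr hrN' (d := d') (Nat.pos_of_ne_zero hd'0)
      rw [hxj'] at hup hsepD
      rw [hxj] at hup
      have hinj : Function.Injective (qExpandAlgHomC k N) :=
        (qExpandAlgHomC k N).toRingHom.injective
      refine ta_isSeparable_of_biv (kappaJ k) hx (D.Phi r) ?_ ?_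
      · apply hinj
        rw [map_zero, ta_eval_biv_algHom (qExpandAlgHomC k N)]
        exact hup
      · rw [← Polynomial.separable_map ((qExpandAlgHomC k N : LaurentSeries k →ₐ[k] LaurentSeries k) :
            LaurentSeries k →+* LaurentSeries k), ta_map_biv_algHom (qExpandAlgHomC k N)]
        exact hsepD

end Sep

/-! ### The field `F̄` -/

section Bar

variable (k : Type*) [Field k] (N : ℕ) [NeZero N]

/-- `F̄ = k(j̄(q^d) : d ∣ N)` as a type -/
abbrev TaBar : Type _ := ↥(modularFunctionFieldFullC k N)

/-- `j̄ ∈ F̄` -/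
def taBarJ : TaBar k N := ⟨jqModC k, jqModC_mem_full k N⟩

@[simp] theorem coe_taBarJ : ((taBarJ k N : TaBar k N) : LaurentSeries k) = jqModC k := rfl

theorem ta_bar_transcendental : Transcendental k (taBarJ k N) := by
  have h := transcendental_jqModC k
  have hinj : Function.Injective (algebraMap (TaBar k N) (LaurentSeries k)) :=
    (algebraMap (TaBar k N) (LaurentSeries k)).injective
  exact (transcendental_algebraMap_iff hinj).mp h

/-- `F̄` as an extension of `k(j̄)` is `k(j̄)(j̄(q^d) : d ∣ N)` -/
theorem ta_full_extendScalars :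
    IntermediateField.extendScalars (ta_kappaJ_le_full k N) =
      adjoin ↥(kappaJ k) (divisorExpansionsC k N) := by
  apply le_antisymm
  · intro x hx
    rw [IntermediateField.mem_extendScalars] at hx
    have hle : modularFunctionFieldFullC k N ≤
        (adjoin ↥(kappaJ k) (divisorExpansionsC k N)).restrictScalars k := by
      rw [modularFunctionFieldFullC, adjoin_le_iff]
      intro y hy
      have h1 : y ∈ adjoin ↥(kappaJ k) (divisorExpansionsC k N) :=
        subset_adjoin ↥(kappaJ k) (divisorExpansionsC k N) hy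
      exact h1
    exact hle hx
  · rw [adjoin_le_iff]
    intro y hy
    rw [SetLike.mem_coe, IntermediateField.mem_extendScalars]
    exact subset_adjoin k _ hy

theorem ta_divisorExpansionsC_subset_igGenSet :
    divisorExpansionsC k N ⊆ igGenSet k N := by
  rintro x ⟨d, hd0, hd, rfl⟩
  exact Or.inl ⟨d, hd0, hd, rfl⟩

theorem ta_full_finiteDimensional :
    FiniteDimensional ↥(kappaJ k) ↥(IntermediateField.extendScalars (ta_kappaJ_le_full k N)) := by
  rw [ta_full_extendScalars]
  have h := finiteDimensional_adjoin_igGenSet (K := k) N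
  have hle : adjoin ↥(kappaJ k) (divisorExpansionsC k N) ≤ adjoin ↥(kappaJ k) (igGenSet k N) :=
    adjoin.mono _ _ _ (ta_divisorExpansionsC_subset_igGenSet k N)
  exact Module.Finite.of_injective (IntermediateField.inclusion hle).toLinearMap
    (IntermediateField.inclusion_injective hle)

/-- bridge to the tower inside `k((q))` -/
theorem ta_bar_finrank_eq_kappaJ :
    Module.finrank ↥(k⟮taBarJ k N⟯) (TaBar k N) =
      Module.finrank ↥(kappaJ k)
        ↥(IntermediateField.extendScalars (ta_kappaJ_le_full k N)) :=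
  Fermat.Agent.Eis.eh_finrank_transport (modularFunctionFieldFullC k N) (taBarJ k N)

theorem ta_bar_finiteDimensional : FiniteDimensional ↥(k⟮taBarJ k N⟯) (TaBar k N) := by
  have h := ta_full_finiteDimensional k N
  apply FiniteDimensional.of_finrank_pos
  rw [ta_bar_finrank_eq_kappaJ]
  exact Module.finrank_pos

/-- `j̄` is a transcendental generator of `F̄ / k` -/
theorem ta_bar_isFunctionFieldGen :
    Fermat.Agent.Curve.IsFunctionFieldGen k (TaBar k N) (taBarJ k N) :=
  ⟨ta_bar_transcendental k N, ta_bar_finiteDimensional k N⟩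

variable [IsAlgClosed k]

/-- `j̄` is separating -/
theorem ta_bar_isSeparable (hN : (N : k) ≠ 0) :
    Algebra.IsSeparable ↥(k⟮taBarJ k N⟯) (TaBar k N) := by
  apply Fermat.Agent.Eis.eh_isSeparable_transport (modularFunctionFieldFullC k N) (taBarJ k N)
  show Algebra.IsSeparable ↥(kappaJ k)
    ↥(IntermediateField.extendScalars (ta_kappaJ_le_full k N))
  rw [ta_full_extendScalars, isSeparable_adjoin_iff_isSeparable]
  rintro x ⟨d, hd0, hd, rfl⟩
  exact ta_isSeparable_jq k N hN d (NeZero.ne d) (fun r _ hrd => hrd.trans hd)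

/-- `ψ(N) ≤ [F̄ : k(j̄)]` -/
theorem ta_bar_finrank_ge (hN : (N : k) ≠ 0) :
    dedekindPsi N ≤ Module.finrank ↥(k⟮taBarJ k N⟯) (TaBar k N) := by
  rw [ta_bar_finrank_eq_kappaJ]
  have h1 := ta_dedekindPsi_le_finrank_full k N hN
  have h2 : adjoin ↥(kappaJ k) (modularFunctionFieldFullC k N : Set (LaurentSeries k)) =
      IntermediateField.extendScalars (ta_kappaJ_le_full k N) := by
    apply le_antisymm
    · rw [adjoin_le_iff]
      intro y hy
      rw [SetLike.mem_coe, IntermediateField.mem_extendScalars]
      exact hy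
    · intro y hy
      rw [IntermediateField.mem_extendScalars] at hy
      exact subset_adjoin _ _ hy
  rw [h2] at h1
  exact h1

end Bar

end Fermat.Agent.T1
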