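import Fermat.Agent.Lib.T1.GoodRed.AbsInt

/-!
# T1-A (good reduction package): (Cart) — orthonormal bases of finite-dimensional subspaces

For a chart `x` of an abstract Gauss valuation package and `n ≥ [F : L(x)]` elements `b i ∈ O_v`
whose residues are independent over `ρ (O[x])`:

* **orthogonality**: if `∑ t_i b_i ∈ O_v` with `t_i ∈ L[x]` then all `t_i ∈ O[x]`;
* **(Cart)**: for every finite-dimensional `L`-subspace `W ⊆ F`, `W ∩ O_v` is a free `O`-module
  with an `L`-basis `w` of `W` as basis ("orthonormal basis": `∑ c_i w_i ∈ O_v ↔ ∀ i, c_i ∈ O`),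
  and the residues `ρ (w_i)` are `k`-linearly independent.
-/

set_option autoImplicit false
set_option linter.unusedSectionVars false
set_option linter.unusedVariables false
set_option linter.style.haveILetI false

open Polynomial IntermediateField Fermat.Agent.Igusa

noncomputable section

namespace Fermat.Agent.T1

namespace TaChart

variable {L F k Ω : Type*} [Field L] [Field F] [Algebra L F] [Field k] [Field Ω] [Algebra k Ω]
variable {D : TaAbs L F k Ω} (Ch : TaChart D)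

/-- `ϖ` in `F` -/
def unifF : F := algebraMap L F ((Ch.ϖ : ↥D.O) : L)

theorem unifF_ne_zero : Ch.unifF ≠ 0 := D.algebraMap_unif_ne_zero Ch.irr

theorem unifF_mem_adjoin : Ch.unifF ∈ Algebra.adjoin ↥D.O {Ch.x} :=
  Subalgebra.algebraMap_mem _ Ch.ϖ

theorem unifF_mem_Ov : Ch.unifF ∈ D.Ov := D.algebraMap_mem Ch.ϖ

section Orth

variable {n : ℕ} {b : Fin n → ↥D.Ov}

/-- **orthogonality** of the family `b` for the Gauss valuation -/
theorem mem_adjoin_of_sum_mem_Ov (hb : Ch.core.Indep b) (e : ℕ) (t : Fin n → F)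
    (ht : ∀ i, Ch.unifF ^ e * t i ∈ Algebra.adjoin ↥D.O {Ch.x})
    (hsum : ∑ i, t i * (b i : F) ∈ D.Ov) : ∀ i, t i ∈ Algebra.adjoin ↥D.O {Ch.x} := by
  induction e with
  | zero =>
    intro i
    have := ht i
    rwa [pow_zero, one_mul] at this
  | succ e ih =>
    apply ih
    -- `u i = ϖ ^ (e + 1) t i ∈ O[x]`
    set u : Fin n → ↥(Algebra.adjoin ↥D.O {Ch.x}) := fun i => ⟨Ch.unifF ^ (e + 1) * t i, ht i⟩
      with hu
    -- `∑ u i b i = ϖ (ϖ ^ e ∑ t i b i)` has residue zero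
    set S : ↥D.Ov := ⟨∑ i, t i * (b i : F), hsum⟩ with hS
    have h1 : ∑ i, Ch.toOv (u i) * b i =
        (⟨Ch.unifF, Ch.unifF_mem_Ov⟩ : ↥D.Ov) * ((⟨Ch.unifF, Ch.unifF_mem_Ov⟩ : ↥D.Ov) ^ e * S) := by
      apply Subtype.ext
      rw [AddSubmonoidClass.coe_finsetSum]
      push_cast
      rw [Finset.mul_sum, Finset.mul_sum]
      refine Finset.sum_congr rfl fun i _ => ?_
      show Ch.unifF ^ (e + 1) * t i * (b i : F) = _
      rw [pow_succ]
      ring
    have h2 : ∑ i, D.ρ (Ch.toOv (u i)) * D.ρ (b i) = 0 := by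
      have := congrArg D.ρ h1
      rw [map_sum, map_mul] at this
      simp only [map_mul] at this
      rw [this]
      have h0 : D.ρ (⟨Ch.unifF, Ch.unifF_mem_Ov⟩ : ↥D.Ov) = 0 := D.ρ_unif Ch.irr
      rw [h0, zero_mul]
    have h3 := hb u h2
    intro i
    obtain ⟨v, hv⟩ := Ch.unifA_dvd_of_ρ_eq_zero (u i) (h3 i)
    have h4 : Ch.unifF ^ (e + 1) * t i = Ch.unifF * (v : F) := by
      have := congrArg (fun z : ↥(Algebra.adjoin ↥D.O {Ch.x}) => (z : F)) hv
      exact this
    have h5 : Ch.unifF ^ e * t i = (v : F) := by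
      apply mul_left_cancel₀ Ch.unifF_ne_zero
      rw [← h4, pow_succ]
      ring
    rw [h5]
    exact v.2

end Orth

/-! ### Polynomials in `x` of bounded degree -/

/-- a polynomial in `x` with coefficients in `L`, of degree `≤ d`, which lies in `O[x]`, is an
`O`-combination of `1, x, …, x ^ d` -/
theorem aeval_mem_span_of_mem_adjoin (R : L[X]) {d : ℕ} (hR : R.natDegree ≤ d)
    (h : aeval Ch.x R ∈ Algebra.adjoin ↥D.O {Ch.x}) :
    aeval Ch.x R ∈ Submodule.span ↥D.O (Set.range fun a : Fin (d + 1) => Ch.x ^ (a : ℕ)) := by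
  obtain ⟨U, hU⟩ := Ch.exists_aeval_eq ⟨aeval Ch.x R, h⟩
  have h1 : aeval Ch.x U = aeval Ch.x R := by
    have := congrArg (fun z : ↥(Algebra.adjoin ↥D.O {Ch.x}) => (z : F)) hU
    simp only at this
    rw [← this, Polynomial.aeval_subalgebra_coe]
    rfl
  have h2 : U.map (algebraMap ↥D.O L) = R := by
    have h3 : aeval Ch.x (U.map (algebraMap ↥D.O L)) = aeval Ch.x R := by
      rw [Polynomial.aeval_map_algebraMap, h1]
    have h4 : aeval Ch.x (U.map (algebraMap ↥D.O L) - R) = 0 := by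
      rw [map_sub, h3, sub_self]
    exact sub_eq_zero.mp ((transcendental_iff.mp Ch.tr) _ h4)
  have h5 : U.natDegree < d + 1 := by
    have : (U.map (algebraMap ↥D.O L)).natDegree = U.natDegree :=
      Polynomial.natDegree_map_eq_of_injective (FaithfulSMul.algebraMap_injective ↥D.O L) U
    rw [h2] at this
    omega
  rw [← h1, Polynomial.aeval_eq_sum_range' h5]
  refine Submodule.sum_mem _ fun a ha => ?_
  refine Submodule.smul_mem _ _ (Submodule.subset_span ?_)
  exact ⟨⟨a, Finset.mem_range.mp ha⟩, rfl⟩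

/-! ### Coordinates with respect to `b` -/

section Coord

variable {n : ℕ} {b : Fin n → ↥D.Ov} [FiniteDimensional ↥(L⟮Ch.x⟯) F]

/-- every element of `F` has a nonzero multiple by an element of `O[x]` which is an
`O[x]`-combination of the `b i` -/
theorem exists_ne_zero_mul_eq_sum (hb : Ch.core.Indep b)
    (hn : Module.finrank ↥(L⟮Ch.x⟯) F ≤ n) (f : F) :
    ∃ (Q : ↥(Algebra.adjoin ↥D.O {Ch.x})) (a : Fin n → ↥(Algebra.adjoin ↥D.O {Ch.x})),
      Q ≠ 0 ∧ (Q : F) * f = ∑ i, (a i : F) * (b i : F) := by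
  obtain ⟨e, he⟩ := D.exists_pow_mul_mem Ch.irr f
  obtain ⟨s, a, hs, hsa⟩ := Ch.exists_mul_eq_sum hb hn ⟨_, he⟩
  have hs0 : (s : F) ≠ 0 := by
    intro h0
    apply hs
    have : s = 0 := Subtype.ext h0
    rw [this]
    exact dvd_zero _
  refine ⟨s * ⟨Ch.unifF ^ e, pow_mem Ch.unifF_mem_adjoin e⟩, a, ?_, ?_⟩
  · intro h0
    have := congrArg (fun z : ↥(Algebra.adjoin ↥D.O {Ch.x}) => (z : F)) h0
    simp only [MulMemClass.coe_mul, ZeroMemClass.coe_zero, mul_eq_zero] at this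
    rcases this with h | h
    · exact hs0 h
    · exact pow_ne_zero e Ch.unifF_ne_zero h
  · rw [← hsa]
    push_cast
    rw [mul_assoc]
    rfl

end Coord

/-! ### `W ∩ O_v` is a finitely generated `O`-module -/

/-- the `O`-module `W ∩ O_v` -/
def lattice (D : TaAbs L F k Ω) (W : Submodule L F) : Submodule ↥D.O F :=
  W.restrictScalars ↥D.O ⊓ Subalgebra.toSubmodule D.OvAlg

theorem mem_lattice_iff (W : Submodule L F) (f : F) :
    f ∈ lattice D W ↔ f ∈ W ∧ f ∈ D.Ov := Iff.rfl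

section Cart

variable {n : ℕ} {b : Fin n → ↥D.Ov} [FiniteDimensional ↥(L⟮Ch.x⟯) F]

theorem coe_aeval_xA (P : (↥D.O)[X]) :
    ((aeval Ch.xA P : ↥(Algebra.adjoin ↥D.O {Ch.x})) : F) =
      aeval Ch.x (P.map (algebraMap ↥D.O L)) := by
  rw [Polynomial.aeval_map_algebraMap, Polynomial.aeval_subalgebra_coe]
  rfl

set_option maxHeartbeats 1000000 in
/-- **(Cart), finite generation**: `W ∩ O_v` is a finitely generated `O`-module -/
theorem lattice_fg (hb : Ch.core.Indep b) (hn : Module.finrank ↥(L⟮Ch.x⟯) F ≤ n)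
    (W : Submodule L F) [FiniteDimensional L W] : (lattice D W).FG := by
  classical
  set m := Module.finrank L W with hm
  set v := Module.finBasis L W with hv
  choose Q a hQ0 hQa using fun j => Ch.exists_ne_zero_mul_eq_sum hb hn ((v j : ↥W) : F)
  set Qt : ↥(Algebra.adjoin ↥D.O {Ch.x}) := ∏ j, Q j with hQt
  have hQt0 : (Qt : F) ≠ 0 := by
    intro h0
    have h1 : Qt = 0 := Subtype.ext h0
    rw [hQt, Finset.prod_eq_zero_iff] at h1
    obtain ⟨j, -, hj⟩ := h1
    exact hQ0 j hj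
  set a' : Fin m → Fin n → ↥(Algebra.adjoin ↥D.O {Ch.x}) :=
    fun j i => (∏ j' ∈ Finset.univ.erase j, Q j') * a j i with ha'
  have hQa' : ∀ j, (Qt : F) * ((v j : ↥W) : F) = ∑ i, (a' j i : F) * (b i : F) := by
    intro j
    have h1 : Qt = (∏ j' ∈ Finset.univ.erase j, Q j') * Q j := by
      rw [hQt, Finset.prod_erase_mul _ _ (Finset.mem_univ j)]
    rw [h1]
    push_cast
    rw [mul_assoc, hQa j, Finset.mul_sum]
    refine Finset.sum_congr rfl fun i _ => ?_
    simp only [ha']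
    push_cast
    ring
  choose P hP using fun j i => Ch.exists_aeval_eq (a' j i)
  set d := Finset.univ.sup (fun j => Finset.univ.sup (fun i => (P j i).natDegree)) with hd
  have hPd : ∀ j i, (P j i).natDegree ≤ d := by
    intro j i
    have h1 : (P j i).natDegree ≤ Finset.univ.sup (fun i => (P j i).natDegree) :=
      Finset.le_sup (f := fun i => (P j i).natDegree) (Finset.mem_univ i)
    have h2 : Finset.univ.sup (fun i => (P j i).natDegree) ≤ d :=
      Finset.le_sup (f := fun j => Finset.univ.sup (fun i => (P j i).natDegree))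
        (Finset.mem_univ j)
    exact h1.trans h2
  -- the finite generating set
  set S : Set F := Set.range (fun p : Fin n × Fin (d + 1) =>
    ((Qt : F))⁻¹ * (Ch.x ^ (p.2 : ℕ) * (b p.1 : F))) with hS
  have hSfin : S.Finite := Set.finite_range _
  refine Submodule.FG.of_le (Submodule.fg_span hSfin) ?_
  intro w hw
  obtain ⟨hwW, hwO⟩ := hw
  have hwW' : w ∈ W := hwW
  have hwO' : w ∈ D.Ov := hwO
  set c := v.repr ⟨w, hwW'⟩ with hc
  have hwsum : w = ∑ j, c j • ((v j : ↥W) : F) := by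
    have h1 := v.sum_repr ⟨w, hwW'⟩
    have h2 := congrArg (fun z : ↥W => (z : F)) h1
    simp only [Submodule.coe_sum, Submodule.coe_smul] at h2
    exact h2.symm
  -- the coordinates
  set R : Fin n → L[X] := fun i => ∑ j, C (c j) * (P j i).map (algebraMap ↥D.O L) with hR
  have hRd : ∀ i, (R i).natDegree ≤ d := by
    intro i
    refine Polynomial.natDegree_sum_le_of_forall_le _ _ fun j _ => ?_
    exact (Polynomial.natDegree_C_mul_le _ _).trans
      ((Polynomial.natDegree_map_le).trans (hPd j i))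
  have hRt : ∀ i, aeval Ch.x (R i) = ∑ j, c j • ((a' j i : ↥(Algebra.adjoin ↥D.O {Ch.x})) : F) := by
    intro i
    rw [hR, map_sum]
    refine Finset.sum_congr rfl fun j _ => ?_
    rw [map_mul, aeval_C, ← Ch.coe_aeval_xA, hP, Algebra.smul_def]
  have hQw : (Qt : F) * w = ∑ i, aeval Ch.x (R i) * (b i : F) := by
    rw [hwsum, Finset.mul_sum]
    have h1 : ∀ j, (Qt : F) * c j • ((v j : ↥W) : F) =
        ∑ i, (c j • ((a' j i : ↥(Algebra.adjoin ↥D.O {Ch.x})) : F)) * (b i : F) := by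
      intro j
      rw [mul_smul_comm, hQa' j, Finset.smul_sum]
      refine Finset.sum_congr rfl fun i _ => ?_
      rw [smul_mul_assoc]
    rw [Finset.sum_congr rfl fun j _ => h1 j, Finset.sum_comm]
    refine Finset.sum_congr rfl fun i _ => ?_
    rw [hRt, Finset.sum_mul]
  have hQwO : ∑ i, aeval Ch.x (R i) * (b i : F) ∈ D.Ov := by
    rw [← hQw]
    exact D.Ov.mul_mem _ _ (Ch.mem_Ov_of_mem_adjoin Qt) hwO'
  -- a common exponent
  choose ej hej using fun j => D.exists_pow_mul_mem_O Ch.irr (c j)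
  set e := Finset.univ.sup ej with he
  have hce : ∀ j, ((Ch.ϖ : ↥D.O) : L) ^ e * c j ∈ D.O := by
    intro j
    have hle : ej j ≤ e := Finset.le_sup (f := ej) (Finset.mem_univ j)
    obtain ⟨r, hr⟩ := Nat.exists_eq_add_of_le hle
    rw [hr, pow_add, mul_comm (_ ^ ej j), mul_assoc]
    exact D.O.mul_mem _ _ (pow_mem (SetLike.coe_mem Ch.ϖ) r) (hej j)
  have hte : ∀ i, Ch.unifF ^ e * aeval Ch.x (R i) ∈ Algebra.adjoin ↥D.O {Ch.x} := by
    intro i
    rw [hRt, Finset.mul_sum]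
    refine Subalgebra.sum_mem _ fun j _ => ?_
    have h1 : Ch.unifF ^ e * c j • ((a' j i : ↥(Algebra.adjoin ↥D.O {Ch.x})) : F) =
        algebraMap ↥D.O F ⟨_, hce j⟩ * ((a' j i : ↥(Algebra.adjoin ↥D.O {Ch.x})) : F) := by
      rw [D.algebraMap_O_apply, Algebra.smul_def, ← mul_assoc]
      congr 1
      show Ch.unifF ^ e * _ = algebraMap L F (((Ch.ϖ : ↥D.O) : L) ^ e * c j)
      rw [map_mul, map_pow]
      rfl
    rw [h1]
    exact Subalgebra.mul_mem _ (Subalgebra.algebraMap_mem _ _) (a' j i).2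
  have htA := Ch.mem_adjoin_of_sum_mem_Ov hb e (fun i => aeval Ch.x (R i)) hte hQwO
  have htS : ∀ i, aeval Ch.x (R i) ∈
      Submodule.span ↥D.O (Set.range fun a : Fin (d + 1) => Ch.x ^ (a : ℕ)) :=
    fun i => Ch.aeval_mem_span_of_mem_adjoin (R i) (hRd i) (htA i)
  -- conclusion
  have hw' : w = ∑ i, ((Qt : F))⁻¹ * (aeval Ch.x (R i) * (b i : F)) := by
    rw [← Finset.mul_sum, ← hQw, ← mul_assoc, inv_mul_cancel₀ hQt0, one_mul]
  rw [hw']
  refine Submodule.sum_mem _ fun i _ => ?_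
  set φ : F →ₗ[↥D.O] F :=
    (LinearMap.mulLeft ↥D.O ((Qt : F))⁻¹).comp (LinearMap.mulRight ↥D.O (b i : F)) with hφ
  have h1 : φ (aeval Ch.x (R i)) ∈ (Submodule.span ↥D.O
      (Set.range fun a : Fin (d + 1) => Ch.x ^ (a : ℕ))).map φ :=
    Submodule.mem_map_of_mem (htS i)
  rw [Submodule.map_span] at h1
  have h2 : φ '' (Set.range fun a : Fin (d + 1) => Ch.x ^ (a : ℕ)) ⊆ S := by
    rintro _ ⟨_, ⟨a, rfl⟩, rfl⟩
    exact ⟨(i, a), rfl⟩
  exact Submodule.span_mono h2 h1

end Cart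

/-! ### (Cart): orthonormal bases -/

section Basis

variable {n : ℕ} {b : Fin n → ↥D.Ov} [FiniteDimensional ↥(L⟮Ch.x⟯) F]

/-- a common exponent: finitely many elements of `L` are moved into `O` by a power of `ϖ` -/
theorem exists_pow_mul_mem_O_fin {m : ℕ} (c : Fin m → L) :
    ∃ e : ℕ, ∀ i, ((Ch.ϖ : ↥D.O) : L) ^ e * c i ∈ D.O := by
  choose ej hej using fun j => D.exists_pow_mul_mem_O Ch.irr (c j)
  refine ⟨Finset.univ.sup ej, fun j => ?_⟩
  have hle : ej j ≤ Finset.univ.sup ej := Finset.le_sup (f := ej) (Finset.mem_univ j)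
  obtain ⟨r, hr⟩ := Nat.exists_eq_add_of_le hle
  rw [hr, pow_add, mul_comm (_ ^ ej j), mul_assoc]
  exact D.O.mul_mem _ _ (pow_mem (SetLike.coe_mem Ch.ϖ) r) (hej j)

set_option maxHeartbeats 1000000 in
/-- **(Cart)**: every finite-dimensional `L`-subspace `W` of `F` has an orthonormal basis for the
Gauss valuation: an `L`-basis `w` of `W` contained in `O_v` such that `∑ c_i w_i ∈ O_v` iff all
`c_i ∈ O`; the residues of the `w_i` are `k`-linearly independent. -/
theorem exists_orthonormal_basis (hb : Ch.core.Indep b)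
    (hn : Module.finrank ↥(L⟮Ch.x⟯) F ≤ n) (W : Submodule L F) [FiniteDimensional L W] :
    ∃ (m : ℕ) (w : Fin m → F) (hw : ∀ i, w i ∈ D.Ov), (∀ i, w i ∈ W) ∧ LinearIndependent L w ∧
      Submodule.span L (Set.range w) = W ∧
      (∀ c : Fin m → L, (∑ i, c i • w i ∈ D.Ov ↔ ∀ i, c i ∈ D.O)) ∧
      (∀ γ : Fin m → k, ∑ i, algebraMap k Ω (γ i) * D.ρ ⟨w i, hw i⟩ = 0 → ∀ i, γ i = 0) := by
  classical
  set M := lattice D W with hM
  have hfg : M.FG := Ch.lattice_fg hb hn W
  haveI : Module.Finite ↥D.O ↥M := Module.Finite.iff_fg.mpr hfg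
  haveI : Module.Free ↥D.O ↥M := Module.free_of_finite_type_torsion_free'
  set m := Module.finrank ↥D.O ↥M with hm
  set β := Module.finBasis ↥D.O ↥M with hβ
  set w : Fin m → F := fun i => ((β i : ↥M) : F) with hw
  have hwM : ∀ i, w i ∈ M := fun i => (β i).2
  have hwW : ∀ i, w i ∈ W := fun i => ((mem_lattice_iff W _).mp (hwM i)).1
  have hwO : ∀ i, w i ∈ D.Ov := fun i => ((mem_lattice_iff W _).mp (hwM i)).2
  have hϖ0 : ((Ch.ϖ : ↥D.O) : L) ≠ 0 := D.coe_unif_ne_zero Ch.irr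
  -- (K1) elements of `M` are `O`-combinations
  have K1 : ∀ f : F, f ∈ M → ∃ d : Fin m → ↥D.O, f = ∑ i, ((d i : ↥D.O) : L) • w i := by
    intro f hf
    refine ⟨fun i => β.repr ⟨f, hf⟩ i, ?_⟩
    have h1 := β.sum_repr ⟨f, hf⟩
    have h2 := congrArg (fun z : ↥M => (z : F)) h1
    simp only [Submodule.coe_sum, Submodule.coe_smul] at h2
    exact h2.symm
  -- (b0) `O`-linear independence in `F`
  have hO : ∀ d : Fin m → ↥D.O, ∑ i, ((d i : ↥D.O) : L) • w i = 0 → ∀ i, d i = 0 := by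
    intro d hd
    have h1 : ∑ i, d i • β i = 0 := by
      apply Subtype.ext
      rw [Submodule.coe_sum, ZeroMemClass.coe_zero, ← hd]
      rfl
    exact (Fintype.linearIndependent_iff.mp β.linearIndependent) d h1
  -- (b) `L`-linear independence
  have hli : ∀ c : Fin m → L, ∑ i, c i • w i = 0 → ∀ i, c i = 0 := by
    intro c hc i
    obtain ⟨e, he⟩ := Ch.exists_pow_mul_mem_O_fin c
    have h1 : ∑ i, (((⟨_, he i⟩ : ↥D.O) : ↥D.O) : L) • w i = 0 := by
      have : ∑ i, (((Ch.ϖ : ↥D.O) : L) ^ e * c i) • w i =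
          (((Ch.ϖ : ↥D.O) : L) ^ e) • ∑ i, c i • w i := by
        rw [Finset.smul_sum]
        refine Finset.sum_congr rfl fun i _ => ?_
        rw [mul_smul]
      rw [this, hc, smul_zero]
    have h2 := hO (fun i => ⟨_, he i⟩) h1 i
    have h3 : ((Ch.ϖ : ↥D.O) : L) ^ e * c i = 0 := congrArg (fun z : ↥D.O => (z : L)) h2
    exact (mul_eq_zero.mp h3).resolve_left (pow_ne_zero e hϖ0)
  have hliL : LinearIndependent L w := Fintype.linearIndependent_iff.mpr hli
  -- (d) orthonormality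
  have horth : ∀ c : Fin m → L, (∑ i, c i • w i ∈ D.Ov ↔ ∀ i, c i ∈ D.O) := by
    intro c
    constructor
    · intro hsum i
      have hmem : ∑ i, c i • w i ∈ M := by
        refine (mem_lattice_iff W _).mpr ⟨?_, hsum⟩
        exact Submodule.sum_mem _ fun i _ => Submodule.smul_mem _ _ (hwW i)
      obtain ⟨d, hd⟩ := K1 _ hmem
      have h1 : ∑ i, (c i - ((d i : ↥D.O) : L)) • w i = 0 := by
        simp only [sub_smul, Finset.sum_sub_distrib]
        rw [hd, sub_self]
      have h2 := hli _ h1 i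
      rw [sub_eq_zero.mp h2]
      exact SetLike.coe_mem _
    · intro hc
      refine D.Ov.toSubring.sum_mem fun i _ => ?_
      rw [Algebra.smul_def]
      exact D.Ov.mul_mem _ _ (D.algebraMap_mem ⟨c i, hc i⟩) (hwO i)
  refine ⟨m, w, hwO, hwW, hliL, ?_, horth, ?_⟩
  · -- span
    apply le_antisymm
    · rw [Submodule.span_le]
      rintro _ ⟨i, rfl⟩
      exact hwW i
    · intro f hf
      obtain ⟨e, he⟩ := D.exists_pow_mul_mem Ch.irr f
      have hmem : algebraMap L F ((Ch.ϖ : ↥D.O) : L) ^ e * f ∈ M := by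
        refine (mem_lattice_iff W _).mpr ⟨?_, he⟩
        rw [← map_pow, ← Algebra.smul_def]
        exact Submodule.smul_mem _ _ hf
      obtain ⟨d, hd⟩ := K1 _ hmem
      have h1 : f = (((Ch.ϖ : ↥D.O) : L) ^ e)⁻¹ • ∑ i, ((d i : ↥D.O) : L) • w i := by
        rw [← hd, ← map_pow, ← Algebra.smul_def, smul_smul,
          inv_mul_cancel₀ (pow_ne_zero e hϖ0), one_smul]
      rw [h1]
      refine Submodule.smul_mem _ _ (Submodule.sum_mem _ fun i _ => ?_)
      exact Submodule.smul_mem _ _ (Submodule.subset_span ⟨i, rfl⟩)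
  · -- residues
    intro γ hγ i
    choose c hc using fun i => D.π_surj (γ i)
    have hg : ∑ i, ((c i : ↥D.O) : L) • w i ∈ D.Ov :=
      (horth _).mpr fun i => SetLike.coe_mem _
    have hρg : D.ρ ⟨_, hg⟩ = 0 := by
      have h1 : (⟨_, hg⟩ : ↥D.Ov) =
          ∑ i, (⟨algebraMap L F ((c i : ↥D.O) : L), D.algebraMap_mem (c i)⟩ : ↥D.Ov) *
            ⟨w i, hwO i⟩ := by
        apply Subtype.ext
        rw [AddSubmonoidClass.coe_finsetSum]
        show ∑ i, ((c i : ↥D.O) : L) • w i = _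
        refine Finset.sum_congr rfl fun i _ => ?_
        rw [Algebra.smul_def]
        rfl
      rw [h1, map_sum, ← hγ]
      refine Finset.sum_congr rfl fun i _ => ?_
      rw [map_mul, D.ρ_algebraMap, hc]
    obtain ⟨g', hg'⟩ := (D.ρ_eq_zero_iff Ch.irr ⟨_, hg⟩).mp hρg
    have h2 : ∑ i, ((((Ch.ϖ : ↥D.O) : L))⁻¹ * ((c i : ↥D.O) : L)) • w i ∈ D.Ov := by
      have h3 : ∑ i, ((((Ch.ϖ : ↥D.O) : L))⁻¹ * ((c i : ↥D.O) : L)) • w i = (g' : F) := by
        have h4 : ∑ i, ((((Ch.ϖ : ↥D.O) : L))⁻¹ * ((c i : ↥D.O) : L)) • w i =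
            (((Ch.ϖ : ↥D.O) : L))⁻¹ • ∑ i, ((c i : ↥D.O) : L) • w i := by
          rw [Finset.smul_sum]
          refine Finset.sum_congr rfl fun i _ => ?_
          rw [mul_smul]
        have h5 : ∑ i, ((c i : ↥D.O) : L) • w i =
            algebraMap L F ((Ch.ϖ : ↥D.O) : L) * (g' : F) := hg'
        rw [h4, h5, ← Algebra.smul_def, smul_smul, inv_mul_cancel₀ hϖ0, one_smul]
      rw [h3]
      exact g'.2
    have h6 := (horth _).mp h2 i
    have h7 : c i = Ch.ϖ * ⟨_, h6⟩ := by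
      apply Subtype.ext
      push_cast
      rw [← mul_assoc, mul_inv_cancel₀ hϖ0, one_mul]
    rw [← hc i, h7, map_mul, (D.π_eq_zero_iff Ch.irr Ch.ϖ).mpr dvd_rfl, zero_mul]

end Basis

end TaChart

end Fermat.Agent.T1
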