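import Fermat.Agent.Lib.T1.GoodRed.CoreDeg
import Fermat.Agent.Lib.T1.GoodRed.AbsCart
import Fermat.Agent.Lib.T1.GoodRed.UnitMem

/-!
# T1-A (good reduction package): the core theorems for `F_{N,L}`

`L` a field of characteristic zero, `O ⊆ L` a discrete valuation ring with surjective residue map
`π : O → k`, `N` invertible in `k`.  We instantiate the abstract Gauss valuation package
(`AbsCore.lean`, `AbsInt.lean`, `AbsCart.lean`) with `F = F_{N,L} ⊆ L((q))`, `Ω = k((q))`, the two
charts `x = j` and `x = 1/j`, and an independent family of size `ψ(N)` obtained from Igusa's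
degree bound (P9 tower).

Main results (all for `(N : k) ≠ 0`):
* `taResN_mem_adjoin_igGenSet`, `taResN_range` : the residue field is `k(j̄(q^d) : d ∣ N)`;
* `ta_finrank` : `[F_{N,L} : L(j)] = ψ(N)`;
* `ta_int_fin`, `ta_int_inf`, `ta_res_int_fin`, `ta_res_int_inf` : **(Int)**;
* `ta_cart` : **(Cart)**, orthonormal bases;
* `taOv_le_fin` : uniqueness of the extension of the Gauss valuation.
-/

set_option autoImplicit false
set_option linter.unusedSectionVars false
set_option linter.unusedVariables false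
set_option linter.style.haveILetI false
set_option synthInstance.maxHeartbeats 400000
set_option maxHeartbeats 1000000

open HahnSeries ModularCurve Polynomial IntermediateField Fermat.Agent.Igusa

noncomputable section

namespace Fermat.Agent.T1

variable {L : Type*} [Field L] [Algebra ℚ L] (O : ValuationSubring L)
  {k : Type*} [Field k] (π : ↥O →+* k)
  [IsDiscreteValuationRing ↥O] (hπ : Function.Surjective π) (N : ℕ) [NeZero N]

theorem ta_algebraMap_eq_C : (algebraMap k (LaurentSeries k)) = (HahnSeries.C : k →+* _) := by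
  ext c : 1
  rw [algebraMap_laurentSeries_eq_single]
  rfl

/-- **the abstract Gauss valuation package of `F_{N,L}`** -/
def taAbs : TaAbs L ↥(TaF L N) k (LaurentSeries k) where
  O := O
  dvr := inferInstance
  π := π
  π_surj := hπ
  Ov := taOv O π hπ N
  ρ := taResN O π hπ N
  algebraMap_mem := algebraMap_mem_taOv O π hπ N
  ρ_algebraMap := fun a => by
    rw [taResN_algebraMap, ta_algebraMap_eq_C]
  ρ_eq_zero_iff := fun hϖ f => taResN_eq_zero_iff O π hπ N hϖ f
  exists_pow_mul_mem := fun {ϖ} hϖ f => by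
    by_cases hf : f = 0
    · exact ⟨0, by rw [hf, mul_zero]; exact (taOv O π hπ N).zero_mem⟩
    obtain ⟨n, u, hu, -, hfu⟩ := ta_exists_zpow_mul_unitN O π hπ N hϖ f hf
    have hϖ0 : algebraMap L ↥(TaF L N) ((ϖ : ↥O) : L) ≠ 0 := by
      rw [Ne, map_eq_zero]
      exact ta_coe_unif_ne_zero hϖ
    refine ⟨(-n).toNat, ?_⟩
    have h1 : algebraMap L ↥(TaF L N) ((ϖ : ↥O) : L) ^ (-n).toNat * f =
        algebraMap L ↥(TaF L N) ((ϖ : ↥O) : L) ^ ((-n).toNat + n).toNat * u := by
      rw [hfu, ← mul_assoc, ← zpow_natCast, ← zpow_natCast, ← zpow_add₀ hϖ0]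
      congr 2
      omega
    rw [h1]
    exact (taOv O π hπ N).mul_mem _ _
      (pow_mem (algebraMap_mem_taOv O π hπ N ϖ) _) hu

theorem taAbs_O : (taAbs O π hπ N).O = O := rfl
theorem taAbs_Ov : (taAbs O π hπ N).Ov = taOv O π hπ N := rfl
theorem taAbs_ρ : (taAbs O π hπ N).ρ = taResN O π hπ N := rfl
theorem taAbs_π : (taAbs O π hπ N).π = π := rfl

/-! ### Transcendence of `j` -/

theorem ta_transcendental_taJ : Transcendental L (taJ (L := L) N) := by
  intro h
  obtain ⟨p, hp0, hp⟩ := h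
  apply igInst_transcendental_jqModC L
  refine ⟨p, hp0, ?_⟩
  have h1 := congrArg (fun z : ↥(TaF L N) => (z : LaurentSeries L)) hp
  simp only [ZeroMemClass.coe_zero] at h1
  rw [← h1]
  exact Polynomial.aeval_algHom_apply (TaF L N).val (taJ N) p

theorem ta_transcendental_taJ_inv : Transcendental L (taJ (L := L) N)⁻¹ := by
  intro h
  exact ta_transcendental_taJ N (IsAlgebraic.inv_iff.mp h)

variable {ϖ : ↥O} (hϖ : Irreducible ϖ)

/-- the chart `x = j` -/
def taChartFin : TaChart (taAbs O π hπ N) where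
  x := taJ N
  tr := ta_transcendental_taJ N
  mem := taJ_mem_taOv O π hπ N
  trρ := by
    show Transcendental k (taResN O π hπ N ⟨taJ N, taJ_mem_taOv O π hπ N⟩)
    rw [taResN_taJ]
    exact igInst_transcendental_jqModC k
  ϖ := ϖ
  irr := hϖ

/-- the chart `x = 1/j` -/
def taChartInf : TaChart (taAbs O π hπ N) where
  x := (taJ N)⁻¹
  tr := ta_transcendental_taJ_inv N
  mem := taJ_inv_mem_taOv O π hπ N
  trρ := by
    show Transcendental k (taResN O π hπ N ⟨(taJ N)⁻¹, taJ_inv_mem_taOv O π hπ N⟩)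
    rw [taResN_taJ_inv]
    intro h
    exact igInst_transcendental_jqModC k (IsAlgebraic.inv_iff.mp h)
  ϖ := ϖ
  irr := hϖ

theorem taChartFin_x : (taChartFin O π hπ N hϖ).x = taJ N := rfl
theorem taChartInf_x : (taChartInf O π hπ N hϖ).x = (taJ N)⁻¹ := rfl

theorem taChartFin_xb : (taChartFin O π hπ N hϖ).xb = jqModC k :=
  taResN_taJ O π hπ N

theorem taChartInf_xb : (taChartInf O π hπ N hϖ).xb = (jqModC k)⁻¹ :=
  taResN_taJ_inv O π hπ N

/-! ### The data of a chart: degree bound and independent family -/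

theorem ta_adjoin_simple_inv {K E : Type*} [Field K] [Field E] [Algebra K E] (y : E) :
    K⟮y⁻¹⟯ = K⟮y⟯ := by
  apply le_antisymm
  · rw [adjoin_simple_le_iff]
    exact inv_mem (mem_adjoin_simple_self K y)
  · rw [adjoin_simple_le_iff]
    have := inv_mem (mem_adjoin_simple_self K y⁻¹)
    rwa [inv_inv] at this

theorem ta_finrank_le_of_eq (E : IntermediateField L ↥(TaF L N)) (hE : E = L⟮taJ (L := L) N⟯) :
    FiniteDimensional ↥E ↥(TaF L N) ∧ Module.finrank ↥E ↥(TaF L N) ≤ dedekindPsi N := by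
  subst hE
  exact ⟨ta_finiteDimensional L N, ta_finrank_le L N⟩

theorem ta_psi_le_finrank_of_eq (hN : (N : k) ≠ 0) (E : IntermediateField k (LaurentSeries k))
    (hE : E = kappaJ k) (S : Set (LaurentSeries k)) (hS : S = igGenSet k N) :
    dedekindPsi N ≤ Module.finrank ↥E ↥(adjoin ↥E S) := by
  subst hE hS
  exact ta_psi_le_finrank_igGenSet k N hN

/-- the lifts of the Igusa generators -/
def taGens : Set ↥(taOv O π hπ N) := taResN O π hπ N ⁻¹' igGenSet k N

theorem taResN_image_taGens : taResN O π hπ N '' taGens O π hπ N = igGenSet k N :=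
  Set.image_preimage_eq_of_subset (igGenSet_subset_range_taResN O π hπ N)

theorem ta_chart_data (hN : (N : k) ≠ 0) (Ch : TaChart (taAbs O π hπ N))
    (hx : L⟮Ch.x⟯ = L⟮taJ (L := L) N⟯) (hxb : k⟮Ch.xb⟯ = kappaJ k) :
    FiniteDimensional ↥(L⟮Ch.x⟯) ↥(TaF L N) ∧
      Module.finrank ↥(L⟮Ch.x⟯) ↥(TaF L N) ≤ dedekindPsi N ∧
      ∃ b : Fin (dedekindPsi N) → ↥(taAbs O π hπ N).Ov,
        (∀ i, b i ∈ Submonoid.closure (taGens O π hπ N)) ∧ Ch.core.Indep b := by
  obtain ⟨h1, h2⟩ := ta_finrank_le_of_eq N _ hx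
  refine ⟨h1, h2, ?_⟩
  exact Ch.exists_indep (taGens O π hπ N)
    (ta_psi_le_finrank_of_eq N hN _ hxb _ (taResN_image_taGens O π hπ N))

theorem taChartFin_data (hN : (N : k) ≠ 0) :
    FiniteDimensional ↥(L⟮(taChartFin O π hπ N hϖ).x⟯) ↥(TaF L N) ∧
      Module.finrank ↥(L⟮(taChartFin O π hπ N hϖ).x⟯) ↥(TaF L N) ≤ dedekindPsi N ∧
      ∃ b : Fin (dedekindPsi N) → ↥(taAbs O π hπ N).Ov,
        (∀ i, b i ∈ Submonoid.closure (taGens O π hπ N)) ∧
          (taChartFin O π hπ N hϖ).core.Indep b :=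
  ta_chart_data O π hπ N hN _ rfl (by rw [taChartFin_xb])

theorem taChartInf_data (hN : (N : k) ≠ 0) :
    FiniteDimensional ↥(L⟮(taChartInf O π hπ N hϖ).x⟯) ↥(TaF L N) ∧
      Module.finrank ↥(L⟮(taChartInf O π hπ N hϖ).x⟯) ↥(TaF L N) ≤ dedekindPsi N ∧
      ∃ b : Fin (dedekindPsi N) → ↥(taAbs O π hπ N).Ov,
        (∀ i, b i ∈ Submonoid.closure (taGens O π hπ N)) ∧
          (taChartInf O π hπ N hϖ).core.Indep b :=
  ta_chart_data O π hπ N hN _ (ta_adjoin_simple_inv _)
    (by rw [taChartInf_xb]; exact ta_adjoin_simple_inv _)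

/-! ### (A2) the degree -/

include O π hπ in
/-- **(A2)** `[F_{N,L} : L(j)] = ψ(N)` when `L` carries a discrete valuation ring with residue
field `k` in which `N` is invertible -/
theorem ta_finrank (hN : (N : k) ≠ 0) :
    Module.finrank ↥(L⟮taJ (L := L) N⟯) ↥(TaF L N) = dedekindPsi N := by
  obtain ⟨ϖ, hϖ⟩ := IsDiscreteValuationRing.exists_irreducible ↥O
  obtain ⟨hfd, hn, b, -, hb⟩ := taChartFin_data O π hπ N hϖ hN
  haveI := hfd
  exact le_antisymm (ta_finrank_le L N) ((taChartFin O π hπ N hϖ).le_finrank hb)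

/-! ### (A1) the residue field -/

/-- the residue field of the Gauss valuation, as an intermediate field of `k((q)) / k` -/
def taResRange : IntermediateField k (LaurentSeries k) :=
  Subfield.toIntermediateField
    { (taResN O π hπ N).range with
      inv_mem' := by
        rintro _ ⟨f, rfl⟩
        by_cases h0 : taResN O π hπ N f = 0
        · rw [h0, inv_zero]
          exact ⟨0, map_zero _⟩
        · have hinv := inv_mem_taOv_of_taResN_ne_zero O π hπ N f h0
          refine ⟨⟨_, hinv⟩, ?_⟩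
          have h1 : (⟨_, hinv⟩ : ↥(taOv O π hπ N)) * f = 1 := by
            apply Subtype.ext
            show ((f : ↥(TaF L N)))⁻¹ * (f : ↥(TaF L N)) = 1
            apply inv_mul_cancel₀
            intro hf0
            apply h0
            have : f = 0 := Subtype.ext hf0
            rw [this, map_zero]
          have h2 := congrArg (taResN O π hπ N) h1
          rw [map_mul, map_one] at h2
          exact eq_inv_of_mul_eq_one_left h2 }
    (fun c => by
      obtain ⟨a, rfl⟩ := hπ c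
      refine ⟨⟨_, algebraMap_mem_taOv O π hπ N a⟩, ?_⟩
      rw [taResN_algebraMap, ta_algebraMap_eq_C])

theorem mem_taResRange_iff (y : LaurentSeries k) :
    y ∈ taResRange O π hπ N ↔ ∃ f : ↥(taOv O π hπ N), taResN O π hπ N f = y := Iff.rfl

theorem taResN_mem_taResRange (f : ↥(taOv O π hπ N)) :
    taResN O π hπ N f ∈ taResRange O π hπ N := ⟨f, rfl⟩

theorem coe_taResRange :
    ((taResRange O π hπ N : IntermediateField k (LaurentSeries k)) : Set (LaurentSeries k)) =
      Set.range (taResN O π hπ N) := rfl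

theorem igGenSet_subset_taResRange :
    igGenSet k N ⊆ (taResRange O π hπ N : Set (LaurentSeries k)) :=
  igGenSet_subset_range_taResN O π hπ N

/-- `k(j̄(q^d) : d ∣ N)` is contained in the residue field -/
theorem ta_full_le_taResRange : modularFunctionFieldFullC k N ≤ taResRange O π hπ N := by
  rw [modularFunctionFieldFullC, adjoin_le_iff]
  rintro y ⟨d, hd0, hd, rfl⟩
  exact igGenSet_subset_taResRange O π hπ N (Or.inl ⟨d, hd0, hd, rfl⟩)

/-- **(A1)** the residue of every element of the Gauss valuation ring lies in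
`k(j̄)(X̄_d, Ū_r)` -/
theorem taResN_mem_adjoin_igGenSet (hN : (N : k) ≠ 0) (f : ↥(taOv O π hπ N)) :
    taResN O π hπ N f ∈ adjoin ↥(kappaJ k) (igGenSet k N) := by
  obtain ⟨ϖ, hϖ⟩ := IsDiscreteValuationRing.exists_irreducible ↥O
  obtain ⟨hfd, hn, b, hbG, hb⟩ := taChartFin_data O π hπ N hϖ hN
  haveI := hfd
  set E : IntermediateField k (LaurentSeries k) :=
    (adjoin ↥(kappaJ k) (igGenSet k N)).restrictScalars k with hE
  have hj : jqModC k ∈ E := by
    have h1 : jqModC k ∈ adjoin ↥(kappaJ k) (igGenSet k N) :=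
      subset_adjoin _ _ (jqModC_mem_igGenSet N)
    exact h1
  have key : ∀ y ∈ Submonoid.closure (taGens O π hπ N), taResN O π hπ N y ∈ E := by
    intro y hy
    induction hy using Submonoid.closure_induction with
    | mem y hy =>
      have h2 : taResN O π hπ N y ∈ adjoin ↥(kappaJ k) (igGenSet k N) := subset_adjoin _ _ hy
      exact h2
    | one => rw [map_one]; exact E.one_mem
    | mul y z _ _ hy hz => rw [map_mul]; exact E.mul_mem hy hz
  have hbE : ∀ i, (taAbs O π hπ N).ρ (b i) ∈ E := fun i => key _ (hbG i)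
  have h := (taChartFin O π hπ N hϖ).ρ_mem_of_forall_mem hb hn E
    (by rw [taChartFin_xb]; exact hj) hbE f
  exact h

/-- **(A1)** the residue field of the Gauss valuation of `F_{N,L}` is
`k(j̄(q^d) : d ∣ N)` (`k` algebraically closed, `N` invertible in `k`) -/
theorem taResRange_eq [IsAlgClosed k] (hN : (N : k) ≠ 0) :
    taResRange O π hπ N = modularFunctionFieldFullC k N := by
  apply le_antisymm
  · rintro _ ⟨f, rfl⟩
    rw [← ta_adjoin_igGenSet_eq k N hN]
    exact taResN_mem_adjoin_igGenSet O π hπ N hN f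
  · exact ta_full_le_taResRange O π hπ N

/-- **(A1)**, set form -/
theorem taResN_range [IsAlgClosed k] (hN : (N : k) ≠ 0) :
    Set.range (taResN O π hπ N) =
      ((modularFunctionFieldFullC k N : IntermediateField k (LaurentSeries k)) :
        Set (LaurentSeries k)) := by
  rw [← taResRange_eq O π hπ N hN, coe_taResRange]

theorem taResN_mem_full [IsAlgClosed k] (hN : (N : k) ≠ 0) (f : ↥(taOv O π hπ N)) :
    taResN O π hπ N f ∈ modularFunctionFieldFullC k N := by
  rw [← taResRange_eq O π hπ N hN]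
  exact taResN_mem_taResRange O π hπ N f

theorem exists_taResN_eq_of_mem_full {y : LaurentSeries k}
    (hy : y ∈ modularFunctionFieldFullC k N) : ∃ f : ↥(taOv O π hπ N), taResN O π hπ N f = y :=
  ta_full_le_taResRange O π hπ N hy

/-! ### (A3) integrality -/

/-- **(Int), chart `j`**: an element of the Gauss valuation ring which is integral over `L[j]` is
integral over `O[j]` -/
theorem ta_int_fin (hN : (N : k) ≠ 0) {f : ↥(TaF L N)} (hf : f ∈ taOv O π hπ N)
    (hint : IsIntegral ↥(Algebra.adjoin L {taJ (L := L) N}) f) :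
    IsIntegral ↥(Algebra.adjoin ↥O {taJ (L := L) N}) f := by
  obtain ⟨ϖ, hϖ⟩ := IsDiscreteValuationRing.exists_irreducible ↥O
  obtain ⟨hfd, hn, b, -, hb⟩ := taChartFin_data O π hπ N hϖ hN
  haveI := hfd
  exact (taChartFin O π hπ N hϖ).isIntegral_of_isIntegral_field hb hn hf hint

/-- **(Int), chart `1/j`** -/
theorem ta_int_inf (hN : (N : k) ≠ 0) {f : ↥(TaF L N)} (hf : f ∈ taOv O π hπ N)
    (hint : IsIntegral ↥(Algebra.adjoin L {(taJ (L := L) N)⁻¹}) f) :
    IsIntegral ↥(Algebra.adjoin ↥O {(taJ (L := L) N)⁻¹}) f := by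
  obtain ⟨ϖ, hϖ⟩ := IsDiscreteValuationRing.exists_irreducible ↥O
  obtain ⟨hfd, hn, b, -, hb⟩ := taChartInf_data O π hπ N hϖ hN
  haveI := hfd
  exact (taChartInf O π hπ N hϖ).isIntegral_of_isIntegral_field hb hn hf hint

theorem ta_isIntegral_adjoin_of_eq {y z : LaurentSeries k} (h : y = z) {t : LaurentSeries k}
    (ht : IsIntegral ↥(Algebra.adjoin k {y}) t) : IsIntegral ↥(Algebra.adjoin k {z}) t := by
  subst h
  exact ht

/-- **(Int), residue form, chart `j`**: the residue of an element of the Gauss valuation ring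
which is integral over `L[j]` is integral over `k[j̄]` -/
theorem ta_res_int_fin (hN : (N : k) ≠ 0) (f : ↥(taOv O π hπ N))
    (hint : IsIntegral ↥(Algebra.adjoin L {taJ (L := L) N}) (f : ↥(TaF L N))) :
    IsIntegral ↥(Algebra.adjoin k {jqModC k}) (taResN O π hπ N f) := by
  obtain ⟨ϖ, hϖ⟩ := IsDiscreteValuationRing.exists_irreducible ↥O
  obtain ⟨hfd, hn, b, -, hb⟩ := taChartFin_data O π hπ N hϖ hN
  haveI := hfd
  exact ta_isIntegral_adjoin_of_eq (taChartFin_xb O π hπ N hϖ)
    ((taChartFin O π hπ N hϖ).isIntegral_ρ_of_isIntegral_field hb hn f hint)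

/-- **(Int), residue form, chart `1/j`** -/
theorem ta_res_int_inf (hN : (N : k) ≠ 0) (f : ↥(taOv O π hπ N))
    (hint : IsIntegral ↥(Algebra.adjoin L {(taJ (L := L) N)⁻¹}) (f : ↥(TaF L N))) :
    IsIntegral ↥(Algebra.adjoin k {(jqModC k)⁻¹}) (taResN O π hπ N f) := by
  obtain ⟨ϖ, hϖ⟩ := IsDiscreteValuationRing.exists_irreducible ↥O
  obtain ⟨hfd, hn, b, -, hb⟩ := taChartInf_data O π hπ N hϖ hN
  haveI := hfd
  exact ta_isIntegral_adjoin_of_eq (taChartInf_xb O π hπ N hϖ)
    ((taChartInf O π hπ N hϖ).isIntegral_ρ_of_isIntegral_field hb hn f hint)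

/-- residues of elements integral over `O[j]` are integral over `k[j̄]` -/
theorem ta_res_int_fin_of_int (f : ↥(taOv O π hπ N))
    (hint : IsIntegral ↥(Algebra.adjoin ↥O {taJ (L := L) N}) (f : ↥(TaF L N))) :
    IsIntegral ↥(Algebra.adjoin k {jqModC k}) (taResN O π hπ N f) := by
  obtain ⟨ϖ, hϖ⟩ := IsDiscreteValuationRing.exists_irreducible ↥O
  exact ta_isIntegral_adjoin_of_eq (taChartFin_xb O π hπ N hϖ)
    ((taChartFin O π hπ N hϖ).isIntegral_ρ f hint)

theorem ta_res_int_inf_of_int (f : ↥(taOv O π hπ N))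
    (hint : IsIntegral ↥(Algebra.adjoin ↥O {(taJ (L := L) N)⁻¹}) (f : ↥(TaF L N))) :
    IsIntegral ↥(Algebra.adjoin k {(jqModC k)⁻¹}) (taResN O π hπ N f) := by
  obtain ⟨ϖ, hϖ⟩ := IsDiscreteValuationRing.exists_irreducible ↥O
  exact ta_isIntegral_adjoin_of_eq (taChartInf_xb O π hπ N hϖ)
    ((taChartInf O π hπ N hϖ).isIntegral_ρ f hint)

/-! ### (A4) (Cart) -/

/-- **(Cart)**: every finite-dimensional `L`-subspace `W` of `F_{N,L}` has an orthonormal basis
for the Gauss valuation: an `L`-basis `w` of `W` contained in `O_v` such that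
`∑ c_i w_i ∈ O_v ↔ ∀ i, c_i ∈ O`; the residues of the `w_i` are `k`-linearly independent.
In particular `W ∩ O_v = ⊕ O w_i` is a free `O`-module of rank `dim W`. -/
theorem ta_cart (hN : (N : k) ≠ 0) (W : Submodule L ↥(TaF L N)) [FiniteDimensional L W] :
    ∃ (m : ℕ) (w : Fin m → ↥(TaF L N)) (hw : ∀ i, w i ∈ taOv O π hπ N),
      (∀ i, w i ∈ W) ∧ LinearIndependent L w ∧ Submodule.span L (Set.range w) = W ∧
      (∀ c : Fin m → L, (∑ i, c i • w i ∈ taOv O π hπ N ↔ ∀ i, c i ∈ O)) ∧
      (∀ γ : Fin m → k, ∑ i, HahnSeries.C (γ i) * taResN O π hπ N ⟨w i, hw i⟩ = 0 →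
        ∀ i, γ i = 0) := by
  obtain ⟨ϖ, hϖ⟩ := IsDiscreteValuationRing.exists_irreducible ↥O
  obtain ⟨hfd, hn, b, -, hb⟩ := taChartFin_data O π hπ N hϖ hN
  haveI := hfd
  obtain ⟨m, w, hw, h1, h2, h3, h4, h5⟩ :=
    (taChartFin O π hπ N hϖ).exists_orthonormal_basis hb hn W
  refine ⟨m, w, hw, h1, h2, h3, h4, ?_⟩
  intro γ hγ
  refine h5 γ ?_
  rw [← hγ]
  refine Finset.sum_congr rfl fun i _ => ?_
  rw [ta_algebraMap_eq_C]
  rfl

/-! ### Uniqueness of the extension of the Gauss valuation -/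

/-- **the Gauss valuation ring of `F_{N,L}` is contained in every valuation ring `V` of `F_{N,L}`
above the Gauss valuation ring of `L(j)`**: `O ⊆ V`, `j ∈ V`, and `P(j)⁻¹ ∈ V` for every
`P ∈ O[X]` with nonzero reduction. -/
theorem taOv_le_of_forall_inv_mem (hN : (N : k) ≠ 0) (V : ValuationSubring ↥(TaF L N))
    (hO : ∀ a : ↥O, algebraMap L ↥(TaF L N) (a : L) ∈ V) (hj : taJ (L := L) N ∈ V)
    (hu : ∀ P : (↥O)[X], P.map π ≠ 0 → (aeval (taJ (L := L) N) P)⁻¹ ∈ V) :
    taOv O π hπ N ≤ V := by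
  obtain ⟨ϖ, hϖ⟩ := IsDiscreteValuationRing.exists_irreducible ↥O
  obtain ⟨hfd, hn, b, -, hb⟩ := taChartFin_data O π hπ N hϖ hN
  haveI := hfd
  exact (taChartFin O π hπ N hϖ).Ov_le_of_forall_aeval_inv_mem hb hn V hO hj hu

end Fermat.Agent.T1
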