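/-
T1-A leaf T1A-ORB (helper5), final: the `κ`-embeddings of `k(X_{r^i} : r^i ∣ N)` into `Ω` fall
into at most `cuspCount N` classes, and two embeddings in the same class differ by a twist
`t ↦ ω t`, `ω ^ N = 1`.
-/
import Mathlib
import Fermat.Agent.Lib.T1.GoodRed.Orb.Cls
import Fermat.Agent.Lib.T1.GoodRed.Orb.Twist

set_option autoImplicit false

open Polynomial IntermediateField ModularCurve

noncomputable section

namespace Fermat.Agent.Igusa

namespace TowerData

variable {k Ω : Type*} [Field k] [Field Ω] [Algebra k Ω] (D : TowerData k Ω)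

/-- the twist of an embedding -/
def orbTw (K : IntermediateField k Ω) (ω : kˣ) (σ : ↥K →ₐ[k] Ω) : ↥K →ₐ[k] Ω :=
  ((D.tw ω : Ω ≃ₐ[k] Ω) : Ω →ₐ[k] Ω).comp σ

theorem orbTw_apply (K : IntermediateField k Ω) (ω : kˣ) (σ : ↥K →ₐ[k] Ω) (x : ↥K) :
    D.orbTw K ω σ x = D.tw ω (σ x) := rfl

theorem orbTw_kappa {K : IntermediateField k Ω} {ω : kˣ} (hω : ω ^ D.N = 1) {σ : ↥K →ₐ[k] Ω}
    (hσ : D.OrbKappa K σ) : D.OrbKappa K (D.orbTw K ω σ) := by
  intro x hx
  rw [orbTw_apply, hσ x hx, xj, D.tw_J, mul_one, hω, one_mul]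

/-- **embeddings in the same class differ by a twist** -/
theorem orb_twist_of_cls_eq (K : IntermediateField k Ω) (hK : K = D.orbK D.N)
    {σ σ' : ↥K →ₐ[k] Ω} (hσ : D.OrbKappa K σ) (hσ' : D.OrbKappa K σ')
    (h : ∀ r ∈ D.N.primeFactors, D.orbCls K σ r = D.orbCls K σ' r) :
    ∃ ω : kˣ, ω ^ D.N = 1 ∧ ∀ x : ↥K, σ' x = D.tw ω (σ x) := by
  obtain ⟨ω₀, hω₀⟩ := D.exists_primitiveRoot
  -- the data
  have hidx : ∀ r ∈ D.N.primeFactors, (D.orbData K σ r).1 = (D.orbData K σ' r).1 := by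
    intro r hr
    have h1 := h r hr
    rw [orbCls, orbCls] at h1
    exact (Prod.ext_iff.mp h1).1
  have hδ : ∀ r ∈ D.N.primeFactors,
      ((D.orbData K σ' r).2 * ((D.orbData K σ r).2)⁻¹) ^
        r ^ (D.N.factorization r - 2 * (D.orbData K σ r).1) = 1 := by
    intro r hr
    have h1 := congrArg Prod.snd (h r hr)
    simp only [orbCls] at h1
    rw [← hidx r hr] at h1
    have h2 := Units.ext h1
    rw [mul_pow, inv_pow, h2, mul_inv_cancel]
  obtain ⟨ω, hωN, hω⟩ := orb_exists_omega D.N_pos hω₀ (fun r => (D.orbData K σ r).1)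
    (fun r => (D.orbData K σ' r).2 * ((D.orbData K σ r).2)⁻¹) hδ
  refine ⟨ω, hωN, ?_⟩
  have hτ : D.OrbKappa K (D.orbTw K ω σ) := D.orbTw_kappa hωN hσ
  have h1K : D.xj 1 ∈ K := hK ▸ D.xj_one_mem_orbK D.N
  have hmemK : ∀ {r j : ℕ}, r.Prime → r ^ j ∣ D.N → D.xj (r ^ j) ∈ K := by
    intro r j hr hj
    rw [hK]
    exact D.xj_pow_mem_orbK hr hj
  -- agreement on the chains
  have hchain : ∀ r ∈ D.N.primeFactors, ∀ j, ∀ hj : j ≤ D.N.factorization r,
      ∀ hmem : D.xj (r ^ j) ∈ K, D.orbTw K ω σ ⟨_, hmem⟩ = σ' ⟨_, hmem⟩ := by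
    intro r hr j hj hmem
    have hrp : r.Prime := Nat.prime_of_mem_primeFactors hr
    have hp := D.orbData_spec hK hσ hrp
    have hp' := D.orbData_spec hK hσ' hrp
    have hpτ := D.orbData_spec hK hτ hrp
    have hmemE : D.xj (r ^ D.N.factorization r) ∈ K := hmemK hrp (Nat.ordProj_dvd D.N r)
    have hend : twVal (orbLift K (D.orbTw K ω σ)) (D.xj (r ^ D.N.factorization r)) =
        twVal (orbLift K σ') (D.xj (r ^ D.N.factorization r)) := by
      rw [D.orbPath_endpoint hp', twVal_orbLift K _ hmemE, orbTw_apply,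
        ← twVal_orbLift K σ hmemE, D.orbPath_endpoint hp, D.tw_J, hω r hr, ← hidx r hr]
      congr 1
      rw [mul_comm ((D.orbData K σ' r).2), ← mul_assoc, mul_inv_cancel, one_mul]
    have hval := D.orbPath_values_eq hrp (D.orb_decomp r) hpτ hp' hend j hj
    rw [twVal_orbLift K _ hmem, twVal_orbLift K _ hmem] at hval
    exact hval
  have hext : D.orbTw K ω σ = σ' := by
    apply algHom_ext_of_eq_adjoin k hK
    rintro x (hx | ⟨r, i, hr, hi, hri, rfl⟩)
    · rw [Set.mem_singleton_iff] at hx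
      subst hx
      rw [hτ ⟨_, h1K⟩ rfl, hσ' ⟨_, h1K⟩ rfl]
    · have hrmem : r ∈ D.N.primeFactors :=
        Nat.mem_primeFactors.mpr ⟨hr, (dvd_pow_self r hi.ne').trans hri, D.N_pos.ne'⟩
      exact hchain r hrmem i ((hr.pow_dvd_iff_le_factorization D.N_pos.ne').mp hri) _
  intro x
  rw [← hext, orbTw_apply]

/-- the class map restricted to the primes dividing `N` -/
def orbClsFun (K : IntermediateField k Ω) (σ : ↥K →ₐ[k] Ω) : D.N.primeFactors → ℕ × k :=
  fun r => D.orbCls K σ r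

/-- **there are at most `cuspCount N` classes** -/
theorem orb_ncard_cls_le (K : IntermediateField k Ω) (hK : K = D.orbK D.N) :
    (D.orbClsFun K '' {σ | D.OrbKappa K σ}).Finite ∧
      (D.orbClsFun K '' {σ | D.OrbKappa K σ}).ncard ≤ cuspCount D.N := by
  classical
  set T : Finset (D.N.primeFactors → ℕ × k) :=
    Fintype.piFinset (fun r : D.N.primeFactors => orbClsSet k r (D.N.factorization r)) with hT
  have hsub : D.orbClsFun K '' {σ | D.OrbKappa K σ} ⊆ (T : Set (D.N.primeFactors → ℕ × k)) := by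
    rintro f ⟨σ, hσ, rfl⟩
    rw [Finset.mem_coe, hT, Fintype.mem_piFinset]
    intro r
    exact D.orbCls_mem hK hσ (Nat.prime_of_mem_primeFactors r.2)
  have hfin : (D.orbClsFun K '' {σ | D.OrbKappa K σ}).Finite :=
    Set.Finite.subset (Finset.finite_toSet T) hsub
  refine ⟨hfin, ?_⟩
  have h1 := Set.ncard_le_ncard hsub (Finset.finite_toSet T)
  rw [Set.ncard_coe_finset, hT, Fintype.card_piFinset] at h1
  refine h1.trans ?_
  rw [orb_cuspCount_eq_prod D.N_pos.ne',
    ← Finset.prod_coe_sort D.N.primeFactors (fun r => cuspCount (r ^ D.N.factorization r))]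
  exact Finset.prod_le_prod' (fun r _ =>
    card_orbClsSet_le k (Nat.prime_of_mem_primeFactors r.2) _)

/-- **packaged form**: any family of `κ`-embeddings of `K = k(X_{r^i} : r^i ∣ N)` is classified,
up to twists, by a map with at most `cuspCount N` values -/
theorem orb_exists_cls (K : IntermediateField k Ω) (hK : K = D.orbK D.N) {ι : Type*}
    (σ : ι → (↥K →ₐ[k] Ω)) (hσ : ∀ i, D.OrbKappa K (σ i)) :
    ∃ cls : ι → (D.N.primeFactors → ℕ × k), (Set.range cls).Finite ∧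
      (Set.range cls).ncard ≤ cuspCount D.N ∧
      ∀ i j, cls i = cls j → ∃ ω : kˣ, ω ^ D.N = 1 ∧ ∀ x : ↥K, σ j x = D.tw ω (σ i x) := by
  obtain ⟨hfin, hcard⟩ := D.orb_ncard_cls_le K hK
  have hsub : Set.range (fun i => D.orbClsFun K (σ i)) ⊆
      D.orbClsFun K '' {σ | D.OrbKappa K σ} := by
    rintro f ⟨i, rfl⟩
    exact ⟨σ i, hσ i, rfl⟩
  refine ⟨fun i => D.orbClsFun K (σ i), hfin.subset hsub,
    (Set.ncard_le_ncard hsub hfin).trans hcard, ?_⟩
  intro i j hij
  refine D.orb_twist_of_cls_eq K hK (hσ i) (hσ j) (fun r hr => ?_)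
  exact congrFun hij ⟨r, hr⟩

end TowerData

end Fermat.Agent.Igusa
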