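/-
T1-A, T1A-CUSP (helper5), pure field theory: if `E / k(x)` is finite separable, `φ₀ : E → L` is a
`k`-embedding and every `k`-embedding `τ : E → L̄` (`L̄` an algebraic closure of `L`) with
`τ x = φ₀ x` lands in `L`, then there are exactly `[E : k(x)]` `k`-embeddings `σ : E → L` with
`σ x = φ₀ x`.
-/
import Mathlib

set_option autoImplicit false
set_option linter.style.haveILetI false

namespace Fermat.Agent.T1

open IntermediateField

universe u v w

variable {k : Type u} {E : Type v} {L : Type w} [Field k] [Field E] [Algebra k E] [Field L]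
  [Algebra k L]

/-- **the family of all embeddings over `x ↦ φ₀ x`** -/
theorem ta_exists_emb_family (φ₀ : E →ₐ[k] L) (x : E) [FiniteDimensional k⟮x⟯ E]
    [Algebra.IsSeparable k⟮x⟯ E]
    (H : ∀ τ : E →ₐ[k] AlgebraicClosure L, τ x = algebraMap L (AlgebraicClosure L) (φ₀ x) →
      ∀ z, τ z ∈ Set.range (algebraMap L (AlgebraicClosure L))) :
    ∃ (ι : Type (max v w)) (_ : Fintype ι) (σ : ι → (E →ₐ[k] L)), Function.Injective σ ∧
      (∀ i, σ i x = φ₀ x) ∧ Fintype.card ι = Module.finrank k⟮x⟯ E := by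
  classical
  let ψ : ↥(k⟮x⟯) →+* L := (φ₀ : E →+* L).comp (algebraMap ↥(k⟮x⟯) E)
  letI alg : Algebra ↥(k⟮x⟯) L := ψ.toAlgebra
  have halg : ∀ c : ↥(k⟮x⟯), algebraMap ↥(k⟮x⟯) L c = φ₀ (c : E) := fun c => rfl
  haveI tower1 : IsScalarTower k ↥(k⟮x⟯) L := IsScalarTower.of_algebraMap_eq (fun a => by
    rw [halg]
    exact (φ₀.commutes a).symm)
  haveI tower2 : IsScalarTower ↥(k⟮x⟯) L (AlgebraicClosure L) := inferInstance
  haveI tower3 : IsScalarTower k ↥(k⟮x⟯) (AlgebraicClosure L) := inferInstance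
  let xκ : ↥(k⟮x⟯) := ⟨x, mem_adjoin_simple_self k x⟩
  have hxκ : algebraMap ↥(k⟮x⟯) E xκ = x := rfl
  refine ⟨E →ₐ[↥(k⟮x⟯)] L, inferInstance, fun f => f.restrictScalars k,
    AlgHom.restrictScalars_injective k, ?_, ?_⟩
  · intro f
    show f x = φ₀ x
    exact (f.commutes xκ).trans (halg xκ)
  · rw [← AlgHom.card ↥(k⟮x⟯) E (AlgebraicClosure L)]
    let j : L →ₐ[↥(k⟮x⟯)] AlgebraicClosure L :=
      IsScalarTower.toAlgHom ↥(k⟮x⟯) L (AlgebraicClosure L)
    have hj : Function.Injective j := (algebraMap L (AlgebraicClosure L)).injective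
    apply Fintype.card_of_bijective (f := fun f => j.comp f)
    constructor
    · intro f g hfg
      apply AlgHom.ext
      intro z
      have := DFunLike.congr_fun hfg z
      exact hj this
    · intro τ
      have hτx : (τ.restrictScalars k) x = algebraMap L (AlgebraicClosure L) (φ₀ x) := by
        show τ x = _
        refine (τ.commutes xκ).trans ?_
        rw [IsScalarTower.algebraMap_apply ↥(k⟮x⟯) L (AlgebraicClosure L), halg]
      have hr : ∀ z, τ z ∈ j.range := fun z => by
        obtain ⟨u, hu⟩ := H (τ.restrictScalars k) hτx z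
        exact ⟨u, hu⟩
      let e : L ≃ₐ[↥(k⟮x⟯)] j.range := AlgEquiv.ofInjective j hj
      refine ⟨(e.symm : j.range →ₐ[↥(k⟮x⟯)] L).comp (τ.codRestrict j.range hr), ?_⟩
      apply AlgHom.ext
      intro z
      show j (e.symm (τ.codRestrict j.range hr z)) = τ z
      have h1 : j (e.symm (τ.codRestrict j.range hr z)) =
          ((e (e.symm (τ.codRestrict j.range hr z)) : j.range) : AlgebraicClosure L) := rfl
      rw [h1, AlgEquiv.apply_symm_apply]
      rfl

end Fermat.Agent.T1
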