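/-
T1-A, T1A-CUSP (helper5): the number of poles of `j̄` in `F̄ = k(j̄(q^d) : d ∣ N)` is at most
`cuspCount N` (`k` algebraically closed, `N ≠ 0` in `k`).

All `[F̄ : k(j̄)]` embeddings of `F̄` into an algebraic closure of `k((t))` over `j̄ ↦ j̄(t^N)` land in
`k((t))` (shape lemma), every pole of `j̄` is the centre of one of them (`ta_ncard_poles_le`), and
they fall into at most `cuspCount N` classes modulo the twists `t ↦ ω t` (`orb_exists_cls`), which
preserve the order.
-/
import Mathlib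
import Fermat.Agent.Lib.T1.GoodRed.BarField
import Fermat.Agent.Lib.T1.GoodRed.CuspOrbits
import Fermat.Agent.Lib.T1.GoodRed.PoleEmb
import Fermat.Agent.Lib.T1.GoodRed.Orb.XjMem
import Fermat.Agent.Lib.T1.GoodRed.Orb.ShapeExt
import Fermat.Agent.Lib.T1.GoodRed.EmbCount
import Fermat.Agent.Lib.Eis.Geom.CuspPlaces

set_option autoImplicit false
set_option linter.unusedSectionVars false
set_option linter.style.haveILetI false

open HahnSeries ModularCurve IntermediateField Polynomial Fermat.Agent.Igusa AlgebraicCurve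

noncomputable section

namespace Fermat.Agent.T1

/-! ### The twist preserves the order -/

section Order

variable {k : Type*} [Field k]

theorem ta_order_lsTwist (ω : kˣ) (f : LaurentSeries k) : (lsTwist ω f).order = f.order := by
  by_cases hf : f = 0
  · rw [hf, map_zero]
  apply Fermat.Agent.Eis.eh_order_eq_of_coeff
  · rw [lsTwist_coeff]
    exact mul_ne_zero (Units.ne_zero _) (HahnSeries.coeff_order_eq_zero.not.mpr hf)
  · intro m hm
    rw [lsTwist_coeff, HahnSeries.coeff_eq_zero_of_lt_order hm, mul_zero]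

end Order

/-! ### `F̄` and the Puiseux tower -/

section Tower

variable (k : Type*) [Field k] [IsAlgClosed k] (N : ℕ) [NeZero N]

/-- `q ↦ t^N` on `F̄` -/
def taBarEmb : TaBar k N →ₐ[k] LaurentSeries k :=
  (qExpandAlgHomC k N).comp (modularFunctionFieldFullC k N).val

theorem taBarEmb_apply (z : TaBar k N) :
    taBarEmb k N z = qExpand k N (z : LaurentSeries k) := rfl

theorem taBarEmb_injective : Function.Injective (taBarEmb k N) :=
  (taBarEmb k N).toRingHom.injective

/-- the generators `j̄(q^d)`, `d ∣ N`, of `F̄` -/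
def taBarX (d : ℕ) : TaBar k N :=
  if h : d ∣ N then
    haveI : NeZero d := ⟨ne_zero_of_dvd_ne_zero (NeZero.ne N) h⟩
    ⟨qExpand k d (jqModC k), jqModCd_mem_full k N h⟩
  else 0

theorem coe_taBarX {d : ℕ} [NeZero d] (h : d ∣ N) :
    ((taBarX k N d : TaBar k N) : LaurentSeries k) = qExpand k d (jqModC k) := by
  rw [taBarX, dif_pos h]

theorem taBarX_one : taBarX k N 1 = taBarJ k N := by
  apply Subtype.ext
  rw [coe_taBarX k N (one_dvd N), qExpand_one_apply]
  rfl

variable (hN : (N : k) ≠ 0)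

theorem taBarEmb_taBarX {d : ℕ} (h : d ∣ N) :
    taBarEmb k N (taBarX k N d) = (pzTowerData k N hN).xj d := by
  haveI : NeZero d := ⟨ne_zero_of_dvd_ne_zero (NeZero.ne N) h⟩
  rw [taBarEmb_apply, coe_taBarX k N h, pzTowerData_xj N hN d]

theorem taBarEmb_taBarJ :
    taBarEmb k N (taBarJ k N) = (pzTowerData k N hN).xj 1 := by
  rw [← taBarX_one, taBarEmb_taBarX k N hN (one_dvd N)]

/-- the modular relations in `F̄` -/
theorem taBarX_rel (r d : ℕ) (hr : r.Prime) (hd : 0 < d)
    (hdr : d * r ∣ (pzTowerData k N hN).N) :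
    (((pzTowerData k N hN).Phi r).map (twEv (taBarX k N d))).eval (taBarX k N (d * r)) = 0 := by
  have hdr' : d * r ∣ N := hdr
  have hdN : d ∣ N := (Dvd.intro _ rfl).trans hdr'
  have hrN : r ∣ (pzTowerData k N hN).N := (Dvd.intro_left _ rfl).trans hdr
  apply taBarEmb_injective k N
  rw [map_zero, orb_eval_biv_algHom (taBarEmb k N), taBarEmb_taBarX k N hN hdN,
    taBarEmb_taBarX k N hN hdr']
  exact (pzTowerData k N hN).Phi_rel_up hr hrN hd

/-- the image of `F̄` under `q ↦ t^N` is the top field of the Puiseux tower -/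
theorem ta_bar_map_eq :
    (modularFunctionFieldFullC k N).map (qExpandAlgHomC k N) = (pzTowerData k N hN).orbK N := by
  have h1 : (qExpandAlgHomC k N) '' (divisorExpansionsC k N) =
      {x | ∃ d : ℕ, d ∣ (pzTowerData k N hN).N ∧ x = (pzTowerData k N hN).xj d} := by
    ext x
    constructor
    · rintro ⟨y, ⟨d, hd0, hd, rfl⟩, rfl⟩
      exact ⟨d, hd, (pzTowerData_xj N hN d).symm⟩
    · rintro ⟨d, hd, rfl⟩
      have hd' : d ∣ N := hd
      haveI : NeZero d := ⟨ne_zero_of_dvd_ne_zero (NeZero.ne N) hd'⟩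
      exact ⟨qExpand k d (jqModC k), ⟨d, inferInstance, hd', rfl⟩, (pzTowerData_xj N hN d).symm⟩
  rw [modularFunctionFieldFullC, IntermediateField.adjoin_map, h1]
  exact (pzTowerData k N hN).adjoin_xj_eq_orbK

/-- `F̄ ≃ K_N` -/
def taBarEquiv : TaBar k N ≃ₐ[k] ↥((pzTowerData k N hN).orbK N) :=
  ((modularFunctionFieldFullC k N).equivMap (qExpandAlgHomC k N)).trans
    (IntermediateField.equivOfEq (ta_bar_map_eq k N hN))

theorem coe_taBarEquiv (z : TaBar k N) :
    ((taBarEquiv k N hN z : ↥((pzTowerData k N hN).orbK N)) : LaurentSeries k) =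
      taBarEmb k N z := rfl

end Tower

/-! ### The embeddings of `F̄` over `j̄ ↦ j̄(t^N)` -/

section Emb

variable (k : Type*) [Field k] [IsAlgClosed k] (N : ℕ) [NeZero N]

local notation "Lbar" => AlgebraicClosure (LaurentSeries k)

set_option synthInstance.maxHeartbeats 400000 in
/-- every embedding of `F̄` into the algebraic closure of `k((t))` over `j̄ ↦ j̄(t^N)` lands in
`k((t))` -/
theorem ta_bar_range_le (hN : (N : k) ≠ 0) (τ : TaBar k N →ₐ[k] Lbar)
    (hτ : τ (taBarJ k N) = algebraMap (LaurentSeries k) Lbar (taBarEmb k N (taBarJ k N)))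
    (z : TaBar k N) :
    τ z ∈ Set.range (algebraMap (LaurentSeries k) Lbar) := by
  set D := pzTowerData k N hN with hD
  let ι : LaurentSeries k →ₐ[k] Lbar := IsScalarTower.toAlgHom k (LaurentSeries k) Lbar
  have h1 : τ (taBarX k N 1) = ι (D.xj 1) := by
    rw [taBarX_one, hτ, taBarEmb_taBarJ k N hN]
    rfl
  have hshape := D.shape_ext ι (taBarX k N) (taBarX_rel k N hN) τ h1
  -- the subfield of elements mapped into `k((t))`
  obtain ⟨w, hw⟩ := z
  induction hw using IntermediateField.adjoin_induction with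
  | mem x hx =>
    obtain ⟨d, hd0, hd, rfl⟩ := hx
    obtain ⟨c, a, b, n, -, -, h⟩ := hshape d hd
    refine ⟨D.J c n, ?_⟩
    have h3 : (⟨qExpand k d (jqModC k), subset_adjoin k _ ⟨d, hd0, hd, rfl⟩⟩ : TaBar k N) =
        taBarX k N d := by
      apply Subtype.ext
      rw [coe_taBarX k N hd]
    rw [h3]
    exact h.symm
  | algebraMap a =>
    refine ⟨algebraMap k _ a, ?_⟩
    have h3 : (⟨algebraMap k (LaurentSeries k) a, IntermediateField.algebraMap_mem _ a⟩ :
        TaBar k N) = algebraMap k (TaBar k N) a := rfl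
    rw [h3]
    have := τ.commutes a
    rw [← IsScalarTower.algebraMap_apply k (LaurentSeries k) Lbar]
    exact this.symm
  | add x y hx hy hx' hy' =>
    obtain ⟨u, hu⟩ := hx'
    obtain ⟨v, hv⟩ := hy'
    refine ⟨u + v, ?_⟩
    have h3 : (⟨x + y, add_mem hx hy⟩ : TaBar k N) = ⟨x, hx⟩ + ⟨y, hy⟩ := rfl
    rw [h3, map_add, map_add, hu, hv]
  | inv x hx hx' =>
    obtain ⟨u, hu⟩ := hx'
    refine ⟨u⁻¹, ?_⟩
    have h3 : (⟨x⁻¹, inv_mem hx⟩ : TaBar k N) = (⟨x, hx⟩ : TaBar k N)⁻¹ := rfl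
    rw [h3, map_inv₀, map_inv₀, hu]
  | mul x y hx hy hx' hy' =>
    obtain ⟨u, hu⟩ := hx'
    obtain ⟨v, hv⟩ := hy'
    refine ⟨u * v, ?_⟩
    have h3 : (⟨x * y, mul_mem hx hy⟩ : TaBar k N) = ⟨x, hx⟩ * ⟨y, hy⟩ := rfl
    rw [h3, map_mul, map_mul, hu, hv]

end Emb

/-! ### The bound -/

section Bound

variable (k : Type*) [Field k] [IsAlgClosed k] (N : ℕ) [NeZero N]

/-- **the number of poles of `j̄` in `F̄` is at most `cuspCount N`** -/
theorem ta_ncard_poles_jbar_le (hN : (N : k) ≠ 0) :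
    {Q : Place k (TaBar k N) | Q.ord (taBarJ k N) < 0}.ncard ≤ cuspCount N := by
  haveI := ta_bar_finiteDimensional k N
  haveI := ta_bar_isSeparable k N hN
  set D := pzTowerData k N hN with hD
  set K := D.orbK N with hK
  -- the family of embeddings
  obtain ⟨ι, _, σ, hσ, hσJ', hcard⟩ := ta_exists_emb_family (taBarEmb k N) (taBarJ k N)
    (fun τ hτ z => ta_bar_range_le k N hN τ hτ z)
  have hσJ : ∀ f, σ f (taBarJ k N) = D.xj 1 := fun f => by
    rw [hσJ' f, taBarEmb_taBarJ k N hN]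
  have hσx : ∀ f g, σ f (taBarJ k N) = σ g (taBarJ k N) := fun f g => by rw [hσJ f, hσJ g]
  have hord : ∀ f, (σ f (taBarJ k N)).order < 0 := by
    intro f
    rw [hσJ f, hD, pzTowerData_xj_one,
      Fermat.Agent.Eis.eh_order_qExpand N (jqModC_ne_zero k), Fermat.Agent.Eis.eh_order_jqModC]
    have : (0 : ℤ) < N := by exact_mod_cast Nat.pos_of_ne_zero (NeZero.ne N)
    omega
  -- the classification
  let e : TaBar k N ≃ₐ[k] ↥K := taBarEquiv k N hN
  let σ' : ι → (↥K →ₐ[k] LaurentSeries k) :=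
    fun f => (σ f).comp (e.symm : ↥K →ₐ[k] TaBar k N)
  have hσ'κ : ∀ f, D.OrbKappa K (σ' f) := by
    intro f y hy
    have h1 : e.symm y = taBarJ k N := by
      apply e.injective
      rw [AlgEquiv.apply_symm_apply]
      apply Subtype.ext
      rw [hy, coe_taBarEquiv, taBarEmb_taBarJ k N hN]
    show σ f (e.symm y) = _
    rw [h1, hσJ f]
  obtain ⟨cls, hfin, hle, hcls⟩ := D.orb_exists_cls K rfl σ' hσ'κ
  refine (ta_ncard_poles_le (ta_bar_isFunctionFieldGen k N) σ hσ hσx hord hcard cls ?_).trans hle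
  intro f g hfg z
  obtain ⟨ω, -, hω⟩ := hcls f g hfg
  have h1 := hω (e z)
  have h2 : σ' g (e z) = σ g z := by
    show σ g (e.symm (e z)) = _
    rw [AlgEquiv.symm_apply_apply]
  have h3 : σ' f (e z) = σ f z := by
    show σ f (e.symm (e z)) = _
    rw [AlgEquiv.symm_apply_apply]
  rw [h2, h3] at h1
  rw [h1]
  show 0 ≤ (σ f z).order ↔ 0 ≤ (lsTwist ω (σ f z)).order
  rw [ta_order_lsTwist]

end Bound

end Fermat.Agent.T1
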