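/-
T1-A, T1A-BASE (helper5): lower bounds for the number of poles of `j̄` in
`F̄ = k(j̄(q), j̄(q^p), j̄(q^{p²}))` at the levels `N = p²`: at least `p + 1` (`3` for `N = 4`,
`4` for `N = 9`).

The `[F̄ : k(j̄)] ≥ ψ(p²) = p² + p` embeddings `F̄ → k((t))` over `j̄ ↦ j̄(t^N)` realise all the
`p² + p` possible pairs of values at `(j̄(q^p), j̄(q^{p²}))` (`Orb/BaseCount.lean`); the places of
the identity embedding (orders `(-N, -N p²)` at `(j̄(q), j̄(q^{p²}))`), of the embeddings
`j̄(q^{p²}) ↦ j̄(ζ^b t^N)`, `0 < b < p` (orders `(-N, -N)`, told apart by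
`j̄(q^{p²}) - ζ^{-b} j̄(q)`), and of an embedding with `j̄(q^{p²}) ↦ j̄(c t)` (orders `(-N, -1)`) are
pairwise different poles of `j̄`.
-/
import Mathlib
import Fermat.Agent.Lib.T1.GoodRed.BarCusps
import Fermat.Agent.Lib.T1.GoodRed.EmbPlace
import Fermat.Agent.Lib.T1.GoodRed.Orb.BaseCount
import Fermat.Agent.Lib.Igusa.TowerLeafGlue

set_option autoImplicit false
set_option linter.unusedSectionVars false
set_option linter.style.haveILetI false

open HahnSeries ModularCurve IntermediateField Polynomial Fermat.Agent.Igusa AlgebraicCurve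

noncomputable section

namespace Fermat.Agent.T1

/-! ### Orders of `j̄(c tⁿ)` -/

section Orders

variable {k : Type*} [Field k]

theorem ta_order_pzJ (c : kˣ) {n : ℕ} (hn : 0 < n) : (pzJ k c n).order = -(n : ℤ) := by
  apply Fermat.Agent.Eis.eh_order_eq_of_coeff
  · rw [pzJ_coeff_neg c hn]
    exact Units.ne_zero _
  · intro m hm
    exact pzJ_coeff_of_lt c hn hm

theorem ta_order_nonneg_of_coeff {f : LaurentSeries k} (h : ∀ i : ℤ, i < 0 → f.coeff i = 0) :
    0 ≤ f.order := by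
  by_cases hf : f = 0
  · rw [hf, HahnSeries.order_zero]
  by_contra hcon
  rw [not_le] at hcon
  exact HahnSeries.coeff_order_eq_zero.not.mpr hf (h _ hcon)

/-- `j̄(c tⁿ) - c⁻¹ j̄(tⁿ)` has no pole -/
theorem ta_order_pzJ_sub_nonneg (c : kˣ) {n : ℕ} (hn : 0 < n) :
    0 ≤ (pzJ k c n - HahnSeries.C ((c⁻¹ : kˣ) : k) * pzJ k 1 n).order := by
  apply ta_order_nonneg_of_coeff
  intro i hi
  rw [HahnSeries.coeff_sub, HahnSeries.C_mul_eq_smul, HahnSeries.coeff_smul, smul_eq_mul]
  rcases lt_trichotomy i (-(n : ℤ)) with h | h | h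
  · rw [pzJ_coeff_of_lt c hn h, pzJ_coeff_of_lt 1 hn h, mul_zero, sub_zero]
  · rw [h, pzJ_coeff_neg c hn, pzJ_coeff_neg 1 hn, inv_one, Units.val_one, mul_one, sub_self]
  · have hnd : ¬ (n : ℤ) ∣ i := by
      rintro ⟨m, rfl⟩
      have hn' : (0 : ℤ) < n := by exact_mod_cast hn
      have h1 : m < 0 := by
        by_contra hm
        rw [not_lt] at hm
        have := mul_nonneg hn'.le hm
        omega
      have h2 : -1 < m := by
        by_contra hm
        rw [not_lt] at hm
        have : (n : ℤ) * m ≤ (n : ℤ) * (-1) := mul_le_mul_of_nonneg_left hm hn'.le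
        omega
      omega
    have h1 : (pzJ k c n).coeff i = 0 := by
      by_contra hne
      exact hnd (dvd_of_coeff_pzAt_ne_zero _ c n hne)
    have h2 : (pzJ k 1 n).coeff i = 0 := by
      by_contra hne
      exact hnd (dvd_of_coeff_pzAt_ne_zero _ 1 n hne)
    rw [h1, h2, mul_zero, sub_zero]

/-- `j̄(c' tⁿ) - c⁻¹ j̄(tⁿ)` has a pole if `c' ≠ c` -/
theorem ta_order_pzJ_sub_neg {c c' : kˣ} (hcc : c' ≠ c) {n : ℕ} (hn : 0 < n) :
    (pzJ k c' n - HahnSeries.C ((c⁻¹ : kˣ) : k) * pzJ k 1 n).order < 0 := by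
  have h1 : (pzJ k c' n - HahnSeries.C ((c⁻¹ : kˣ) : k) * pzJ k 1 n).coeff (-(n : ℤ)) ≠ 0 := by
    rw [HahnSeries.coeff_sub, HahnSeries.C_mul_eq_smul, HahnSeries.coeff_smul, smul_eq_mul,
      pzJ_coeff_neg c' hn, pzJ_coeff_neg 1 hn, inv_one, Units.val_one, mul_one, sub_ne_zero]
    intro h
    exact hcc (inv_injective (Units.ext h))
  have h2 := HahnSeries.order_le_of_coeff_ne_zero h1
  have hn' : (0 : ℤ) < n := by exact_mod_cast hn
  omega

end Orders

/-! ### The embeddings and the places -/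

section Emb

variable (k : Type*) [Field k] [IsAlgClosed k] (N : ℕ) [NeZero N]

/-- two embeddings of `F̄` which agree on the generators are equal -/
theorem ta_bar_algHom_ext {p : ℕ} (hp : p.Prime) (hNp : N = p * p)
    {φ ψ : TaBar k N →ₐ[k] LaurentSeries k}
    (h1 : φ (taBarX k N 1) = ψ (taBarX k N 1)) (h2 : φ (taBarX k N p) = ψ (taBarX k N p))
    (h3 : φ (taBarX k N (p * p)) = ψ (taBarX k N (p * p))) : φ = ψ := by
  apply IntermediateField.algHom_ext_of_eq_adjoin k (S := modularFunctionFieldFullC k N)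
    (s := divisorExpansionsC k N) rfl
  rintro x ⟨d, hd0, hd, rfl⟩
  have hx : (⟨qExpand k d (jqModC k), subset_adjoin k _ ⟨d, hd0, hd, rfl⟩⟩ : TaBar k N) =
      taBarX k N d := Subtype.ext (coe_taBarX k N hd).symm
  have key : φ (taBarX k N d) = ψ (taBarX k N d) := by
    have hd' : d ∣ p ^ 2 := by rw [pow_two, ← hNp]; exact hd
    obtain ⟨m, hm, hdm⟩ := (Nat.dvd_prime_pow hp).mp hd'
    interval_cases m
    · rw [hdm, pow_zero]; exact h1
    · rw [hdm, pow_one]; exact h2
    · rw [hdm, pow_two]; exact h3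
  rw [← hx] at key
  exact key

/-- **at level `N = p²` the function `j̄` has at least `p + 1` poles** -/
theorem ta_succ_le_ncard_poles {p : ℕ} (hp : p.Prime) (hNp : N = p * p) (hN : (N : k) ≠ 0) :
    p + 1 ≤ {Q : Place k (TaBar k N) | Q.ord (taBarJ k N) < 0}.ncard := by
  classical
  have hψ : p * p + p ≤ dedekindPsi N := by
    rw [hNp, ← pow_two, TowerData.twl_dedekindPsi_prime_pow hp two_pos]
    apply le_of_eq
    rw [show 2 - 1 = 1 from rfl, pow_one]
    ring
  haveI := ta_bar_finiteDimensional k N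
  haveI := ta_bar_isSeparable k N hN
  set D := pzTowerData k N hN with hD
  have hDN : D.N = p * p := hNp
  have hpN : p ∣ D.N := ⟨p, hDN⟩
  have hNpos : 0 < N := Nat.pos_of_ne_zero (NeZero.ne N)
  obtain ⟨ζ, hζ⟩ := D.exists_primitiveRoot_of_dvd hpN
  -- the family of all embeddings
  obtain ⟨ι, _, σ, hσ, hσJ', hcard⟩ := ta_exists_emb_family (taBarEmb k N) (taBarJ k N)
    (fun τ hτ z => ta_bar_range_le k N hN τ hτ z)
  have h1 : ∀ i, σ i (taBarX k N 1) = D.xj 1 := fun i => by
    rw [taBarX_one, hσJ' i, taBarEmb_taBarJ k N hN]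
  have hppN : p * p ∣ N := by rw [hNp]
  have hpp : 1 < p * p := by have := hp.two_le; nlinarith
  have hX : taBarX k N (p * p) ≠ taBarX k N 1 := by
    intro h
    have h2 := congrArg (taBarEmb k N) h
    rw [taBarEmb_taBarX k N hN hppN, taBarEmb_taBarX k N hN (one_dvd N)] at h2
    have h3 := (D.J_inj (Nat.mul_pos D.N_pos (Nat.mul_pos hp.pos hp.pos))
      (Nat.mul_pos D.N_pos one_pos) h2).1
    have h4 := Nat.eq_of_mul_eq_mul_left D.N_pos h3
    omega
  have hinj : ∀ i j, σ i (taBarX k N p) = σ j (taBarX k N p) →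
      σ i (taBarX k N (p * p)) = σ j (taBarX k N (p * p)) → i = j := fun i j h2 h3 =>
    hσ (ta_bar_algHom_ext k N hp hNp ((h1 i).trans (h1 j).symm) h2 h3)
  have hcard' : p * p + p ≤ Fintype.card ι := by
    rw [hcard]
    exact hψ.trans (ta_bar_finrank_ge k N hN)
  obtain ⟨hmid, i₀, c₀, -, h0⟩ := D.base_count (taBarX k N) (taBarX_rel k N hN) hp hDN hζ hX σ
    h1 hinj hcard'
  haveI : Nonempty ι := ⟨i₀⟩
  choose! im him using hmid
  -- the `p + 1` embeddings
  let τ : ℕ → (TaBar k N →ₐ[k] LaurentSeries k) := fun b =>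
    if b = 0 then taBarEmb k N else if b < p then σ (im b) else σ i₀
  have hxj1 : D.xj 1 = pzJ k 1 N := by
    show pzJ k 1 (N * 1) = _
    rw [mul_one]
  have hτJ : ∀ b, τ b (taBarJ k N) = pzJ k 1 N := by
    intro b
    simp only [τ]
    split_ifs
    · rw [taBarEmb_taBarJ k N hN, hxj1]
    · rw [hσJ', taBarEmb_taBarJ k N hN, hxj1]
    · rw [hσJ', taBarEmb_taBarJ k N hN, hxj1]
  have hτord : ∀ b, (τ b (taBarJ k N)).order = -(N : ℤ) := fun b => by
    rw [hτJ b, ta_order_pzJ 1 hNpos]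
  have hNZ : (0 : ℤ) < N := by exact_mod_cast hNpos
  have hh : ∀ b, ∃ y : TaBar k N, (τ b y).order ≠ 0 := fun b =>
    ⟨taBarJ k N, by rw [hτord b]; omega⟩
  let g : ℕ → Place k (TaBar k N) := fun b => taEmbPlace (τ b) (hh b)
  have hgmem : ∀ b, g b ∈ {Q : Place k (TaBar k N) | Q.ord (taBarJ k N) < 0} := fun b =>
    taEmbPlace_ord_neg (τ b) (hh b) (by rw [hτord b]; omega)
  -- the values at `j̄(q^{p²})`
  have hv0 : τ 0 (taBarX k N (p * p)) = pzJ k 1 (N * (p * p)) := by
    simp only [τ, if_pos]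
    rw [taBarEmb_taBarX k N hN hppN]
    rfl
  have hvmid : ∀ b, 0 < b → b < p → τ b (taBarX k N (p * p)) = pzJ k (ζ ^ b) N := by
    intro b hb0 hb
    simp only [τ]
    rw [if_neg hb0.ne', if_pos hb, (him b hb0 hb).2]
    rfl
  have hNpp1 : D.N / p / p = 1 := by
    rw [hDN, Nat.mul_div_cancel _ hp.pos, Nat.div_self hp.pos]
  have hvp : τ p (taBarX k N (p * p)) = pzJ k c₀ 1 := by
    simp only [τ]
    rw [if_neg hp.pos.ne', if_neg (lt_irrefl p), h0, hNpp1]
    rfl
  -- injectivity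
  have hginj : Set.InjOn g (Finset.range (p + 1) : Set ℕ) := by
    intro b hb b' hb' hgg
    rw [Finset.mem_coe, Finset.mem_range] at hb hb'
    have hall : ∀ f : TaBar k N, (τ b f).order = (τ b' f).order :=
      taEmbPlace_order_eq (hh b) (hh b') hgg (x := taBarJ k N)
        (by rw [hτord b, hτord b']) (by rw [hτord b]; omega)
    have hXo := hall (taBarX k N (p * p))
    have hM : N < N * (p * p) := by nlinarith
    have hNN : 1 < N := by rw [hNp]; exact hpp
    have hcase : ∀ b, b < p + 1 → b = 0 ∨ (0 < b ∧ b < p) ∨ b = p := fun b hb => by omega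
    have hord0 : (τ 0 (taBarX k N (p * p))).order = -((N * (p * p) : ℕ) : ℤ) := by
      rw [hv0, ta_order_pzJ 1 (Nat.mul_pos hNpos (Nat.mul_pos hp.pos hp.pos))]
    have hordmid : ∀ b, 0 < b → b < p → (τ b (taBarX k N (p * p))).order = -(N : ℤ) :=
      fun b hb0 hb => by rw [hvmid b hb0 hb, ta_order_pzJ _ hNpos]
    have hordp : (τ p (taBarX k N (p * p))).order = -((1 : ℕ) : ℤ) := by
      rw [hvp, ta_order_pzJ _ one_pos]
    generalize N * (p * p) = M at hM hord0
    rcases hcase b hb with rfl | ⟨hb0, hbp⟩ | rfl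
    · rcases hcase b' hb' with rfl | ⟨hb0', hbp'⟩ | rfl
      · rfl
      · rw [hord0, hordmid b' hb0' hbp'] at hXo; omega
      · rw [hord0, hordp] at hXo; omega
    · rcases hcase b' hb' with rfl | ⟨hb0', hbp'⟩ | rfl
      · rw [hord0, hordmid b hb0 hbp] at hXo; omega
      · by_contra hbb
        have hζbb : ζ ^ b' ≠ ζ ^ b := fun h => hbb (hζ.pow_inj hbp hbp' h.symm)
        have hf := hall (taBarX k N (p * p) -
          algebraMap k (TaBar k N) (((ζ ^ b)⁻¹ : kˣ) : k) * taBarJ k N)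
        rw [map_sub, map_sub, map_mul, map_mul, AlgHom.commutes, AlgHom.commutes,
          LaurentSeries.algebraMap_apply, hτJ b, hτJ b', hvmid b hb0 hbp, hvmid b' hb0' hbp'] at hf
        have h3 := ta_order_pzJ_sub_nonneg (k := k) (ζ ^ b) hNpos
        have h4 := ta_order_pzJ_sub_neg (k := k) hζbb hNpos
        omega
      · rw [hordmid b hb0 hbp, hordp] at hXo; omega
    · rcases hcase b' hb' with rfl | ⟨hb0', hbp'⟩ | rfl
      · rw [hord0, hordp] at hXo; omega
      · rw [hordmid b' hb0' hbp', hordp] at hXo; omega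
      · rfl
  -- the count
  have hfin : {Q : Place k (TaBar k N) | Q.ord (taBarJ k N) < 0}.Finite :=
    Fermat.Agent.CurveP.finite_poles (ta_bar_isFunctionFieldGen k N)
  calc p + 1 = (Finset.range (p + 1)).card := (Finset.card_range _).symm
    _ = ((Finset.range (p + 1)).image g).card := (Finset.card_image_of_injOn hginj).symm
    _ = (((Finset.range (p + 1)).image g : Finset _) : Set (Place k (TaBar k N))).ncard :=
        (Set.ncard_coe_finset _).symm
    _ ≤ _ := by
        refine Set.ncard_le_ncard ?_ hfin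
        intro Q hQ
        rw [Finset.mem_coe, Finset.mem_image] at hQ
        obtain ⟨b, -, rfl⟩ := hQ
        exact hgmem b

end Emb

/-! ### The base levels -/

section Base

variable (k : Type*) [Field k] [IsAlgClosed k]

theorem ta_three_le_ncard_poles_four (h2 : (2 : k) ≠ 0) :
    3 ≤ {Q : Place k (TaBar k 4) | Q.ord (taBarJ k 4) < 0}.ncard := by
  have hN : ((4 : ℕ) : k) ≠ 0 := by
    have : ((4 : ℕ) : k) = 2 * 2 := by norm_num
    rw [this]
    exact mul_ne_zero h2 h2
  exact ta_succ_le_ncard_poles k 4 Nat.prime_two (by norm_num) hN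

theorem ta_four_le_ncard_poles_nine (h3 : (3 : k) ≠ 0) :
    4 ≤ {Q : Place k (TaBar k 9) | Q.ord (taBarJ k 9) < 0}.ncard := by
  have hN : ((9 : ℕ) : k) ≠ 0 := by
    have : ((9 : ℕ) : k) = 3 * 3 := by norm_num
    rw [this]
    exact mul_ne_zero h3 h3
  exact ta_succ_le_ncard_poles k 9 Nat.prime_three (by norm_num) hN

end Base

end Fermat.Agent.T1
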