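/-
T1-A leaf T1A-RH (helper5): the Riemann–Hurwitz INEQUALITY in counting form, any characteristic
(pure `CurveP`): for a separating generator `t` of a function field `F/K` of degree `n` and a
finite set `A ⊆ K`,
`∑_{a ∈ A} (n - #{zeros of t - a}) - n - #{poles of t} ≤ 2 g - 2`.
-/
import Mathlib
import Fermat.Agent.Lib.CurveP.RiemannRoch
import Fermat.Agent.Lib.CurveP.Hurwitz

set_option autoImplicit false
set_option linter.unusedSectionVars false
set_option linter.style.haveILetI false

namespace Fermat.Agent.T1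

open Fermat.Agent.Curve Fermat.Agent.CurveP

open AlgebraicCurve KaehlerDifferential IntermediateField PlaceAux

variable {K F : Type*} [Field K] [Field F] [Algebra K F] [IsAlgClosed K]

/-- the order of `dt` at a zero of `t - a` is at least `ord (t - a) - 1` -/
theorem ta_ordDifferential_ge_of_zero {t : F} (ht : IsFunctionFieldGen K F t)
    [Algebra.IsSeparable K⟮t⟯ F] (v : Place K F) {a : K}
    (ha : 0 < v.ord (t - algebraMap K F a)) :
    v.ord (t - algebraMap K F a) - 1 ≤ v.ordDifferential (D K F t) := by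
  have hne : t - algebraMap K F a ≠ 0 := by
    intro h0
    rw [h0, v.ord_zero] at ha
    exact lt_irrefl _ ha
  rcases le_ord_differentialCoeff_D ht v t a ha.le hne with h0 | ⟨h1, -⟩
  · exact absurd h0 (differentialCoeff_D_gen_ne_zero ht v)
  · exact h1

/-- the order of `dt` at a pole of `t` is at least `ord t - 1` -/
theorem ta_ordDifferential_ge_of_pole {t : F} (ht : IsFunctionFieldGen K F t)
    [Algebra.IsSeparable K⟮t⟯ F] (v : Place K F) (hv : v.ord t < 0) :
    v.ord t - 1 ≤ v.ordDifferential (D K F t) := by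
  haveI := dCoordGenerates ht v
  haveI := nontrivial_kaehler_of_place ht v
  have ht0 : t ≠ 0 := by
    rintro rfl
    rw [v.ord_zero] at hv
    exact lt_irrefl _ hv
  have hDt : D K F t = (-(t ^ 2)) • D K F t⁻¹ := D_inv_eq t
  have hc : -(t ^ 2) ≠ 0 := neg_ne_zero.mpr (pow_ne_zero 2 ht0)
  have hDinv : D K F t⁻¹ ≠ 0 := by
    intro h0
    apply D_gen_ne_zero ht v
    rw [hDt, h0, smul_zero]
  have hcoef : v.differentialCoeff (D K F t⁻¹) ≠ 0 :=
    differentialCoeff_ne_zero_of_ne_zero ht v hDinv
  have hpos : 0 ≤ v.ord (t⁻¹ - algebraMap K F 0) := by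
    rw [map_zero, sub_zero, v.ord_inv]; omega
  have hne : t⁻¹ - algebraMap K F 0 ≠ 0 := by
    rw [map_zero, sub_zero]; exact inv_ne_zero ht0
  rcases le_ord_differentialCoeff_D ht v t⁻¹ 0 hpos hne with h0 | ⟨h1, -⟩
  · exact absurd h0 hcoef
  · rw [map_zero, sub_zero, v.ord_inv] at h1
    rw [hDt, v.ordDifferential_smul hc hcoef, Place.ordDifferential, ord_neg', pow_two,
      v.ord_mul ht0 ht0]
    omega

/-- **the Riemann–Hurwitz inequality** for `F / K(t)`, `t` separating, in counting form. -/
theorem ta_hurwitz_le {t : F} (ht : IsFunctionFieldGen K F t) [Algebra.IsSeparable K⟮t⟯ F]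
    (A : Finset K) :
    ∑ a ∈ A, ((Module.finrank K⟮t⟯ F : ℤ)
        - {v : Place K F | 0 < v.ord (t - algebraMap K F a)}.ncard)
      - Module.finrank K⟮t⟯ F - {v : Place K F | v.ord t < 0}.ncard
      ≤ 2 * (CurveP.genusR K F : ℤ) - 2 := by
  classical
  set n := Module.finrank K⟮t⟯ F with hn
  obtain ⟨v₀⟩ := CurveP.exists_place ht
  have hω : D K F t ≠ 0 := D_gen_ne_zero ht v₀
  set G : Divisor K F := divDiff ht (D K F t) with hG
  have hGv : ∀ v : Place K F, G v = v.ordDifferential (D K F t) := fun v =>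
    divDiff_apply ht hω v
  rw [← degree_divDiff ht hω, ← hG, degree_eq_finsum ht]
  -- finite sets of zeros and poles
  have hfinP := finite_poles ht
  have hfinZ := fun a => finite_zeros ht a
  set P : Finset (Place K F) := hfinP.toFinset with hP
  set Z : K → Finset (Place K F) := fun a => (hfinZ a).toFinset with hZ
  have hmemP : ∀ v, v ∈ P ↔ v.ord t < 0 := fun v => by simp [hP]
  have hmemZ : ∀ a v, v ∈ Z a ↔ 0 < v.ord (t - algebraMap K F a) := fun a v => by simp [hZ]
  set T : Finset (Place K F) := P ∪ A.biUnion Z with hT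
  set U : Finset (Place K F) := T ∪ G.support with hU
  have hsupp : Function.support (fun v => G v) ⊆ ↑U := by
    intro v hv
    rw [Function.mem_support] at hv
    rw [Finset.mem_coe, hU, Finset.mem_union]
    exact Or.inr (Finsupp.mem_support_iff.mpr hv)
  rw [finsum_eq_sum_of_support_subset _ hsupp]
  -- drop the places outside `T`
  have hTU : T ⊆ U := Finset.subset_union_left
  have hge : ∑ v ∈ T, G v ≤ ∑ v ∈ U, G v := by
    refine Finset.sum_le_sum_of_subset_of_nonneg hTU fun v _ hvT => ?_
    rw [hGv v]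
    apply ordDifferential_D_gen_nonneg ht v
    intro hpole
    exact hvT (Finset.mem_union_left _ ((hmemP v).mpr hpole))
  refine le_trans ?_ hge
  have hdisj1 : Disjoint P (A.biUnion Z) := by
    rw [Finset.disjoint_left]
    intro v hvP hvZ
    rw [Finset.mem_biUnion] at hvZ
    obtain ⟨a, -, hva⟩ := hvZ
    exact CurveP.not_pole_of_zero v ((hmemZ a v).mp hva) ((hmemP v).mp hvP)
  have hdisj2 : (↑A : Set K).PairwiseDisjoint Z := by
    intro a _ b _ hab
    rw [Function.onFun, Finset.disjoint_left]
    intro v hva hvb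
    exact hab (CurveP.zero_unique v ((hmemZ a v).mp hva) ((hmemZ b v).mp hvb))
  rw [hT, Finset.sum_union hdisj1, Finset.sum_biUnion hdisj2]
  -- the poles
  have hsumP : -(n : ℤ) - (P.card : ℤ) ≤ ∑ v ∈ P, G v := by
    have h1 := sum_ord_poles ht
    rw [finsum_mem_eq_finite_toFinset_sum _ hfinP, ← hn] at h1
    have h2 : ∀ v ∈ P, -(-v.ord t) - 1 ≤ G v := by
      intro v hv
      rw [hGv v]
      have := ta_ordDifferential_ge_of_pole ht v ((hmemP v).mp hv)
      omega
    have h3 := Finset.sum_le_sum h2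
    rw [Finset.sum_sub_distrib, Finset.sum_neg_distrib, h1, Finset.sum_const, nsmul_eq_mul,
      mul_one] at h3
    exact h3
  -- the zeros of `t - a`
  have hsumZ : ∀ a : K, (n : ℤ) - ((Z a).card : ℤ) ≤ ∑ v ∈ Z a, G v := by
    intro a
    have h1 := sum_ord_zeros ht a
    rw [finsum_mem_eq_finite_toFinset_sum _ (hfinZ a), ← hn] at h1
    have h2 : ∀ v ∈ Z a, v.ord (t - algebraMap K F a) - 1 ≤ G v := by
      intro v hv
      rw [hGv v]
      exact ta_ordDifferential_ge_of_zero ht v ((hmemZ a v).mp hv)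
    have h3 := Finset.sum_le_sum h2
    rw [Finset.sum_sub_distrib, h1, Finset.sum_const, nsmul_eq_mul, mul_one] at h3
    exact h3
  have hcardP : {v : Place K F | v.ord t < 0}.ncard = P.card :=
    Set.ncard_eq_toFinset_card _ hfinP
  have hcardZ : ∀ a : K, {v : Place K F | 0 < v.ord (t - algebraMap K F a)}.ncard = (Z a).card :=
    fun a => Set.ncard_eq_toFinset_card _ (hfinZ a)
  simp only [hcardP, hcardZ]
  have hsumA := Finset.sum_le_sum fun a (_ : a ∈ A) => hsumZ a
  linarith

end Fermat.Agent.T1
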