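/-
T1-A leaf T1A-RHRAT (helper4): the Riemann–Hurwitz INEQUALITY over a genus-`0` subfield, in
counting form, any characteristic (pure `CurveP`).

* `ta_exists_simple_pole`: in genus `0` every place is the only pole, simple, of a separating
  element `t` (Riemann–Roch: `ℓ(P₀) = 2`); `ta_adjoin_eq_top`, `ta_rational_of_genus_zero`:
  then `E = K(t)`; `ta_zero_unique`: every value is taken at exactly one place.
* tower lemmas for `K ⊆ E ⊆ F`: `ta_finite_of_finite_adjoin`, `ta_isSeparable_of_adjoin_eq_top`,
  `ta_finrank_adjoin_eq`, `ta_ord_restrict_neg_iff`, `ta_ord_restrict_pos_iff`.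
* `ta_hurwitz_over_rational`: `(c_E - 2) [F : E] - c_F ≤ 2 g(F) - 2` for the numbers `c_E`, `c_F`
  of poles of a separating generator `y ∈ E` in `E` and in `F` (apply `ta_hurwitz_le` to `t` and
  the values of `t` at the poles of `y`).
-/
import Mathlib
import Fermat.Agent.Lib.T1.GoodRed.HurwitzLe
import Fermat.Agent.Lib.CurveP.Insep
import Fermat.Prelude.Def_AlgebraicCurve_DivisorPushPull

set_option autoImplicit false
set_option linter.unusedSectionVars false
set_option linter.unusedVariables false
set_option linter.style.haveILetI false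

namespace Fermat.Agent.T1

open Fermat.Agent.Curve Fermat.Agent.CurveP

open AlgebraicCurve KaehlerDifferential IntermediateField PlaceAux

section Rational

variable {K E : Type*} [Field K] [Field E] [Algebra K E] [IsAlgClosed K]

/-- a separating generator has a pole -/
theorem ta_exists_pole {y : E} (hy : IsFunctionFieldGen K E y) [Algebra.IsSeparable K⟮y⟯ E] :
    ∃ P : Place K E, P.ord y < 0 := by
  by_contra hne
  push Not at hne
  have h := sum_ord_poles hy
  have h0 : ∑ᶠ v ∈ {v : Place K E | v.ord y < 0}, - v.ord y = 0 := by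
    apply finsum_mem_eq_zero_of_forall_eq_zero
    intro v hv
    exact absurd hv (not_lt.mpr (hne v))
  rw [h0] at h
  have hpos : 0 < Module.finrank K⟮y⟯ E := by
    haveI := hy.finite
    exact Module.finrank_pos
  omega

/-- in genus `0`, every place `P₀` is the only pole, simple, of a separating element `t` -/
theorem ta_exists_simple_pole {y : E} (hy : IsFunctionFieldGen K E y) [Algebra.IsSeparable K⟮y⟯ E]
    (hg : CurveP.genusR K E = 0) (P₀ : Place K E) :
    ∃ t : E, t ∉ Set.range (algebraMap K E) ∧ Algebra.IsSeparable K⟮t⟯ E ∧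
      P₀.ord t = -1 ∧ ∀ v : Place K E, v.ord t < 0 → v = P₀ := by
  classical
  set D : Divisor K E := Finsupp.single P₀ 1 with hD
  have hdeg : Divisor.degree D = 1 := by
    rw [hD, Divisor.degree_single, deg_eq_one hy P₀]
    norm_num
  have hell : (ell D : ℤ) = 2 := by
    rw [ell_eq_of_degree_gt hy (by rw [hg, hdeg]; norm_num), hdeg, hg]
    norm_num
  -- a nonconstant element of `L(P₀)`
  have hex : ∃ t ∈ riemannRochSpace D, t ∉ Set.range (algebraMap K E) := by
    by_contra hcon
    push Not at hcon
    have hle : riemannRochSpace D ≤ Submodule.span K {(1 : E)} := by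
      intro t ht
      obtain ⟨c, rfl⟩ := hcon t ht
      rw [Submodule.mem_span_singleton]
      exact ⟨c, by rw [Algebra.smul_def, mul_one]⟩
    have h1 : Module.finrank K ↥(riemannRochSpace D) ≤ 1 := by
      calc Module.finrank K ↥(riemannRochSpace D)
          ≤ Module.finrank K ↥(Submodule.span K {(1 : E)}) := Submodule.finrank_mono hle
        _ ≤ 1 := by
          rw [finrank_span_singleton (one_ne_zero)]
    have h2 : ell D = 2 := by exact_mod_cast hell
    rw [ell] at h2
    omega
  obtain ⟨t, htD, htK⟩ := hex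
  rw [mem_riemannRochSpace_iff] at htD
  have ht0 : t ≠ 0 := by
    rintro rfl
    exact htK ⟨0, map_zero _⟩
  have hord : ∀ v : Place K E, -D v ≤ v.ord t := fun v => (htD v).resolve_left ht0
  have hordP₀ : -1 ≤ P₀.ord t := by
    have := hord P₀
    rwa [hD, Finsupp.single_eq_same] at this
  have hordne : ∀ v : Place K E, v ≠ P₀ → 0 ≤ v.ord t := by
    intro v hv
    have := hord v
    rwa [hD, Finsupp.single_eq_of_ne hv, neg_zero] at this
  -- `t` is a power of a separating element
  obtain ⟨g, n, hn, rfl, hgK, hgsep⟩ := exists_isSeparable_pow_eq hy htK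
  have hggen : IsFunctionFieldGen K E g := isFunctionFieldGen_of_notMem_range hy hgK
  obtain ⟨v, hv⟩ := ta_exists_pole hggen
  have hordpow : ∀ w : Place K E, w.ord (g ^ n) = n * w.ord g := fun w => by
    rw [← zpow_natCast, w.ord_zpow]
  have hvP₀ : v = P₀ := by
    by_contra hne
    have h1 := hordne v hne
    rw [hordpow] at h1
    have : (n : ℤ) * v.ord g < 0 := mul_neg_of_pos_of_neg (by exact_mod_cast hn) hv
    omega
  subst hvP₀
  rw [hordpow] at hordP₀
  have hn1 : n = 1 := by
    by_contra hne
    have h2 : (2 : ℤ) ≤ n := by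
      have : 2 ≤ n := by omega
      exact_mod_cast this
    nlinarith
  subst hn1
  rw [pow_one] at htK hordne
  rw [Nat.cast_one, one_mul] at hordP₀
  refine ⟨g, htK, hgsep, by omega, ?_⟩
  intro w hw
  by_contra hne
  have := hordne w hne
  omega

/-- an element whose only pole is simple generates the function field -/
theorem ta_finrank_eq_one {t : E} (ht : IsFunctionFieldGen K E t) [Algebra.IsSeparable K⟮t⟯ E]
    (P₀ : Place K E) (h1 : P₀.ord t = -1) (h2 : ∀ v : Place K E, v.ord t < 0 → v = P₀) :
    Module.finrank K⟮t⟯ E = 1 := by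
  have h := sum_ord_poles ht
  have hset : {v : Place K E | v.ord t < 0} = {P₀} := by
    ext v
    simp only [Set.mem_ofPred_eq, Set.mem_singleton_iff]
    constructor
    · exact h2 v
    · rintro rfl
      omega
  rw [hset, finsum_mem_singleton, h1] at h
  have : (Module.finrank K⟮t⟯ E : ℤ) = 1 := by rw [← h]; norm_num
  exact_mod_cast this

theorem ta_adjoin_eq_top {t : E} (ht : IsFunctionFieldGen K E t) [Algebra.IsSeparable K⟮t⟯ E]
    (P₀ : Place K E) (h1 : P₀.ord t = -1) (h2 : ∀ v : Place K E, v.ord t < 0 → v = P₀) :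
    K⟮t⟯ = ⊤ :=
  IntermediateField.finrank_eq_one_iff_eq_top.mp (ta_finrank_eq_one ht P₀ h1 h2)

/-- **genus `0` implies rational** -/
theorem ta_rational_of_genus_zero {y : E} (hy : IsFunctionFieldGen K E y)
    [Algebra.IsSeparable K⟮y⟯ E] (hg : CurveP.genusR K E = 0) :
    ∃ t : E, IsFunctionFieldGen K E t ∧ K⟮t⟯ = ⊤ := by
  obtain ⟨P₀, -⟩ := ta_exists_pole hy
  obtain ⟨t, htK, htsep, ht1, ht2⟩ := ta_exists_simple_pole hy hg P₀
  have htgen : IsFunctionFieldGen K E t := isFunctionFieldGen_of_notMem_range hy htK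
  exact ⟨t, htgen, ta_adjoin_eq_top htgen P₀ ht1 ht2⟩

/-- if `[E : K(t)] = 1` then `t - a` has exactly one zero -/
theorem ta_zero_unique {t : E} (ht : IsFunctionFieldGen K E t) [Algebra.IsSeparable K⟮t⟯ E]
    (hdeg : Module.finrank K⟮t⟯ E = 1) (a : K) {v w : Place K E}
    (hv : 0 < v.ord (t - algebraMap K E a)) (hw : 0 < w.ord (t - algebraMap K E a)) : v = w := by
  classical
  by_contra hne
  have hfin := finite_zeros ht a
  have hsum := sum_ord_zeros ht a
  rw [finsum_mem_eq_finite_toFinset_sum _ hfin, hdeg] at hsum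
  have hvm : v ∈ hfin.toFinset := by simpa using hv
  have hwm : w ∈ hfin.toFinset := by simpa using hw
  have hsub : ({v, w} : Finset (Place K E)) ⊆ hfin.toFinset := by
    intro u hu
    rw [Finset.mem_insert, Finset.mem_singleton] at hu
    rcases hu with rfl | rfl
    · exact hvm
    · exact hwm
  have hle : ∑ u ∈ ({v, w} : Finset (Place K E)), u.ord (t - algebraMap K E a) ≤
      ∑ u ∈ hfin.toFinset, u.ord (t - algebraMap K E a) := by
    refine Finset.sum_le_sum_of_subset_of_nonneg hsub fun u hu _ => ?_
    have : 0 < u.ord (t - algebraMap K E a) := by simpa using hu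
    omega
  rw [Finset.sum_pair hne, hsum] at hle
  norm_num at hle
  omega

end Rational

section Tower

variable {K E F : Type*} [Field K] [Field E] [Field F] [Algebra K E] [Algebra K F] [Algebra E F]
  [IsScalarTower K E F]

theorem ta_adjoin_le_fieldRange (y : E) :
    K⟮algebraMap E F y⟯ ≤ (IsScalarTower.toAlgHom K E F).fieldRange := by
  rw [adjoin_simple_le_iff]
  exact ⟨y, rfl⟩

/-- `F` is finite over `E` if it is finite over `K(y)`, `y ∈ E` -/
theorem ta_finite_of_finite_adjoin (y : E) [FiniteDimensional K⟮algebraMap E F y⟯ F] :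
    Module.Finite E F := by
  obtain ⟨S, hS⟩ := (Module.finite_def (R := K⟮algebraMap E F y⟯) (M := F)).mp inferInstance
  refine ⟨⟨S, ?_⟩⟩
  rw [eq_top_iff]
  intro z hz0
  clear hz0
  have hz : z ∈ Submodule.span K⟮algebraMap E F y⟯ (S : Set F) := by rw [hS]; trivial
  induction hz using Submodule.span_induction with
  | mem w hw => exact Submodule.subset_span hw
  | zero => exact zero_mem _
  | add a b _ _ ha hb => exact add_mem ha hb
  | smul c w _ hw =>
    obtain ⟨e, he⟩ := ta_adjoin_le_fieldRange (K := K) (F := F) y c.2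
    have : c • w = e • w := by
      rw [Algebra.smul_def, Algebra.smul_def]
      congr 1
      exact he.symm
    rw [this]
    exact Submodule.smul_mem _ _ hw

theorem ta_adjoin_map_eq_fieldRange {t : E} (ht : K⟮t⟯ = ⊤) :
    K⟮algebraMap E F t⟯ = (IsScalarTower.toAlgHom K E F).fieldRange := by
  have h := IntermediateField.adjoin_map K {t} (IsScalarTower.toAlgHom K E F)
  rw [ht, Set.image_singleton, ← AlgHom.fieldRange_eq_map] at h
  exact h.symm

/-- `F / K(t)` is separable if `F / K(y)` is and `K(t) = E ∋ y` -/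
theorem ta_isSeparable_of_adjoin_eq_top {y t : E} (ht : K⟮t⟯ = ⊤)
    [hsep : Algebra.IsSeparable K⟮algebraMap E F y⟯ F] :
    Algebra.IsSeparable K⟮algebraMap E F t⟯ F := by
  have hle : K⟮algebraMap E F y⟯ ≤ K⟮algebraMap E F t⟯ := by
    rw [ta_adjoin_map_eq_fieldRange ht]
    exact ta_adjoin_le_fieldRange y
  letI : Algebra K⟮algebraMap E F y⟯ K⟮algebraMap E F t⟯ :=
    (IntermediateField.inclusion hle).toRingHom.toAlgebra
  haveI : IsScalarTower K⟮algebraMap E F y⟯ K⟮algebraMap E F t⟯ F :=
    IsScalarTower.of_algebraMap_eq fun _ => rfl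
  exact Algebra.isSeparable_tower_top_of_isSeparable K⟮algebraMap E F y⟯ K⟮algebraMap E F t⟯ F

/-- `[F : K(t)] = [F : E]` if `K(t) = E` -/
theorem ta_finrank_adjoin_eq {t : E} (ht : K⟮t⟯ = ⊤) :
    Module.finrank K⟮algebraMap E F t⟯ F = Module.finrank E F := by
  have h1 := ta_adjoin_map_eq_fieldRange (K := K) (F := F) ht
  let e₁ : E ≃+* K⟮algebraMap E F t⟯ :=
    ((AlgEquiv.ofInjectiveField (IsScalarTower.toAlgHom K E F)).trans
      (IntermediateField.equivOfEq h1.symm)).toRingEquiv
  refine (Algebra.finrank_eq_of_equiv_equiv e₁ (RingEquiv.refl F) ?_).symm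
  ext e
  rfl

section Restrict

variable [Algebra.IsIntegral E F]

theorem ta_ord_restrict_neg_iff (Q : Place K F) (f : E) :
    Q.ord (algebraMap E F f) < 0 ↔ (Q.restrict E).ord f < 0 := by
  rw [Q.ord_restrict f]
  have he : (0 : ℤ) < Place.ramificationIndex (F := E) Q := by
    exact_mod_cast Q.ramificationIndex_pos (F := E)
  constructor
  · intro h
    by_contra hcon
    have : 0 ≤ (Place.ramificationIndex (F := E) Q : ℤ) * (Q.restrict E).ord f :=
      mul_nonneg he.le (not_lt.mp hcon)
    omega
  · intro h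
    exact mul_neg_of_pos_of_neg he h

theorem ta_ord_restrict_pos_iff (Q : Place K F) (f : E) :
    0 < Q.ord (algebraMap E F f) ↔ 0 < (Q.restrict E).ord f := by
  rw [Q.ord_restrict f]
  have he : (0 : ℤ) < Place.ramificationIndex (F := E) Q := by
    exact_mod_cast Q.ramificationIndex_pos (F := E)
  constructor
  · intro h
    by_contra hcon
    have : (Place.ramificationIndex (F := E) Q : ℤ) * (Q.restrict E).ord f ≤ 0 :=
      mul_nonpos_of_nonneg_of_nonpos he.le (not_lt.mp hcon)
    omega
  · intro h
    exact mul_pos he h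

end Restrict

end Tower

section Main

variable {K E F : Type*} [Field K] [IsAlgClosed K] [Field E] [Field F] [Algebra K E] [Algebra K F]
  [Algebra E F] [IsScalarTower K E F]

/-- **the Riemann–Hurwitz inequality over a genus-`0` subfield**, in counting form: if `E` has
genus `0`, `y ∈ E` is a separating generator of `E` and of `F ⊇ E`, with `c_E` poles in `E` and
`c_F` poles in `F`, then `(c_E - 2) [F : E] - c_F ≤ 2 g(F) - 2`. -/
theorem ta_hurwitz_over_rational {y : E} (hy : IsFunctionFieldGen K E y)
    [Algebra.IsSeparable K⟮y⟯ E] (hgE : CurveP.genusR K E = 0)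
    (hx : IsFunctionFieldGen K F (algebraMap E F y))
    [Algebra.IsSeparable K⟮algebraMap E F y⟯ F] :
    (({P : Place K E | P.ord y < 0}.ncard : ℤ) - 2) * (Module.finrank E F : ℤ)
        - ({Q : Place K F | Q.ord (algebraMap E F y) < 0}.ncard : ℤ)
      ≤ 2 * (CurveP.genusR K F : ℤ) - 2 := by
  classical
  obtain ⟨P₀, hP₀⟩ := ta_exists_pole hy
  obtain ⟨t, htK, htsep, ht1, ht2⟩ := ta_exists_simple_pole hy hgE P₀
  have htgen : IsFunctionFieldGen K E t := isFunctionFieldGen_of_notMem_range hy htK
  have hdeg := ta_finrank_eq_one htgen P₀ ht1 ht2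
  have htop := ta_adjoin_eq_top htgen P₀ ht1 ht2
  -- in `F`
  haveI := hx.finite
  haveI : Module.Finite E F := ta_finite_of_finite_adjoin (K := K) y
  haveI : Algebra.IsIntegral E F := Algebra.IsIntegral.of_finite E F
  set t' : F := algebraMap E F t with ht'
  have ht'K : t' ∉ Set.range (algebraMap K F) := by
    rintro ⟨c, hc⟩
    apply htK
    refine ⟨c, (algebraMap E F).injective ?_⟩
    rw [← IsScalarTower.algebraMap_apply]
    exact hc
  have ht'gen : IsFunctionFieldGen K F t' := isFunctionFieldGen_of_notMem_range hx ht'K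
  haveI : Algebra.IsSeparable K⟮t'⟯ F := ta_isSeparable_of_adjoin_eq_top (y := y) htop
  have hn : Module.finrank K⟮t'⟯ F = Module.finrank E F := ta_finrank_adjoin_eq htop
  have hsub : ∀ a : K, t' - algebraMap K F a = algebraMap E F (t - algebraMap K E a) := by
    intro a
    rw [map_sub, ← IsScalarTower.algebraMap_apply]
  -- the values of `t` at the other poles of `y`
  have hSfin : {P : Place K E | P.ord y < 0}.Finite := finite_poles hy
  let val : Place K E → K := fun P =>
    if h : ∃ a : K, 0 < P.ord (t - algebraMap K E a) then h.choose else 0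
  have hval : ∀ P : Place K E, P ≠ P₀ → 0 < P.ord (t - algebraMap K E (val P)) := by
    intro P hP
    have hex : ∃ a : K, 0 < P.ord (t - algebraMap K E a) := by
      rcases pole_or_zero htgen P with h | h
      · exact absurd (ht2 P h) hP
      · exact h
    simp only [val, dif_pos hex]
    exact hex.choose_spec
  set S' : Finset (Place K E) := hSfin.toFinset.erase P₀ with hS'
  have hmemS' : ∀ P, P ∈ S' ↔ P ≠ P₀ ∧ P.ord y < 0 := by
    intro P
    rw [hS', Finset.mem_erase, Set.Finite.mem_toFinset]
    rfl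
  have hinj : Set.InjOn val (S' : Set (Place K E)) := by
    intro P hP P' hP' h
    have h1 := hval P ((hmemS' P).mp hP).1
    have h2 := hval P' ((hmemS' P').mp hP').1
    rw [← h] at h2
    exact ta_zero_unique htgen hdeg _ h1 h2
  set A : Finset K := S'.image val with hA
  have hAcard : (A.card : ℤ) = ({P : Place K E | P.ord y < 0}.ncard : ℤ) - 1 := by
    rw [hA, Finset.card_image_of_injOn hinj, hS', Finset.card_erase_of_mem (by simpa using hP₀),
      Set.ncard_eq_toFinset_card _ hSfin]
    have : 0 < hSfin.toFinset.card := Finset.card_pos.mpr ⟨P₀, by simpa using hP₀⟩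
    omega
  have hmain := ta_hurwitz_le ht'gen A
  rw [hn] at hmain
  -- the zeros of `t' - a` (`a ∈ A`) and the poles of `t'` are poles of `x`
  have hfinX : {Q : Place K F | Q.ord (algebraMap E F y) < 0}.Finite := finite_poles hx
  have hfinP := finite_poles ht'gen
  have hfinZ := fun a => finite_zeros ht'gen a
  set X : Finset (Place K F) := hfinX.toFinset with hX
  set Pl : Finset (Place K F) := hfinP.toFinset with hPl
  set Z : K → Finset (Place K F) := fun a => (hfinZ a).toFinset with hZ
  have hmemX : ∀ v, v ∈ X ↔ v.ord (algebraMap E F y) < 0 := fun v => by simp [hX]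
  have hmemP : ∀ v, v ∈ Pl ↔ v.ord t' < 0 := fun v => by simp [hPl]
  have hmemZ : ∀ a v, v ∈ Z a ↔ 0 < v.ord (t' - algebraMap K F a) := fun a v => by simp [hZ]
  have hdisj1 : Disjoint Pl (A.biUnion Z) := by
    rw [Finset.disjoint_left]
    intro v hvP hvZ
    rw [Finset.mem_biUnion] at hvZ
    obtain ⟨a, -, hva⟩ := hvZ
    exact CurveP.not_pole_of_zero v ((hmemZ a v).mp hva) ((hmemP v).mp hvP)
  have hdisj2 : (↑A : Set K).PairwiseDisjoint Z := by
    intro a _ b _ hab
    rw [Function.onFun, Finset.disjoint_left]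
    intro v hva hvb
    exact hab (CurveP.zero_unique v ((hmemZ a v).mp hva) ((hmemZ b v).mp hvb))
  have hsubX : Pl ∪ A.biUnion Z ⊆ X := by
    intro Q hQ
    rw [hmemX, ta_ord_restrict_neg_iff]
    rw [Finset.mem_union] at hQ
    rcases hQ with hQ | hQ
    · have h1 : (Q.restrict E).ord t < 0 := (ta_ord_restrict_neg_iff Q t).mp ((hmemP Q).mp hQ)
      rw [ht2 _ h1]
      exact hP₀
    · rw [Finset.mem_biUnion] at hQ
      obtain ⟨a, haA, hQa⟩ := hQ
      rw [hA, Finset.mem_image] at haA
      obtain ⟨P', hP', rfl⟩ := haA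
      have h1 : 0 < (Q.restrict E).ord (t - algebraMap K E (val P')) := by
        rw [← ta_ord_restrict_pos_iff, ← hsub]
        exact (hmemZ _ Q).mp hQa
      have h2 := hval P' ((hmemS' P').mp hP').1
      rw [ta_zero_unique htgen hdeg _ h1 h2]
      exact ((hmemS' P').mp hP').2
  have hcard := Finset.card_le_card hsubX
  rw [Finset.card_union_of_disjoint hdisj1, Finset.card_biUnion hdisj2] at hcard
  have hcardX : {Q : Place K F | Q.ord (algebraMap E F y) < 0}.ncard = X.card :=
    Set.ncard_eq_toFinset_card _ hfinX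
  have hcardP : {v : Place K F | v.ord t' < 0}.ncard = Pl.card :=
    Set.ncard_eq_toFinset_card _ hfinP
  have hcardZ : ∀ a : K, {v : Place K F | 0 < v.ord (t' - algebraMap K F a)}.ncard = (Z a).card :=
    fun a => Set.ncard_eq_toFinset_card _ (hfinZ a)
  simp only [hcardP, hcardZ] at hmain
  rw [hcardX]
  rw [Finset.sum_sub_distrib, Finset.sum_const, nsmul_eq_mul, hAcard] at hmain
  have hcard' : (Pl.card : ℤ) + ∑ a ∈ A, ((Z a).card : ℤ) ≤ X.card := by
    exact_mod_cast hcard
  linarith

end Main

end Fermat.Agent.T1
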