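/-
T1-A, T1A-UPPER (helper5), numerics: `ν₂(N) = ν₃(N) = 0` and
`genusFormula N = 1 + ψ(N)/12 - c(N)/2` if `4 ∣ N` or `9 ∣ N`; `genusFormula 4 = genusFormula 9 = 0`.
-/
import Mathlib
import Fermat.Prelude.Def_ModularCurve_GenusNumerics
import Fermat.Agent.Lib.Igusa.TowerLeafGlue

set_option autoImplicit false

open ModularCurve

namespace Fermat.Agent.T1

theorem ta_nuTwo_eq_zero_of_dvd {m N : ℕ} (hm : ∀ y : ZMod m, y ^ 2 + 1 ≠ 0) (h : m ∣ N) :
    nuTwo N = 0 := by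
  show Nat.card {x : ZMod N // x ^ 2 + 1 = 0} = 0
  rw [Nat.card_eq_zero]
  left
  refine ⟨fun ⟨x, hx⟩ => ?_⟩
  apply hm (ZMod.castHom h (ZMod m) x)
  rw [← map_pow, ← map_one (ZMod.castHom h (ZMod m)), ← map_add, hx, map_zero]

theorem ta_nuThree_eq_zero_of_dvd {m N : ℕ} (hm : ∀ y : ZMod m, y ^ 2 + y + 1 ≠ 0) (h : m ∣ N) :
    nuThree N = 0 := by
  show Nat.card {x : ZMod N // x ^ 2 + x + 1 = 0} = 0
  rw [Nat.card_eq_zero]
  left
  refine ⟨fun ⟨x, hx⟩ => ?_⟩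
  apply hm (ZMod.castHom h (ZMod m) x)
  rw [← map_pow, ← map_one (ZMod.castHom h (ZMod m)), ← map_add, ← map_add, hx, map_zero]

theorem ta_nuTwo_eq_zero {N : ℕ} (h : 4 ∣ N ∨ 9 ∣ N) : nuTwo N = 0 := by
  rcases h with h | h
  · exact ta_nuTwo_eq_zero_of_dvd (m := 4) (by decide) h
  · exact ta_nuTwo_eq_zero_of_dvd (m := 3) (by decide) ((by norm_num : 3 ∣ 9).trans h)

theorem ta_nuThree_eq_zero {N : ℕ} (h : 4 ∣ N ∨ 9 ∣ N) : nuThree N = 0 := by
  rcases h with h | h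
  · exact ta_nuThree_eq_zero_of_dvd (m := 2) (by decide) ((by norm_num : 2 ∣ 4).trans h)
  · exact ta_nuThree_eq_zero_of_dvd (m := 9) (by decide) h

/-- the genus formula at the levels divisible by `4` or `9` -/
theorem ta_genusFormula_of_base {N : ℕ} (h : 4 ∣ N ∨ 9 ∣ N) :
    genusFormula N = 1 + (dedekindPsi N : ℚ) / 12 - (cuspCount N : ℚ) / 2 := by
  show 1 + (dedekindPsi N : ℚ) / 12 - (nuTwo N : ℚ) / 4 - (nuThree N : ℚ) / 3
    - (cuspCount N : ℚ) / 2 = _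
  rw [ta_nuTwo_eq_zero h, ta_nuThree_eq_zero h]
  simp

theorem ta_dedekindPsi_sq {p : ℕ} (hp : p.Prime) : dedekindPsi (p * p) = p * p + p := by
  rw [← pow_two, Fermat.Agent.Igusa.TowerData.twl_dedekindPsi_prime_pow hp two_pos,
    show 2 - 1 = 1 from rfl, pow_one]
  ring

theorem ta_cuspCount_four : cuspCount 4 = 3 := by decide

theorem ta_cuspCount_nine : cuspCount 9 = 4 := by decide

theorem ta_genusFormula_four : genusFormula 4 = 0 := by
  rw [ta_genusFormula_of_base (Or.inl dvd_rfl), ta_cuspCount_four,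
    show (4 : ℕ) = 2 * 2 from rfl, ta_dedekindPsi_sq Nat.prime_two]
  norm_num

theorem ta_genusFormula_nine : genusFormula 9 = 0 := by
  rw [ta_genusFormula_of_base (Or.inr dvd_rfl), ta_cuspCount_nine,
    show (9 : ℕ) = 3 * 3 from rfl, ta_dedekindPsi_sq Nat.prime_three]
  norm_num

end Fermat.Agent.T1
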