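/-
T1-A, T1A-UPPER (helper5): `genusFormula N ≤ g(F̄_N)` for `k` algebraically closed, `N ≠ 0` in `k`,
`4 ∣ N` or `9 ∣ N`, given that the base field `F̄_4` (resp. `F̄_9`) has genus `0`.

Riemann–Hurwitz over the genus-`0` subfield `E = F̄_{N₀}` (`ta_hurwitz_over_rational`):
`(c_E - 2) [F̄_N : E] - c_F ≤ 2 g - 2` with `c_E ≥ 3` (resp. `4`) poles of `j̄` at the base
(`BarBase.lean`), `c_F ≤ cuspCount N` (`BarCusps.lean`), `[F̄_N : k(j̄)] ≥ ψ(N)` (`BarField.lean`),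
`[E : k(j̄)] ≤ ψ(N₀) = 6` (resp. `12`).
-/
import Mathlib
import Fermat.Agent.Lib.T1.GoodRed.BarBase
import Fermat.Agent.Lib.T1.GoodRed.BarNumerics
import Fermat.Agent.Lib.T1.GoodRed.HurwitzRat

set_option autoImplicit false
set_option linter.unusedSectionVars false
set_option linter.style.haveILetI false

open HahnSeries ModularCurve IntermediateField Polynomial Fermat.Agent.Igusa AlgebraicCurve
open Fermat.Agent.Curve Fermat.Agent.CurveP

noncomputable section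

namespace Fermat.Agent.T1

/-! ### The abstract inequality -/

section Abstract

variable {K E F : Type*} [Field K] [Field E] [Field F] [Algebra K E] [Algebra K F]

/-- tower law `[F : K(ι y)] = [E : K(y)] [F : E]` -/
theorem ta_finrank_tower (ι : E →ₐ[K] F) (y : E) :
    letI : Algebra E F := ι.toRingHom.toAlgebra
    Module.finrank K⟮ι y⟯ F = Module.finrank K⟮y⟯ E * Module.finrank E F := by
  letI : Algebra E F := ι.toRingHom.toAlgebra
  letI : Algebra K⟮y⟯ F := ((algebraMap E F).comp (algebraMap K⟮y⟯ E)).toAlgebra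
  haveI : IsScalarTower K⟮y⟯ E F := IsScalarTower.of_algebraMap_eq (fun _ => rfl)
  rw [Module.finrank_mul_finrank K⟮y⟯ E F]
  have h1 : (K⟮y⟯).map ι = K⟮ι y⟯ := by
    rw [IntermediateField.adjoin_map, Set.image_singleton]
  let e₁ : K⟮y⟯ ≃+* K⟮ι y⟯ :=
    (((K⟮y⟯).equivMap ι).trans (IntermediateField.equivOfEq h1)).toRingEquiv
  refine (Algebra.finrank_eq_of_equiv_equiv e₁ (RingEquiv.refl F) ?_).symm
  ext e
  rfl

/-- **Riemann–Hurwitz over a genus-`0` subfield, numerical form** -/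
theorem ta_genus_ge_of_tower [IsAlgClosed K] (ι : E →ₐ[K] F) {y : E}
    (hy : IsFunctionFieldGen K E y) [Algebra.IsSeparable K⟮y⟯ E]
    (hgE : CurveP.genusR K E = 0) (hx : IsFunctionFieldGen K F (ι y))
    [Algebra.IsSeparable K⟮ι y⟯ F] {c₀ c d₀ d : ℕ}
    (hc₀ : c₀ ≤ {P : Place K E | P.ord y < 0}.ncard)
    (hc : {Q : Place K F | Q.ord (ι y) < 0}.ncard ≤ c)
    (hd₀ : Module.finrank K⟮y⟯ E ≤ d₀) (hd : d ≤ Module.finrank K⟮ι y⟯ F) (h2 : 2 ≤ c₀) :
    ((c₀ : ℚ) - 2) * d / d₀ - c ≤ 2 * (CurveP.genusR K F : ℚ) - 2 := by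
  letI : Algebra E F := ι.toRingHom.toAlgebra
  haveI : IsScalarTower K E F := IsScalarTower.of_algebraMap_eq (fun a => (ι.commutes a).symm)
  have hRH := ta_hurwitz_over_rational (K := K) (E := E) (F := F) hy hgE hx
  have htower := ta_finrank_tower ι y
  haveI : FiniteDimensional K⟮y⟯ E := hy.finite
  have hapos : 0 < Module.finrank K⟮y⟯ E := Module.finrank_pos
  set a := Module.finrank K⟮y⟯ E with ha
  set e := Module.finrank E F with he
  set cE := {P : Place K E | P.ord y < 0}.ncard with hcE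
  set cF := {Q : Place K F | Q.ord (ι y) < 0}.ncard with hcF
  have hRH' : ((cE : ℚ) - 2) * e - cF ≤ 2 * (CurveP.genusR K F : ℚ) - 2 := by
    exact_mod_cast hRH
  have h3 : (d : ℚ) ≤ d₀ * e := by
    have : d ≤ d₀ * e := hd.trans (htower ▸ Nat.mul_le_mul_right e hd₀)
    exact_mod_cast this
  have hd₀pos : (0 : ℚ) < d₀ := by exact_mod_cast (lt_of_lt_of_le hapos hd₀)
  have h4 : (d : ℚ) / d₀ ≤ e := by
    rw [div_le_iff₀ hd₀pos]
    linarith
  have hc2 : (0 : ℚ) ≤ (c₀ : ℚ) - 2 := by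
    have : ((2 : ℕ) : ℚ) ≤ c₀ := by exact_mod_cast h2
    push_cast at this
    linarith
  have h5 : ((c₀ : ℚ) - 2) * d / d₀ ≤ ((c₀ : ℚ) - 2) * e := by
    rw [mul_div_assoc]
    exact mul_le_mul_of_nonneg_left h4 hc2
  have h6 : ((c₀ : ℚ) - 2) * e ≤ ((cE : ℚ) - 2) * e := by
    apply mul_le_mul_of_nonneg_right _ (by positivity)
    have : (c₀ : ℚ) ≤ cE := by exact_mod_cast hc₀
    linarith
  have h7 : (cF : ℚ) ≤ c := by exact_mod_cast hc
  linarith

end Abstract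

/-! ### The tower `F̄_{N₀} ⊆ F̄_N` -/

section Tower

variable (k : Type*) [Field k]

theorem ta_bar_le {N₀ N : ℕ} [NeZero N₀] [NeZero N] (h : N₀ ∣ N) :
    modularFunctionFieldFullC k N₀ ≤ modularFunctionFieldFullC k N := by
  apply IntermediateField.adjoin.mono
  rintro x ⟨d, hd0, hd, rfl⟩
  exact ⟨d, hd0, hd.trans h, rfl⟩

/-- the inclusion `F̄_{N₀} → F̄_N` -/
def taBarIncl {N₀ N : ℕ} [NeZero N₀] [NeZero N] (h : N₀ ∣ N) : TaBar k N₀ →ₐ[k] TaBar k N :=
  IntermediateField.inclusion (ta_bar_le k h)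

theorem taBarIncl_taBarJ {N₀ N : ℕ} [NeZero N₀] [NeZero N] (h : N₀ ∣ N) :
    taBarIncl k h (taBarJ k N₀) = taBarJ k N := rfl

variable [IsAlgClosed k]

/-- `[F̄_{p²} : k(j̄)] ≤ p² + p` -/
theorem ta_bar_finrank_sq_le (N : ℕ) [NeZero N] {p : ℕ} (hp : p.Prime) (hNp : N = p * p)
    (hN : (N : k) ≠ 0) :
    Module.finrank ↥(k⟮taBarJ k N⟯) (TaBar k N) ≤ p * p + p := by
  classical
  haveI := ta_bar_finiteDimensional k N
  haveI := ta_bar_isSeparable k N hN
  set D := pzTowerData k N hN with hD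
  have hDN : D.N = p * p := hNp
  have hpN : p ∣ D.N := ⟨p, hDN⟩
  obtain ⟨ζ, hζ⟩ := D.exists_primitiveRoot_of_dvd hpN
  obtain ⟨ι, _, σ, hσ, hσJ', hcard⟩ := ta_exists_emb_family (taBarEmb k N) (taBarJ k N)
    (fun τ hτ z => ta_bar_range_le k N hN τ hτ z)
  have h1 : ∀ i, σ i (taBarX k N 1) = D.xj 1 := fun i => by
    rw [taBarX_one, hσJ' i, taBarEmb_taBarJ k N hN]
  have hppN : p * p ∣ N := by rw [hNp]
  have hpp : 1 < p * p := by have := hp.two_le; nlinarith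
  have hX : taBarX k N (p * p) ≠ taBarX k N 1 := by
    intro h
    have h2 := congrArg (taBarEmb k N) h
    rw [taBarEmb_taBarX k N hN hppN, taBarEmb_taBarX k N hN (one_dvd N)] at h2
    have h3 := (D.J_inj (Nat.mul_pos D.N_pos (Nat.mul_pos hp.pos hp.pos))
      (Nat.mul_pos D.N_pos one_pos) h2).1
    have h4 := Nat.eq_of_mul_eq_mul_left D.N_pos h3
    omega
  have hinj : ∀ i j, σ i (taBarX k N p) = σ j (taBarX k N p) →
      σ i (taBarX k N (p * p)) = σ j (taBarX k N (p * p)) → i = j := fun i j h2 h3 =>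
    hσ (ta_bar_algHom_ext k N hp hNp ((h1 i).trans (h1 j).symm) h2 h3)
  rw [← hcard]
  exact D.base_card_le (taBarX k N) (taBarX_rel k N hN) hp hDN hζ hX σ h1 hinj

end Tower

/-! ### The lower bound for the genus -/

section Main

variable (k : Type*) [Field k] [IsAlgClosed k]

/-- **`genusFormula N ≤ g(F̄_N)`** if `4 ∣ N` (resp. `9 ∣ N`) and `F̄_4` (resp. `F̄_9`) has genus
`0` -/
theorem ta_genusR_ge_of_sq (N : ℕ) [NeZero N] {p : ℕ} (hp : p.Prime) (hp3 : p = 2 ∨ p = 3)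
    [NeZero (p * p)] (hdvd : p * p ∣ N) (hN : (N : k) ≠ 0)
    (hg0 : CurveP.genusR k (TaBar k (p * p)) = 0) :
    genusFormula N ≤ (CurveP.genusR k (TaBar k N) : ℚ) := by
  have hN₀ : (((p * p : ℕ)) : k) ≠ 0 := by
    intro h
    obtain ⟨m, hm⟩ := hdvd
    apply hN
    rw [hm, Nat.cast_mul, h, zero_mul]
  haveI := ta_bar_isSeparable k (p * p) hN₀
  haveI hsepN := ta_bar_isSeparable k N hN
  have hx : IsFunctionFieldGen k (TaBar k N) (taBarIncl k hdvd (taBarJ k (p * p))) :=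
    ta_bar_isFunctionFieldGen k N
  haveI : Algebra.IsSeparable ↥(k⟮taBarIncl k hdvd (taBarJ k (p * p))⟯) (TaBar k N) := hsepN
  have hmain := ta_genus_ge_of_tower (taBarIncl k hdvd) (ta_bar_isFunctionFieldGen k (p * p)) hg0
    hx (c₀ := p + 1) (c := cuspCount N) (d₀ := p * p + p) (d := dedekindPsi N)
    (ta_succ_le_ncard_poles k (p * p) hp rfl hN₀) (ta_ncard_poles_jbar_le k N hN)
    (ta_bar_finrank_sq_le k (p * p) hp rfl hN₀) (ta_bar_finrank_ge k N hN)
    (by have := hp.two_le; omega)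
  have h49 : 4 ∣ N ∨ 9 ∣ N := by
    rcases hp3 with rfl | rfl
    · exact Or.inl hdvd
    · exact Or.inr hdvd
  rw [ta_genusFormula_of_base h49]
  have hnum : (((p + 1 : ℕ) : ℚ) - 2) * (dedekindPsi N : ℚ) / ((p * p + p : ℕ) : ℚ) =
      (dedekindPsi N : ℚ) / 6 := by
    rcases hp3 with rfl | rfl
    · norm_num
    · norm_num
      ring
  rw [hnum] at hmain
  linarith

/-- the task form: base level `4` -/
theorem ta_genusR_ge_of_four (N : ℕ) [NeZero N] (hdvd : 4 ∣ N) (hN : (N : k) ≠ 0)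
    (hg0 : CurveP.genusR k (TaBar k 4) = 0) :
    genusFormula N ≤ (CurveP.genusR k (TaBar k N) : ℚ) :=
  ta_genusR_ge_of_sq k N Nat.prime_two (Or.inl rfl) hdvd hN hg0

/-- the task form: base level `9` -/
theorem ta_genusR_ge_of_nine (N : ℕ) [NeZero N] (hdvd : 9 ∣ N) (hN : (N : k) ≠ 0)
    (hg0 : CurveP.genusR k (TaBar k 9) = 0) :
    genusFormula N ≤ (CurveP.genusR k (TaBar k N) : ℚ) :=
  ta_genusR_ge_of_sq k N Nat.prime_three (Or.inr rfl) hdvd hN hg0

end Main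

end Fermat.Agent.T1
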