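import Fermat.Agent.Lib.T1.GoodRed.Gauss
import Fermat.Agent.Lib.Igusa.ModPolyGauss
import Fermat.Prelude.Def_ModularCurve_X0ModL

/-!
# T1-A (GoodRed): the Gauss valuation ring of `F_{N,L} = laurentBaseChange L (modularFunctionFieldFull N)`

`(L, O, k, π)` as in `Gauss.lean`, `L` of characteristic `0`.  We define

* `TaF L N`, the field `F_{N,L} ⊆ L((q))`;
* `taOv O π hπ N : ValuationSubring (TaF L N)` and `taResN O π hπ N : taOv → k((q))`;
* the elements `taJ`, `taGen d`, `taUnit r` (`j`, `j(q^d)`, `r¹² Δ(q^r)/Δ(q)`) with their residues.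
-/

set_option autoImplicit false
set_option linter.unusedSectionVars false
set_option linter.style.haveILetI false

open HahnSeries ModularCurve Fermat.Agent.Igusa

noncomputable section

namespace Fermat.Agent.T1

variable {L : Type*} [Field L] [Algebra ℚ L] (O : ValuationSubring L)
  {k : Type*} [Field k] (π : ↥O →+* k)

/-- the field `F_{N,L} ⊆ L((q))` -/
abbrev TaF (L : Type*) [Field L] [Algebra ℚ L] (N : ℕ) : IntermediateField L (LaurentSeries L) :=
  laurentBaseChange L (modularFunctionFieldFull N)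

theorem taInc_eq_lsMapHom (s : LaurentSeries ↥O) : taInc O s = lsMapHom O.subtype s := rfl

variable {O} in
theorem taRed_eq_lsMapHom (s : LaurentSeries ↥O) : taRed π s = lsMapHom π s := rfl

theorem ta_coeffEmb_eq_lsMapHom (s : LaurentSeries ℚ) : coeffEmb L s = lsMapHom (algebraMap ℚ L) s :=
  rfl

theorem taInc_jqModC : taInc O (jqModC ↥O) = jqModC L := coeffMap_jqModC _

variable {O} in
theorem taRed_jqModC : taRed π (jqModC ↥O) = jqModC k := coeffMap_jqModC _

theorem taInc_qExpand (d : ℕ) [NeZero d] (s : LaurentSeries ↥O) :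
    taInc O (qExpand ↥O d s) = qExpand L d (taInc O s) :=
  coeffMap_qExpand _ d s

variable {O} in
theorem taRed_qExpand (d : ℕ) [NeZero d] (s : LaurentSeries ↥O) :
    taRed π (qExpand ↥O d s) = qExpand k d (taRed π s) :=
  coeffMap_qExpand _ d s

theorem ta_coeffEmb_jq : coeffEmb L jq = jqModC L := coeffMap_jqModC (R := ℚ) _

theorem ta_coeffEmb_qExpand (d : ℕ) [NeZero d] (s : LaurentSeries ℚ) :
    coeffEmb L (qExpand ℚ d s) = qExpand L d (coeffEmb L s) :=
  coeffMap_qExpand _ d s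

theorem taInc_unitInfLS (r : ℕ) [NeZero r] : taInc O (unitInfLS ↥O r) = unitInfLS L r := by
  rw [taInc_eq_lsMapHom, lsMapHom_unitInfLS]

variable {O} in
theorem taRed_unitInfLS (r : ℕ) [NeZero r] : taRed π (unitInfLS ↥O r) = unitInfLS k r := by
  rw [taRed_eq_lsMapHom, lsMapHom_unitInfLS]

theorem ta_coeffEmb_unitInfLS (r : ℕ) [NeZero r] : coeffEmb L (unitInfLS ℚ r) = unitInfLS L r := by
  rw [ta_coeffEmb_eq_lsMapHom, lsMapHom_unitInfLS]

/-! ### `F_{N,L}` consists of fractions -/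

theorem ta_coeffEmb_algebraMap (c : ℚ) :
    coeffEmb L (algebraMap ℚ (LaurentSeries ℚ) c) = algebraMap L (LaurentSeries L) (algebraMap ℚ L c) := by
  rw [algebraMap_laurentSeries_eq_single, algebraMap_laurentSeries_eq_single, coeffEmb,
    coeffMap_single]

theorem ta_coeffEmb_mem_taFracField (N : ℕ) [NeZero N] {x : LaurentSeries ℚ}
    (hx : x ∈ modularFunctionFieldFull N) : coeffEmb L x ∈ taFracField O := by
  -- the preimage of the fraction field is a subfield containing the generators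
  set T : Subfield (LaurentSeries ℚ) := (taFracSubfield O).comap (coeffEmb L) with hT
  have hTalg : ∀ c : ℚ, algebraMap ℚ (LaurentSeries ℚ) c ∈ T := by
    intro c
    rw [hT, Subfield.mem_comap, ta_coeffEmb_algebraMap]
    exact algebraMap_mem_taFracSubfield O _
  have hle : modularFunctionFieldFull N ≤ T.toIntermediateField hTalg := by
    rw [modularFunctionFieldFull, IntermediateField.adjoin_le_iff]
    rintro y ⟨d, hd, -, rfl⟩
    haveI := hd
    show coeffEmb L (qExpand ℚ d jq) ∈ taFracSubfield O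
    rw [ta_coeffEmb_qExpand, ta_coeffEmb_jq, ← taInc_jqModC O, ← taInc_qExpand]
    exact taFrac_taInc O _
  exact hle hx

/-- every element of `F_{N,L}` is a fraction of two series with coefficients in `O` -/
theorem ta_frac_of_mem (N : ℕ) [NeZero N] : ∀ f ∈ TaF L N, TaFrac O f := by
  have hle : TaF L N ≤ taFracField O := by
    rw [TaF, laurentBaseChange, IntermediateField.adjoin_le_iff]
    rintro y ⟨x, hx, rfl⟩
    exact ta_coeffEmb_mem_taFracField O N hx
  exact fun f hf => (mem_taFracField_iff O f).mp (hle hf)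

/-! ### The Gauss valuation ring at level `N` -/

section Val

variable [IsDiscreteValuationRing ↥O] (hπ : Function.Surjective π) (N : ℕ) [NeZero N]

/-- **the Gauss valuation ring of `F_{N,L}`** -/
def taOv : ValuationSubring ↥(TaF L N) := taVal O π hπ (TaF L N) (ta_frac_of_mem O N)

/-- **the residue map** `O_v → k((q))` -/
def taResN : ↥(taOv O π hπ N) →+* LaurentSeries k := taRes O π hπ (TaF L N) (ta_frac_of_mem O N)

theorem mem_taOv_iff (f : ↥(TaF L N)) :
    f ∈ taOv O π hπ N ↔ TaGauss O π (f : LaurentSeries L) := Iff.rfl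

theorem mem_taOv_of_eq_taInc {f : ↥(TaF L N)} {s : LaurentSeries ↥O}
    (h : (f : LaurentSeries L) = taInc O s) : f ∈ taOv O π hπ N :=
  mem_taVal_of_eq_taInc O π hπ _ _ h

theorem taResN_of_eq_taInc {f : ↥(taOv O π hπ N)} {s : LaurentSeries ↥O}
    (h : ((f : ↥(TaF L N)) : LaurentSeries L) = taInc O s) : taResN O π hπ N f = taRed π s :=
  taRes_of_eq_taInc O π hπ _ _ h

theorem taResN_eq_zero_iff {ϖ : ↥O} (hϖ : Irreducible ϖ) (f : ↥(taOv O π hπ N)) :
    taResN O π hπ N f = 0 ↔ ∃ f' : ↥(taOv O π hπ N),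
      (f : ↥(TaF L N)) = algebraMap L ↥(TaF L N) ((ϖ : ↥O) : L) * (f' : ↥(TaF L N)) :=
  taRes_eq_zero_iff O π hπ _ _ hϖ f

theorem inv_mem_taOv_of_taResN_ne_zero (f : ↥(taOv O π hπ N)) (hf : taResN O π hπ N f ≠ 0) :
    ((f : ↥(TaF L N)))⁻¹ ∈ taOv O π hπ N :=
  inv_mem_taVal_of_taRes_ne_zero O π hπ _ _ f hf

theorem ta_exists_zpow_mul_unitN {ϖ : ↥O} (hϖ : Irreducible ϖ) (f : ↥(TaF L N)) (hf : f ≠ 0) :
    ∃ (n : ℤ) (u : ↥(TaF L N)), u ∈ taOv O π hπ N ∧ u⁻¹ ∈ taOv O π hπ N ∧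
      f = algebraMap L ↥(TaF L N) ((ϖ : ↥O) : L) ^ n * u :=
  ta_exists_zpow_mul_unit O π hπ _ _ hϖ f hf

/-! ### Constants -/

theorem coe_algebraMap_taF (c : L) :
    ((algebraMap L ↥(TaF L N) c : ↥(TaF L N)) : LaurentSeries L) = HahnSeries.C c := by
  show algebraMap L (LaurentSeries L) c = _
  rw [algebraMap_laurentSeries_eq_single]
  rfl

theorem algebraMap_mem_taOv (a : ↥O) : algebraMap L ↥(TaF L N) (a : L) ∈ taOv O π hπ N :=
  mem_taOv_of_eq_taInc O π hπ N (s := HahnSeries.C a) (by rw [coe_algebraMap_taF, taInc_C])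

theorem taResN_algebraMap (a : ↥O) :
    taResN O π hπ N ⟨algebraMap L ↥(TaF L N) (a : L), algebraMap_mem_taOv O π hπ N a⟩ =
      HahnSeries.C (π a) := by
  rw [taResN_of_eq_taInc O π hπ N (s := HahnSeries.C a) (by rw [coe_algebraMap_taF, taInc_C]),
    taRed_C]

/-! ### The generators -/

theorem jqModCd_mem_taF {d : ℕ} [NeZero d] (hd : d ∣ N) : qExpand L d (jqModC L) ∈ TaF L N := by
  rw [← ta_coeffEmb_jq, ← ta_coeffEmb_qExpand]
  exact coeffEmb_mem_laurentBaseChange L (jqd_mem_full N hd)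

/-- `j(q^d) ∈ F_{N,L}` -/
def taGen {d : ℕ} [NeZero d] (hd : d ∣ N) : ↥(TaF L N) := ⟨qExpand L d (jqModC L), jqModCd_mem_taF N hd⟩

theorem coe_taGen {d : ℕ} [NeZero d] (hd : d ∣ N) :
    ((taGen (L := L) N hd : ↥(TaF L N)) : LaurentSeries L) =
      taInc O (qExpand ↥O d (jqModC ↥O)) := by
  rw [taInc_qExpand, taInc_jqModC]
  rfl

theorem taGen_mem_taOv {d : ℕ} [NeZero d] (hd : d ∣ N) : taGen (L := L) N hd ∈ taOv O π hπ N :=
  mem_taOv_of_eq_taInc O π hπ N (coe_taGen O N hd)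

theorem taResN_taGen {d : ℕ} [NeZero d] (hd : d ∣ N) :
    taResN O π hπ N ⟨taGen N hd, taGen_mem_taOv O π hπ N hd⟩ = qExpand k d (jqModC k) := by
  rw [taResN_of_eq_taInc O π hπ N (coe_taGen O N hd), taRed_qExpand, taRed_jqModC]

/-- `j ∈ F_{N,L}` -/
def taJ : ↥(TaF L N) := ⟨jqModC L, by
  have := jqModCd_mem_taF (L := L) N (one_dvd N)
  rwa [qExpand_one_apply] at this⟩

theorem coe_taJ : ((taJ (L := L) N : ↥(TaF L N)) : LaurentSeries L) = jqModC L := rfl

theorem taJ_mem_taOv : taJ (L := L) N ∈ taOv O π hπ N :=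
  mem_taOv_of_eq_taInc O π hπ N (s := jqModC ↥O) (by rw [coe_taJ, taInc_jqModC])

theorem taResN_taJ : taResN O π hπ N ⟨taJ N, taJ_mem_taOv O π hπ N⟩ = jqModC k := by
  rw [taResN_of_eq_taInc O π hπ N (s := jqModC ↥O) (by rw [coe_taJ, taInc_jqModC]), taRed_jqModC]

theorem taJ_inv_mem_taOv : (taJ (L := L) N)⁻¹ ∈ taOv O π hπ N := by
  apply inv_mem_taOv_of_taResN_ne_zero O π hπ N ⟨taJ N, taJ_mem_taOv O π hπ N⟩
  rw [taResN_taJ]
  exact jqModC_ne_zero_of_nontrivial k

theorem taResN_taJ_inv :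
    taResN O π hπ N ⟨(taJ N)⁻¹, taJ_inv_mem_taOv O π hπ N⟩ = (jqModC k)⁻¹ := by
  have h1 : (⟨(taJ N)⁻¹, taJ_inv_mem_taOv O π hπ N⟩ : ↥(taOv O π hπ N)) *
      ⟨taJ N, taJ_mem_taOv O π hπ N⟩ = 1 := by
    apply Subtype.ext
    show (taJ (L := L) N)⁻¹ * taJ N = 1
    apply inv_mul_cancel₀
    intro h0
    have := congrArg (fun z : ↥(TaF L N) => (z : LaurentSeries L)) h0
    simp only [coe_taJ, ZeroMemClass.coe_zero] at this
    exact jqModC_ne_zero_of_nontrivial L this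
  have h2 := congrArg (taResN O π hπ N) h1
  rw [map_mul, map_one, taResN_taJ] at h2
  exact eq_inv_of_mul_eq_one_left h2

theorem unitInfLS_mem_taF {r : ℕ} [NeZero r] (hr : r ∣ N) : unitInfLS L r ∈ TaF L N := by
  rw [← ta_coeffEmb_unitInfLS]
  exact coeffEmb_mem_laurentBaseChange L (unitInfLS_rat_mem_full N hr)

/-- the modular unit `r¹² Δ(q^r)/Δ(q) ∈ F_{N,L}` -/
def taUnit {r : ℕ} [NeZero r] (hr : r ∣ N) : ↥(TaF L N) := ⟨unitInfLS L r, unitInfLS_mem_taF N hr⟩

theorem taUnit_mem_taOv {r : ℕ} [NeZero r] (hr : r ∣ N) : taUnit (L := L) N hr ∈ taOv O π hπ N :=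
  mem_taOv_of_eq_taInc O π hπ N (s := unitInfLS ↥O r) (by rw [taInc_unitInfLS]; rfl)

theorem taResN_taUnit {r : ℕ} [NeZero r] (hr : r ∣ N) :
    taResN O π hπ N ⟨taUnit N hr, taUnit_mem_taOv O π hπ N hr⟩ = unitInfLS k r := by
  rw [taResN_of_eq_taInc O π hπ N (s := unitInfLS ↥O r) (by rw [taInc_unitInfLS]; rfl),
    taRed_unitInfLS]

/-- every Igusa generator over `k` is a residue -/
theorem igGenSet_subset_range_taResN : igGenSet k N ⊆ Set.range (taResN O π hπ N) := by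
  rintro x (⟨d, hd0, hd, rfl⟩ | ⟨r, hr0, hr, hd, rfl⟩)
  · exact ⟨_, taResN_taGen O π hπ N hd⟩
  · exact ⟨_, taResN_taUnit O π hπ N hd⟩

end Val

end Fermat.Agent.T1
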