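import Mathlib
import Fermat.Prelude.Def_ModularCurve_LaurentCoeff

/-!
# T1-A (GoodRed): the Gauss valuation over a discrete valuation ring, generic layer

`O` a valuation subring of a field `L`, `π : O →+* k` a ring hom to a field `k` (in the
applications `O` is a discrete valuation ring and `π` is onto, i.e. `k` is the residue field).
`S = O((q))`, with the inclusion `taInc : S → L((q))` and the coefficientwise reduction
`taRed : S → k((q))`.

* `TaFrac O f`   : `f ∈ L((q))` is a quotient `g / h`, `g, h ∈ S`, `h ≠ 0`;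
* `TaGauss O π f`: `f = g / h` with `taRed π h ≠ 0` (`h` primitive);
* `taGaussSubring O π`, `taRho O π : taGaussSubring → k((q))`, `g / h ↦ taRed g / taRed h`;
* for a DVR: `ta_gauss_or_inv`, `ta_exists_zpow_mul`, `taRho_eq_zero_iff` (kernel `= ϖ·`);
* for every intermediate field `F ≤ Frac S`: the valuation subring `taVal O π F hF` of `F` and its
  residue map `taRes O π F hF`.

This is the port of `Lib/Igusa/GaussRing.lean` from `(ℚ, ℤ_(ℓ), 𝔽_ℓ)` to `(L, O, k)`.
-/

set_option autoImplicit false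

open HahnSeries ModularCurve

noncomputable section

namespace Fermat.Agent.T1

variable {L : Type*} [Field L] (O : ValuationSubring L) {k : Type*} [Field k] (π : ↥O →+* k)

/-! ### Laurent series over `O` -/

/-- the inclusion `O((q)) → L((q))` -/
def taInc : LaurentSeries ↥O →+* LaurentSeries L := coeffMap O.subtype

variable {O} in
/-- the reduction `O((q)) → k((q))` -/
def taRed : LaurentSeries ↥O →+* LaurentSeries k := coeffMap π

theorem taInc_coeff (s : LaurentSeries ↥O) (n : ℤ) : (taInc O s).coeff n = (s.coeff n : L) :=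
  coeffMap_coeff _ s n

variable {O} in
theorem taRed_coeff (s : LaurentSeries ↥O) (n : ℤ) : (taRed π s).coeff n = π (s.coeff n) :=
  coeffMap_coeff _ s n

theorem taInc_injective : Function.Injective (taInc O) := by
  intro s t h
  refine HahnSeries.ext (funext fun n => ?_)
  have := congrArg (fun x : LaurentSeries L => x.coeff n) h
  simp only [taInc_coeff] at this
  exact Subtype.ext this

theorem taInc_ne_zero {h : LaurentSeries ↥O} (hh : h ≠ 0) : taInc O h ≠ 0 := fun h0 =>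
  hh (taInc_injective O (by rw [h0, map_zero]))

theorem taInc_C (a : ↥O) : taInc O (HahnSeries.C a) = HahnSeries.C (a : L) := by
  ext n
  rw [taInc_coeff, HahnSeries.C_apply, HahnSeries.C_apply, HahnSeries.coeff_single,
    HahnSeries.coeff_single]
  split_ifs <;> rfl

variable {O} in
theorem taRed_C (a : ↥O) : taRed π (HahnSeries.C a) = HahnSeries.C (π a) := by
  ext n
  rw [taRed_coeff, HahnSeries.C_apply, HahnSeries.C_apply, HahnSeries.coeff_single,
    HahnSeries.coeff_single]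
  split_ifs
  · rfl
  · exact map_zero _

theorem ta_C_mul_coeff (a : ↥O) (s : LaurentSeries ↥O) (n : ℤ) :
    (HahnSeries.C a * s).coeff n = a * s.coeff n := by
  rw [HahnSeries.C_apply, HahnSeries.coeff_single_zero_mul]

variable {O} in
theorem ta_ne_zero_of_taRed_ne_zero {h : LaurentSeries ↥O} (hh : taRed π h ≠ 0) : h ≠ 0 := by
  rintro rfl
  exact hh (map_zero _)

/-! ### Fractions of `O((q))` inside `L((q))` -/

/-- `f` is a quotient of two Laurent series with coefficients in `O` -/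
def TaFrac (f : LaurentSeries L) : Prop :=
  ∃ g h : LaurentSeries ↥O, h ≠ 0 ∧ f * taInc O h = taInc O g

theorem taFrac_taInc (s : LaurentSeries ↥O) : TaFrac O (taInc O s) :=
  ⟨s, 1, one_ne_zero, by rw [map_one, mul_one]⟩

/-- the subfield of `L((q))` of fractions of `O((q))` -/
def taFracSubfield : Subfield (LaurentSeries L) where
  carrier := {f | TaFrac O f}
  mul_mem' := by
    rintro f₁ f₂ ⟨g₁, h₁, hh₁, e₁⟩ ⟨g₂, h₂, hh₂, e₂⟩
    refine ⟨g₁ * g₂, h₁ * h₂, mul_ne_zero hh₁ hh₂, ?_⟩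
    rw [map_mul, map_mul, ← e₁, ← e₂]
    ring
  one_mem' := ⟨1, 1, one_ne_zero, by simp⟩
  add_mem' := by
    rintro f₁ f₂ ⟨g₁, h₁, hh₁, e₁⟩ ⟨g₂, h₂, hh₂, e₂⟩
    refine ⟨g₁ * h₂ + g₂ * h₁, h₁ * h₂, mul_ne_zero hh₁ hh₂, ?_⟩
    rw [map_mul, map_add, map_mul, map_mul, ← e₁, ← e₂]
    ring
  zero_mem' := ⟨0, 1, one_ne_zero, by simp⟩
  neg_mem' := by
    rintro f ⟨g, h, hh, e⟩
    refine ⟨-g, h, hh, ?_⟩
    rw [map_neg, ← e]
    ring
  inv_mem' := by
    rintro f ⟨g, h, hh, e⟩
    by_cases hf : f = 0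
    · rw [hf, inv_zero]
      exact ⟨0, 1, one_ne_zero, by simp⟩
    · have hg : g ≠ 0 := by
        rintro rfl
        rw [map_zero] at e
        exact (mul_ne_zero hf (taInc_ne_zero O hh)) e
      refine ⟨h, g, hg, ?_⟩
      rw [← e]
      field_simp

theorem mem_taFracSubfield_iff (f : LaurentSeries L) : f ∈ taFracSubfield O ↔ TaFrac O f :=
  Iff.rfl

theorem algebraMap_mem_taFracSubfield (c : L) :
    algebraMap L (LaurentSeries L) c ∈ taFracSubfield O := by
  rw [algebraMap_laurentSeries_eq_single]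
  rcases O.mem_or_inv_mem c with hc | hc
  · have : (HahnSeries.single 0 c : LaurentSeries L) = taInc O (HahnSeries.C ⟨c, hc⟩) := by
      rw [taInc_C]; rfl
    rw [this]
    exact taFrac_taInc O _
  · by_cases hc0 : c = 0
    · rw [hc0, HahnSeries.single_eq_zero]
      exact (taFracSubfield O).zero_mem
    · have h1 : (HahnSeries.single 0 c : LaurentSeries L) =
          (taInc O (HahnSeries.C ⟨c⁻¹, hc⟩))⁻¹ := by
        rw [taInc_C]
        have h2 : (HahnSeries.C (c⁻¹ : L) : LaurentSeries L) * HahnSeries.single 0 c = 1 := by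
          rw [HahnSeries.C_apply, HahnSeries.single_mul_single, add_zero,
            inv_mul_cancel₀ hc0]
          rfl
        exact eq_inv_of_mul_eq_one_right h2
      rw [h1]
      exact (taFracSubfield O).inv_mem (taFrac_taInc O _)

/-- the field of fractions of `O((q))`, as an intermediate field of `L((q)) / L` -/
def taFracField : IntermediateField L (LaurentSeries L) :=
  (taFracSubfield O).toIntermediateField (algebraMap_mem_taFracSubfield O)

theorem mem_taFracField_iff (f : LaurentSeries L) : f ∈ taFracField O ↔ TaFrac O f := Iff.rfl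

/-! ### The Gauss ring inside `L((q))` -/

/-- `f = g / h` with `g, h ∈ O((q))` and `h` primitive -/
def TaGauss (f : LaurentSeries L) : Prop :=
  ∃ g h : LaurentSeries ↥O, taRed π h ≠ 0 ∧ f * taInc O h = taInc O g

theorem TaGauss.taFrac {f : LaurentSeries L} (hf : TaGauss O π f) : TaFrac O f := by
  obtain ⟨g, h, hh, e⟩ := hf
  exact ⟨g, h, ta_ne_zero_of_taRed_ne_zero π hh, e⟩

theorem taGauss_taInc (s : LaurentSeries ↥O) : TaGauss O π (taInc O s) :=
  ⟨s, 1, by rw [map_one]; exact one_ne_zero, by rw [map_one, mul_one]⟩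

/-- the Gauss ring as a subring of `L((q))` -/
def taGaussSubring : Subring (LaurentSeries L) where
  carrier := {f | TaGauss O π f}
  mul_mem' := by
    rintro f₁ f₂ ⟨g₁, h₁, hh₁, e₁⟩ ⟨g₂, h₂, hh₂, e₂⟩
    refine ⟨g₁ * g₂, h₁ * h₂, by rw [map_mul]; exact mul_ne_zero hh₁ hh₂, ?_⟩
    rw [map_mul, map_mul, ← e₁, ← e₂]
    ring
  one_mem' := ⟨1, 1, by rw [map_one]; exact one_ne_zero, by simp⟩
  add_mem' := by
    rintro f₁ f₂ ⟨g₁, h₁, hh₁, e₁⟩ ⟨g₂, h₂, hh₂, e₂⟩
    refine ⟨g₁ * h₂ + g₂ * h₁, h₁ * h₂, by rw [map_mul]; exact mul_ne_zero hh₁ hh₂, ?_⟩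
    rw [map_mul, map_add, map_mul, map_mul, ← e₁, ← e₂]
    ring
  zero_mem' := ⟨0, 1, by rw [map_one]; exact one_ne_zero, by simp⟩
  neg_mem' := by
    rintro f ⟨g, h, hh, e⟩
    refine ⟨-g, h, hh, ?_⟩
    rw [map_neg, ← e]
    ring

theorem mem_taGaussSubring_iff (f : LaurentSeries L) :
    f ∈ taGaussSubring O π ↔ TaGauss O π f := Iff.rfl

/-- well-definedness of `red g / red h` -/
theorem taRed_div_eq {f : LaurentSeries L} {g h g' h' : LaurentSeries ↥O}
    (hh : taRed π h ≠ 0) (hh' : taRed π h' ≠ 0) (e : f * taInc O h = taInc O g)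
    (e' : f * taInc O h' = taInc O g') :
    taRed π g / taRed π h = taRed π g' / taRed π h' := by
  have key : g * h' = g' * h := by
    apply taInc_injective O
    rw [map_mul, map_mul, ← e, ← e']
    ring
  rw [div_eq_div_iff hh hh', ← map_mul, ← map_mul, key]

open Classical in
/-- the residue map of the Gauss ring, as a function on `L((q))` (junk value `0`) -/
def taRhoFun (f : LaurentSeries L) : LaurentSeries k :=
  if hf : TaGauss O π f then taRed π hf.choose / taRed π hf.choose_spec.choose else 0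

theorem taRhoFun_eq {f : LaurentSeries L} {g h : LaurentSeries ↥O}
    (hh : taRed π h ≠ 0) (e : f * taInc O h = taInc O g) :
    taRhoFun O π f = taRed π g / taRed π h := by
  have hf : TaGauss O π f := ⟨g, h, hh, e⟩
  rw [taRhoFun, dif_pos hf]
  exact taRed_div_eq O π hf.choose_spec.choose_spec.1 hh hf.choose_spec.choose_spec.2 e

/-- the residue map `O_v → k((q))` on the Gauss subring of `L((q))` -/
def taRho : ↥(taGaussSubring O π) →+* LaurentSeries k where
  toFun f := taRhoFun O π (f : LaurentSeries L)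
  map_one' := by
    have : (1 : LaurentSeries L) * taInc O 1 = taInc O 1 := by simp
    rw [Subring.coe_one, taRhoFun_eq O π (by rw [map_one]; exact one_ne_zero) this, map_one,
      div_one]
  map_zero' := by
    have : (0 : LaurentSeries L) * taInc O 1 = taInc O 0 := by simp
    rw [Subring.coe_zero, taRhoFun_eq O π (by rw [map_one]; exact one_ne_zero) this, map_zero,
      zero_div]
  map_mul' := by
    rintro ⟨f₁, g₁, h₁, hh₁, e₁⟩ ⟨f₂, g₂, h₂, hh₂, e₂⟩
    have e : f₁ * f₂ * taInc O (h₁ * h₂) = taInc O (g₁ * g₂) := by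
      rw [map_mul, map_mul, ← e₁, ← e₂]; ring
    show taRhoFun O π (f₁ * f₂) = taRhoFun O π f₁ * taRhoFun O π f₂
    rw [taRhoFun_eq O π (by rw [map_mul]; exact mul_ne_zero hh₁ hh₂) e,
      taRhoFun_eq O π hh₁ e₁, taRhoFun_eq O π hh₂ e₂, map_mul, map_mul]
    field_simp
  map_add' := by
    rintro ⟨f₁, g₁, h₁, hh₁, e₁⟩ ⟨f₂, g₂, h₂, hh₂, e₂⟩
    have e : (f₁ + f₂) * taInc O (h₁ * h₂) = taInc O (g₁ * h₂ + g₂ * h₁) := by
      rw [map_mul, map_add, map_mul, map_mul, ← e₁, ← e₂]; ring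
    show taRhoFun O π (f₁ + f₂) = taRhoFun O π f₁ + taRhoFun O π f₂
    rw [taRhoFun_eq O π (by rw [map_mul]; exact mul_ne_zero hh₁ hh₂) e,
      taRhoFun_eq O π hh₁ e₁, taRhoFun_eq O π hh₂ e₂, map_add, map_mul, map_mul, map_mul]
    field_simp

theorem taRho_eq (f : ↥(taGaussSubring O π)) {g h : LaurentSeries ↥O}
    (hh : taRed π h ≠ 0) (e : (f : LaurentSeries L) * taInc O h = taInc O g) :
    taRho O π f = taRed π g / taRed π h :=
  taRhoFun_eq O π hh e

theorem taRho_taInc (s : LaurentSeries ↥O) :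
    taRho O π ⟨taInc O s, taGauss_taInc O π s⟩ = taRed π s := by
  rw [taRho_eq O π _ (g := s) (h := 1) (by rw [map_one]; exact one_ne_zero)
    (by rw [map_one, mul_one]), map_one, div_one]

/-- units of the Gauss ring: if the residue is nonzero, the inverse is again in the Gauss ring -/
theorem taGauss_inv_of_taRho_ne_zero (f : ↥(taGaussSubring O π)) (hf : taRho O π f ≠ 0) :
    TaGauss O π ((f : LaurentSeries L))⁻¹ := by
  obtain ⟨g, h, hh, e⟩ := f.2
  rw [taRho_eq O π f hh e] at hf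
  have hg : taRed π g ≠ 0 := fun h0 => hf (by rw [h0, zero_div])
  have hgi : taInc O g ≠ 0 := taInc_ne_zero O (ta_ne_zero_of_taRed_ne_zero π hg)
  have hf0 : (f : LaurentSeries L) ≠ 0 := by
    intro h0
    rw [h0, zero_mul] at e
    exact hgi e.symm
  refine ⟨h, g, hg, ?_⟩
  rw [← e]
  field_simp

/-! ### Discrete valuation rings -/

section DVR

variable {O π}
variable (hπ : Function.Surjective π) {ϖ : ↥O} (hϖ : Irreducible ϖ)

include hπ hϖ in
/-- the kernel of `π` is generated by the uniformiser -/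
theorem ta_pi_eq_zero_iff [IsDiscreteValuationRing ↥O] (a : ↥O) : π a = 0 ↔ ϖ ∣ a := by
  have hker : RingHom.ker π = IsLocalRing.maximalIdeal ↥O := by
    have hmax : (RingHom.ker π).IsMaximal := RingHom.ker_isMaximal_of_surjective π hπ
    exact IsLocalRing.eq_maximalIdeal hmax
  rw [← RingHom.mem_ker, hker, hϖ.maximalIdeal_eq, Ideal.mem_span_singleton]

include hϖ in
theorem ta_coe_unif_ne_zero : ((ϖ : ↥O) : L) ≠ 0 := fun h =>
  hϖ.ne_zero (Subtype.ext h)

include hϖ in
theorem ta_C_unif_ne_zero : (HahnSeries.C ((ϖ : ↥O) : L) : LaurentSeries L) ≠ 0 := by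
  intro h0
  have := congrArg (fun x : LaurentSeries L => x.coeff 0) h0
  simp only [HahnSeries.C_apply, HahnSeries.coeff_single_same, HahnSeries.coeff_zero] at this
  exact ta_coe_unif_ne_zero hϖ this

include hπ hϖ in
theorem taRed_C_unif [IsDiscreteValuationRing ↥O] : taRed π (HahnSeries.C ϖ) = 0 := by
  rw [taRed_C, (ta_pi_eq_zero_iff hπ hϖ ϖ).mpr dvd_rfl, map_zero]

open Classical in
/-- division by `ϖ` (junk value `0` when not divisible) -/
def taDiv (ϖ : ↥O) : ZeroHom ↥O ↥O where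
  toFun a := if a = 0 then 0 else if h : ∃ b : ↥O, a = ϖ * b then h.choose else 0
  map_zero' := if_pos rfl

theorem ta_mul_taDiv {ϖ a : ↥O} (h : ϖ ∣ a) : ϖ * taDiv ϖ a = a := by
  classical
  show ϖ * (if a = 0 then 0 else if h : ∃ b : ↥O, a = ϖ * b then h.choose else 0) = a
  by_cases ha : a = 0
  · rw [if_pos ha, mul_zero, ha]
  · have h' : ∃ b : ↥O, a = ϖ * b := h
    rw [if_neg ha, dif_pos h']
    exact h'.choose_spec.symm

include hπ hϖ in
/-- kernel of the reduction of Laurent series -/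
theorem taRed_eq_zero_iff [IsDiscreteValuationRing ↥O] (s : LaurentSeries ↥O) :
    taRed π s = 0 ↔ ∃ s' : LaurentSeries ↥O, s = HahnSeries.C ϖ * s' := by
  constructor
  · intro h
    refine ⟨s.map (taDiv ϖ), ?_⟩
    refine HahnSeries.ext (funext fun n => ?_)
    rw [ta_C_mul_coeff, HahnSeries.map_coeff]
    have hn : π (s.coeff n) = 0 := by
      rw [← taRed_coeff, h]
      rfl
    exact (ta_mul_taDiv ((ta_pi_eq_zero_iff hπ hϖ _).mp hn)).symm
  · rintro ⟨s', rfl⟩
    rw [map_mul, taRed_C_unif hπ hϖ, zero_mul]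

include hπ hϖ in
/-- every nonzero Laurent series over `O` is `ϖ ^ m` times a primitive one -/
theorem ta_exists_pow_mul_primitive [IsDiscreteValuationRing ↥O] {s : LaurentSeries ↥O}
    (hs : s ≠ 0) :
    ∃ (m : ℕ) (s₀ : LaurentSeries ↥O), taRed π s₀ ≠ 0 ∧ s = HahnSeries.C ϖ ^ m * s₀ := by
  obtain ⟨n₀, hn₀⟩ : ∃ n₀, s.coeff n₀ ≠ 0 := by
    by_contra hcon
    push Not at hcon
    exact hs (HahnSeries.ext (funext hcon))
  -- induction on the exponent of `ϖ` in the coefficient at `n₀`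
  have main : ∀ (m : ℕ) (s : LaurentSeries ↥O), (∃ u : (↥O)ˣ, s.coeff n₀ = u * ϖ ^ m) →
      ∃ (m' : ℕ) (s₀ : LaurentSeries ↥O), taRed π s₀ ≠ 0 ∧ s = HahnSeries.C ϖ ^ m' * s₀ := by
    intro m
    induction m with
    | zero =>
      rintro s ⟨u, hu⟩
      refine ⟨0, s, ?_, by rw [pow_zero, one_mul]⟩
      intro hred
      have h0 : π (s.coeff n₀) = 0 := by
        rw [← taRed_coeff, hred]
        rfl
      rw [hu, pow_zero, mul_one] at h0
      have hdvd := (ta_pi_eq_zero_iff hπ hϖ _).mp h0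
      exact hϖ.not_isUnit (isUnit_of_dvd_unit hdvd u.isUnit)
    | succ m ih =>
      rintro s ⟨u, hu⟩
      by_cases hred : taRed π s = 0
      · obtain ⟨s', rfl⟩ := (taRed_eq_zero_iff hπ hϖ s).mp hred
        rw [ta_C_mul_coeff, pow_succ] at hu
        have h1 : s'.coeff n₀ = u * ϖ ^ m := by
          apply mul_left_cancel₀ hϖ.ne_zero
          rw [hu]
          ring
        obtain ⟨m', s₀, hs₀, e⟩ := ih s' ⟨u, h1⟩
        exact ⟨m' + 1, s₀, hs₀, by rw [e, pow_succ']; ring⟩
      · exact ⟨0, s, hred, by rw [pow_zero, one_mul]⟩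
  obtain ⟨m, u, hu⟩ := IsDiscreteValuationRing.eq_unit_mul_pow_irreducible hn₀ hϖ
  exact main m s ⟨u, hu⟩

include hϖ in
theorem taInc_C_unif_pow_ne_zero (m : ℕ) : taInc O (HahnSeries.C ϖ) ^ m ≠ 0 := by
  apply pow_ne_zero
  rw [taInc_C]
  exact ta_C_unif_ne_zero hϖ

include hπ hϖ in
/-- **Valuation ring property.** -/
theorem ta_gauss_or_inv [IsDiscreteValuationRing ↥O] {f : LaurentSeries L} (hf : TaFrac O f) :
    TaGauss O π f ∨ TaGauss O π f⁻¹ := by
  by_cases hf0 : f = 0
  · left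
    rw [hf0]
    exact (taGaussSubring O π).zero_mem
  obtain ⟨g, h, hh, e⟩ := hf
  have hg : g ≠ 0 := by
    rintro rfl
    rw [map_zero] at e
    exact (mul_ne_zero hf0 (taInc_ne_zero O hh)) e
  obtain ⟨a, g₀, hg₀, rfl⟩ := ta_exists_pow_mul_primitive hπ hϖ hg
  obtain ⟨b, h₀, hh₀, rfl⟩ := ta_exists_pow_mul_primitive hπ hϖ hh
  rw [map_mul, map_mul, map_pow, map_pow] at e
  set P := taInc O (HahnSeries.C ϖ) with hP
  rcases le_total b a with hba | hab
  · left
    obtain ⟨c, rfl⟩ := Nat.exists_eq_add_of_le hba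
    refine ⟨HahnSeries.C ϖ ^ c * g₀, h₀, hh₀, ?_⟩
    have hPb := taInc_C_unif_pow_ne_zero (O := O) hϖ b
    apply mul_left_cancel₀ hPb
    rw [map_mul, map_pow, ← hP]
    rw [_root_.pow_add] at e
    linear_combination e
  · right
    obtain ⟨c, rfl⟩ := Nat.exists_eq_add_of_le hab
    refine ⟨HahnSeries.C ϖ ^ c * h₀, g₀, hg₀, ?_⟩
    have hPa := taInc_C_unif_pow_ne_zero (O := O) hϖ a
    apply mul_left_cancel₀ hPa
    apply mul_left_cancel₀ hf0
    rw [map_mul, map_pow, ← hP]
    rw [_root_.pow_add] at e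
    have : f * (P ^ a * (f⁻¹ * taInc O g₀)) = P ^ a * taInc O g₀ := by
      field_simp
    rw [this]
    linear_combination -e

include hπ hϖ in
/-- the value group is `ℤ`: every nonzero fraction is `ϖ ^ n` times a Gauss unit -/
theorem ta_exists_zpow_mul [IsDiscreteValuationRing ↥O] {f : LaurentSeries L} (hf : TaFrac O f)
    (hf0 : f ≠ 0) :
    ∃ (n : ℤ) (u : LaurentSeries L), TaGauss O π u ∧ TaGauss O π u⁻¹ ∧
      f = HahnSeries.C ((ϖ : ↥O) : L) ^ n * u := by
  obtain ⟨g, h, hh, e⟩ := hf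
  have hg : g ≠ 0 := by
    rintro rfl
    rw [map_zero] at e
    exact (mul_ne_zero hf0 (taInc_ne_zero O hh)) e
  obtain ⟨a, g₀, hg₀, rfl⟩ := ta_exists_pow_mul_primitive hπ hϖ hg
  obtain ⟨b, h₀, hh₀, rfl⟩ := ta_exists_pow_mul_primitive hπ hϖ hh
  rw [map_mul, map_mul, map_pow, map_pow, taInc_C] at e
  set P : LaurentSeries L := HahnSeries.C ((ϖ : ↥O) : L) with hP
  have hP0 : P ≠ 0 := ta_C_unif_ne_zero hϖ
  have hg0 : taInc O g₀ ≠ 0 := taInc_ne_zero O (ta_ne_zero_of_taRed_ne_zero π hg₀)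
  have hh0 : taInc O h₀ ≠ 0 := taInc_ne_zero O (ta_ne_zero_of_taRed_ne_zero π hh₀)
  refine ⟨(a : ℤ) - b, taInc O g₀ / taInc O h₀, ⟨g₀, h₀, hh₀, ?_⟩, ⟨h₀, g₀, hg₀, ?_⟩, ?_⟩
  · field_simp
  · field_simp
  · rw [zpow_sub₀ hP0, zpow_natCast, zpow_natCast]
    have hPb : P ^ b ≠ 0 := pow_ne_zero b hP0
    field_simp
    linear_combination e

include hπ hϖ in
/-- the kernel of the residue map is `ϖ O_v` -/
theorem taRho_eq_zero_iff [IsDiscreteValuationRing ↥O] (f : ↥(taGaussSubring O π)) :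
    taRho O π f = 0 ↔ ∃ f' : LaurentSeries L, TaGauss O π f' ∧
      (f : LaurentSeries L) = HahnSeries.C ((ϖ : ↥O) : L) * f' := by
  constructor
  · intro h0
    obtain ⟨g, h, hh, e⟩ := f.2
    rw [taRho_eq O π f hh e, div_eq_zero_iff] at h0
    have hg : taRed π g = 0 := h0.resolve_right hh
    obtain ⟨g', rfl⟩ := (taRed_eq_zero_iff hπ hϖ g).mp hg
    have hl : (HahnSeries.C ((ϖ : ↥O) : L) : LaurentSeries L) ≠ 0 := ta_C_unif_ne_zero hϖ
    refine ⟨(HahnSeries.C ((ϖ : ↥O) : L))⁻¹ * (f : LaurentSeries L), ⟨g', h, hh, ?_⟩, ?_⟩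
    · rw [mul_assoc, e, map_mul, taInc_C]
      field_simp
    · field_simp
  · rintro ⟨f', hf', e⟩
    have hC : TaGauss O π (HahnSeries.C ((ϖ : ↥O) : L)) := by
      rw [← taInc_C]
      exact taGauss_taInc O π _
    have e' : f = (⟨_, hC⟩ : ↥(taGaussSubring O π)) * ⟨f', hf'⟩ := Subtype.ext e
    rw [e', map_mul]
    have : taRho O π ⟨HahnSeries.C ((ϖ : ↥O) : L), hC⟩ = 0 := by
      have h1 : (⟨HahnSeries.C ((ϖ : ↥O) : L), hC⟩ : ↥(taGaussSubring O π)) =
          ⟨taInc O (HahnSeries.C ϖ), taGauss_taInc O π _⟩ := Subtype.ext (taInc_C O ϖ).symm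
      rw [h1, taRho_taInc, taRed_C_unif hπ hϖ]
    rw [this, zero_mul]

end DVR

/-! ### The Gauss valuation ring of a subfield of `Frac O((q))` -/

section Field

variable [IsDiscreteValuationRing ↥O] (hπ : Function.Surjective π)
variable (F : IntermediateField L (LaurentSeries L)) (hF : ∀ f ∈ F, TaFrac O f)

/-- **The Gauss valuation ring** of an intermediate field `F ≤ Frac O((q))`. -/
def taVal : ValuationSubring ↥F where
  toSubring :=
    { carrier := {f : ↥F | TaGauss O π (f : LaurentSeries L)}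
      mul_mem' := fun {a b} ha hb => (taGaussSubring O π).mul_mem ha hb
      one_mem' := (taGaussSubring O π).one_mem
      add_mem' := fun {a b} ha hb => (taGaussSubring O π).add_mem ha hb
      zero_mem' := (taGaussSubring O π).zero_mem
      neg_mem' := fun {a} ha => (taGaussSubring O π).neg_mem ha }
  mem_or_inv_mem' := by
    intro f
    obtain ⟨ϖ, hϖ⟩ := IsDiscreteValuationRing.exists_irreducible ↥O
    rcases ta_gauss_or_inv hπ hϖ (hF f f.2) with h | h
    · exact Or.inl h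
    · right
      show TaGauss O π ((f⁻¹ : ↥F) : LaurentSeries L)
      simpa using h

theorem mem_taVal_iff (f : ↥F) :
    f ∈ taVal O π hπ F hF ↔ TaGauss O π (f : LaurentSeries L) := Iff.rfl

/-- the inclusion of the Gauss valuation ring into the Gauss subring of `L((q))` -/
def taValIncl : ↥(taVal O π hπ F hF) →+* ↥(taGaussSubring O π) where
  toFun f := ⟨((f : ↥F) : LaurentSeries L), f.2⟩
  map_one' := rfl
  map_mul' _ _ := rfl
  map_zero' := rfl
  map_add' _ _ := rfl

/-- **the residue map** `O_v → k((q))` -/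
def taRes : ↥(taVal O π hπ F hF) →+* LaurentSeries k :=
  (taRho O π).comp (taValIncl O π hπ F hF)

theorem taRes_eq (f : ↥(taVal O π hπ F hF)) {g h : LaurentSeries ↥O}
    (hh : taRed π h ≠ 0) (e : ((f : ↥F) : LaurentSeries L) * taInc O h = taInc O g) :
    taRes O π hπ F hF f = taRed π g / taRed π h :=
  taRho_eq O π _ hh e

theorem mem_taVal_of_eq_taInc {f : ↥F} {s : LaurentSeries ↥O}
    (h : (f : LaurentSeries L) = taInc O s) : f ∈ taVal O π hπ F hF := by
  rw [mem_taVal_iff, h]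
  exact taGauss_taInc O π s

/-- on series with coefficients in `O` the residue map is the coefficientwise reduction -/
theorem taRes_of_eq_taInc {f : ↥(taVal O π hπ F hF)} {s : LaurentSeries ↥O}
    (h : ((f : ↥F) : LaurentSeries L) = taInc O s) : taRes O π hπ F hF f = taRed π s := by
  rw [taRes_eq O π hπ F hF f (g := s) (h := 1) (by rw [map_one]; exact one_ne_zero)
    (by rw [map_one, mul_one, h]), map_one, div_one]

/-- the kernel of the residue map is `ϖ O_v` -/
theorem taRes_eq_zero_iff {ϖ : ↥O} (hϖ : Irreducible ϖ) (f : ↥(taVal O π hπ F hF)) :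
    taRes O π hπ F hF f = 0 ↔
      ∃ f' : ↥(taVal O π hπ F hF), (f : ↥F) = algebraMap L ↥F ((ϖ : ↥O) : L) * (f' : ↥F) := by
  have hϖ0 : ((ϖ : ↥O) : L) ≠ 0 := ta_coe_unif_ne_zero hϖ
  have hC : ((algebraMap L ↥F ((ϖ : ↥O) : L) : ↥F) : LaurentSeries L) =
      HahnSeries.C ((ϖ : ↥O) : L) := by
    show algebraMap L (LaurentSeries L) _ = _
    rw [algebraMap_laurentSeries_eq_single]
    rfl
  constructor
  · intro h0
    obtain ⟨f', hf', e⟩ := (taRho_eq_zero_iff hπ hϖ (taValIncl O π hπ F hF f)).mp h0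
    have hmem : f' ∈ F := by
      have h1 : f' = (HahnSeries.C ((ϖ : ↥O) : L))⁻¹ * ((f : ↥F) : LaurentSeries L) := by
        have h2 : ((f : ↥F) : LaurentSeries L) = HahnSeries.C ((ϖ : ↥O) : L) * f' := e
        rw [h2, ← mul_assoc, inv_mul_cancel₀ (ta_C_unif_ne_zero hϖ), one_mul]
      rw [h1, ← hC]
      exact F.mul_mem (F.inv_mem (algebraMap L ↥F _).2) (f : ↥F).2
    refine ⟨⟨⟨f', hmem⟩, hf'⟩, Subtype.ext ?_⟩
    show ((f : ↥F) : LaurentSeries L) = _
    rw [IntermediateField.coe_mul, hC]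
    exact e
  · rintro ⟨f', e⟩
    apply (taRho_eq_zero_iff hπ hϖ (taValIncl O π hπ F hF f)).mpr
    refine ⟨((f' : ↥F) : LaurentSeries L), f'.2, ?_⟩
    show ((f : ↥F) : LaurentSeries L) = _
    rw [e, IntermediateField.coe_mul, hC]

/-- elements with nonzero residue are units of the Gauss valuation ring -/
theorem inv_mem_taVal_of_taRes_ne_zero (f : ↥(taVal O π hπ F hF))
    (hf : taRes O π hπ F hF f ≠ 0) : ((f : ↥F))⁻¹ ∈ taVal O π hπ F hF := by
  rw [mem_taVal_iff]
  have := taGauss_inv_of_taRho_ne_zero O π (taValIncl O π hπ F hF f) hf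
  rw [IntermediateField.coe_inv]
  exact this

/-- the value group is `ℤ` with uniformiser `ϖ` -/
theorem ta_exists_zpow_mul_unit {ϖ : ↥O} (hϖ : Irreducible ϖ) (f : ↥F) (hf : f ≠ 0) :
    ∃ (n : ℤ) (u : ↥F), u ∈ taVal O π hπ F hF ∧ u⁻¹ ∈ taVal O π hπ F hF ∧
      f = algebraMap L ↥F ((ϖ : ↥O) : L) ^ n * u := by
  have hϖ0 : ((ϖ : ↥O) : L) ≠ 0 := ta_coe_unif_ne_zero hϖ
  have hf0 : (f : LaurentSeries L) ≠ 0 := fun h => hf (Subtype.ext h)
  obtain ⟨n, u, hu, hu', e⟩ := ta_exists_zpow_mul hπ hϖ (hF f f.2) hf0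
  have hC : ((algebraMap L ↥F ((ϖ : ↥O) : L) : ↥F) : LaurentSeries L) =
      HahnSeries.C ((ϖ : ↥O) : L) := by
    show algebraMap L (LaurentSeries L) _ = _
    rw [algebraMap_laurentSeries_eq_single]
    rfl
  have hne : (algebraMap L ↥F ((ϖ : ↥O) : L) : ↥F) ≠ 0 := by
    rw [Ne, map_eq_zero]
    exact hϖ0
  set w : ↥F := (algebraMap L ↥F ((ϖ : ↥O) : L) ^ n)⁻¹ * f with hw
  have hwu : (w : LaurentSeries L) = u := by
    have hz : (((algebraMap L ↥F ((ϖ : ↥O) : L) : ↥F) ^ n : ↥F) : LaurentSeries L) =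
        HahnSeries.C ((ϖ : ↥O) : L) ^ n := by
      rw [← hC]
      exact map_zpow₀ F.val _ n
    rw [hw, IntermediateField.coe_mul, IntermediateField.coe_inv, hz, e,
      ← mul_assoc, inv_mul_cancel₀ (zpow_ne_zero n (ta_C_unif_ne_zero hϖ)), one_mul]
  refine ⟨n, w, ?_, ?_, ?_⟩
  · rw [mem_taVal_iff, hwu]; exact hu
  · rw [mem_taVal_iff, IntermediateField.coe_inv, hwu]; exact hu'
  · rw [hw, ← mul_assoc, mul_inv_cancel₀ (zpow_ne_zero n hne), one_mul]

end Field

end Fermat.Agent.T1
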