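/-
T1-A (helper5): `[F̄_N : k(j̄)] = ψ(N)` for `k` algebraically closed, `N ≠ 0` in `k`
(`F̄_N = k(j̄(q^d) : d ∣ N)`).  `≥` is `ta_bar_finrank_ge` (P9 tower); `≤`: the `[F̄_N : k(j̄)]`
embeddings `F̄_N → k((t))` over `j̄ ↦ j̄(t^N)` are determined by their path data, of which there
are at most `ψ(N)` (`Orb/EmbBound.lean`).
-/
import Mathlib
import Fermat.Agent.Lib.T1.GoodRed.BarCusps
import Fermat.Agent.Lib.T1.GoodRed.Orb.EmbBound

set_option autoImplicit false
set_option linter.unusedSectionVars false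
set_option linter.style.haveILetI false

open HahnSeries ModularCurve IntermediateField Polynomial Fermat.Agent.Igusa AlgebraicCurve

noncomputable section

namespace Fermat.Agent.T1

variable (k : Type*) [Field k] [IsAlgClosed k] (N : ℕ) [NeZero N]

/-- **`[F̄_N : k(j̄)] ≤ ψ(N)`** -/
theorem ta_bar_finrank_le (hN : (N : k) ≠ 0) :
    Module.finrank ↥(k⟮taBarJ k N⟯) (TaBar k N) ≤ dedekindPsi N := by
  haveI := ta_bar_finiteDimensional k N
  haveI := ta_bar_isSeparable k N hN
  set D := pzTowerData k N hN with hD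
  set K := D.orbK N with hK
  obtain ⟨ι, _, σ, hσ, hσJ', hcard⟩ := ta_exists_emb_family (taBarEmb k N) (taBarJ k N)
    (fun τ hτ z => ta_bar_range_le k N hN τ hτ z)
  have hσJ : ∀ f, σ f (taBarJ k N) = D.xj 1 := fun f => by
    rw [hσJ' f, taBarEmb_taBarJ k N hN]
  let e : TaBar k N ≃ₐ[k] ↥K := taBarEquiv k N hN
  let σ' : ι → (↥K →ₐ[k] LaurentSeries k) :=
    fun f => (σ f).comp (e.symm : ↥K →ₐ[k] TaBar k N)
  have hσ'κ : ∀ f, D.OrbKappa K (σ' f) := by
    intro f y hy
    have h1 : e.symm y = taBarJ k N := by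
      apply e.injective
      rw [AlgEquiv.apply_symm_apply]
      apply Subtype.ext
      rw [hy, coe_taBarEquiv, taBarEmb_taBarJ k N hN]
    show σ f (e.symm y) = _
    rw [h1, hσJ f]
  have hσ'inj : Function.Injective σ' := by
    intro f g hfg
    apply hσ
    apply AlgHom.ext
    intro z
    have h1 := DFunLike.congr_fun hfg (e z)
    have h2 : σ' g (e z) = σ g z := by
      show σ g (e.symm (e z)) = _
      rw [AlgEquiv.symm_apply_apply]
    have h3 : σ' f (e z) = σ f z := by
      show σ f (e.symm (e z)) = _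
      rw [AlgEquiv.symm_apply_apply]
    rw [h2, h3] at h1
    exact h1
  rw [← hcard]
  exact D.orb_card_le K rfl σ' hσ'κ hσ'inj

/-- **`[F̄_N : k(j̄)] = ψ(N)`** -/
theorem ta_bar_finrank (hN : (N : k) ≠ 0) :
    Module.finrank ↥(k⟮taBarJ k N⟯) (TaBar k N) = dedekindPsi N :=
  le_antisymm (ta_bar_finrank_le k N hN) (ta_bar_finrank_ge k N hN)

end Fermat.Agent.T1
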