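import Mathlib
import Fermat.Agent.Lib.Igusa.AlgCore

/-!
# T1-A (good reduction package): the abstract Gauss valuation package

`L` a field, `O ⊆ L` a discrete valuation ring with residue map `π : O → k`, `F / L` a field
extension with a valuation ring `O_v ⊆ F` and a residue map `ρ : O_v → Ω` (`Ω ⊇ k` a field) such
that `ker ρ = ϖ O_v` and every element of `F` is moved into `O_v` by a power of the uniformiser
`ϖ` of `O`.  (`TaAbs`; instantiated in `Core.lean` with `F = F_{N,L} ⊆ L((q))`, `Ω = k((q))`.)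

For a chart `x ∈ O_v` (`TaChart`: `x` transcendental over `L`, `ρ x` transcendental over `k`) we
instantiate the abstract algebra core `ResidueCore` of P9 (`Lib/Igusa/AlgCore.lean`) with
`A = O[x]` (a UFD in which `ϖ` is prime) and `K = L(x)`.

This is the port of `Lib/Igusa/Instantiate.lean` (§Adjoin) from `(ℚ, ℤ_(ℓ), 𝔽_ℓ)` to `(L, O, k)`.
-/

set_option autoImplicit false
set_option linter.unusedSectionVars false
set_option linter.unusedVariables false
set_option linter.style.haveILetI false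

open Polynomial IntermediateField Fermat.Agent.Igusa

noncomputable section

namespace Fermat.Agent.T1

/-- the abstract Gauss valuation package -/
structure TaAbs (L F k Ω : Type*) [Field L] [Field F] [Algebra L F] [Field k] [Field Ω]
    [Algebra k Ω] where
  /-- the discrete valuation ring of the base field -/
  O : ValuationSubring L
  dvr : IsDiscreteValuationRing ↥O
  /-- the residue map of the base -/
  π : ↥O →+* k
  π_surj : Function.Surjective π
  /-- the valuation ring of the function field -/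
  Ov : ValuationSubring F
  /-- its residue map -/
  ρ : ↥Ov →+* Ω
  algebraMap_mem : ∀ a : ↥O, algebraMap L F (a : L) ∈ Ov
  ρ_algebraMap : ∀ a : ↥O, ρ ⟨algebraMap L F (a : L), algebraMap_mem a⟩ = algebraMap k Ω (π a)
  ρ_eq_zero_iff : ∀ {ϖ : ↥O}, Irreducible ϖ → ∀ f : ↥Ov,
    (ρ f = 0 ↔ ∃ f' : ↥Ov, (f : F) = algebraMap L F ((ϖ : ↥O) : L) * (f' : F))
  exists_pow_mul_mem : ∀ {ϖ : ↥O}, Irreducible ϖ → ∀ f : F,
    ∃ e : ℕ, algebraMap L F ((ϖ : ↥O) : L) ^ e * f ∈ Ov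

attribute [instance] TaAbs.dvr

namespace TaAbs

variable {L F k Ω : Type*} [Field L] [Field F] [Algebra L F] [Field k] [Field Ω] [Algebra k Ω]
variable (D : TaAbs L F k Ω)

theorem algebraMap_O_apply (a : ↥D.O) : algebraMap ↥D.O F a = algebraMap L F (a : L) := rfl

/-- the kernel of `π` is generated by the uniformiser -/
theorem π_eq_zero_iff {ϖ : ↥D.O} (hϖ : Irreducible ϖ) (a : ↥D.O) : D.π a = 0 ↔ ϖ ∣ a := by
  have hker : RingHom.ker D.π = IsLocalRing.maximalIdeal ↥D.O := by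
    have hmax : (RingHom.ker D.π).IsMaximal := RingHom.ker_isMaximal_of_surjective D.π D.π_surj
    exact IsLocalRing.eq_maximalIdeal hmax
  rw [← RingHom.mem_ker, hker, hϖ.maximalIdeal_eq, Ideal.mem_span_singleton]

theorem coe_unif_ne_zero {ϖ : ↥D.O} (hϖ : Irreducible ϖ) : ((ϖ : ↥D.O) : L) ≠ 0 := fun h =>
  hϖ.ne_zero (Subtype.ext h)

theorem algebraMap_unif_ne_zero {ϖ : ↥D.O} (hϖ : Irreducible ϖ) :
    algebraMap L F ((ϖ : ↥D.O) : L) ≠ 0 := by
  rw [Ne, map_eq_zero]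
  exact D.coe_unif_ne_zero hϖ

/-- the Gauss valuation ring as an `O`-subalgebra -/
def OvAlg : Subalgebra ↥D.O F :=
  { D.Ov.toSubring with
    algebraMap_mem' := fun a => D.algebraMap_mem a }

theorem mem_OvAlg_iff (f : F) : f ∈ D.OvAlg ↔ f ∈ D.Ov := Iff.rfl

theorem ρ_unif {ϖ : ↥D.O} (hϖ : Irreducible ϖ) :
    D.ρ ⟨algebraMap L F ((ϖ : ↥D.O) : L), D.algebraMap_mem ϖ⟩ = 0 := by
  rw [D.ρ_algebraMap, (D.π_eq_zero_iff hϖ ϖ).mpr dvd_rfl, map_zero]

/-- every element of `L` is moved into `O` by a power of the uniformiser -/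
theorem exists_pow_mul_mem_O {ϖ : ↥D.O} (hϖ : Irreducible ϖ) (c : L) :
    ∃ e : ℕ, ((ϖ : ↥D.O) : L) ^ e * c ∈ D.O := by
  rcases D.O.mem_or_inv_mem c with hc | hc
  · exact ⟨0, by rwa [pow_zero, one_mul]⟩
  · by_cases hc0 : c = 0
    · exact ⟨0, by rw [hc0, mul_zero]; exact D.O.zero_mem⟩
    have hne : (⟨c⁻¹, hc⟩ : ↥D.O) ≠ 0 := by
      intro h
      have := congrArg (fun z : ↥D.O => (z : L)) h
      simp only [ZeroMemClass.coe_zero, inv_eq_zero] at this
      exact hc0 this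
    obtain ⟨e, he⟩ := IsDiscreteValuationRing.associated_pow_irreducible hne hϖ
    obtain ⟨u, hu⟩ := he.symm
    refine ⟨e, ?_⟩
    have h1 : ((ϖ : ↥D.O) : L) ^ e * ((u : ↥D.O) : L) = c⁻¹ := by
      have := congrArg (fun z : ↥D.O => (z : L)) hu
      simpa using this
    have h2 : ((ϖ : ↥D.O) : L) ^ e * c = (((u⁻¹ : (↥D.O)ˣ) : ↥D.O) : L) := by
      have hu1 : ((u : ↥D.O) : L) * (((u⁻¹ : (↥D.O)ˣ) : ↥D.O) : L) = 1 := by
        rw [← MulMemClass.coe_mul, Units.mul_inv]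
        rfl
      have hu0 : ((u : ↥D.O) : L) ≠ 0 := left_ne_zero_of_mul_eq_one hu1
      have h3 : c = (((ϖ : ↥D.O) : L) ^ e * ((u : ↥D.O) : L))⁻¹ := by rw [h1, inv_inv]
      rw [h3, mul_inv, ← mul_assoc, mul_inv_cancel₀ (pow_ne_zero e (D.coe_unif_ne_zero hϖ)),
        one_mul]
      exact (eq_inv_of_mul_eq_one_right hu1).symm
    rw [h2]
    exact SetLike.coe_mem _

end TaAbs

/-- a chart of the abstract Gauss valuation package: `x ∈ O_v` transcendental over `L` with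
`ρ x` transcendental over `k`, and a uniformiser of `O` -/
structure TaChart {L F k Ω : Type*} [Field L] [Field F] [Algebra L F] [Field k] [Field Ω]
    [Algebra k Ω] (D : TaAbs L F k Ω) where
  /-- the coordinate -/
  x : F
  tr : Transcendental L x
  mem : x ∈ D.Ov
  trρ : Transcendental k (D.ρ ⟨x, mem⟩)
  /-- the uniformiser -/
  ϖ : ↥D.O
  irr : Irreducible ϖ

namespace TaChart

variable {L F k Ω : Type*} [Field L] [Field F] [Algebra L F] [Field k] [Field Ω] [Algebra k Ω]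
variable {D : TaAbs L F k Ω} (Ch : TaChart D)

/-- `ρ x` -/
def xb : Ω := D.ρ ⟨Ch.x, Ch.mem⟩

theorem transcendental_O : Transcendental ↥D.O Ch.x :=
  Ch.tr.restrictScalars (FaithfulSMul.algebraMap_injective ↥D.O L)

theorem ufm_adjoin : UniqueFactorizationMonoid ↥(Algebra.adjoin ↥D.O {Ch.x}) :=
  Ch.transcendental_O.uniqueFactorizationMonoid_adjoin

/-- the prime `ϖ` of `O[x]` -/
def unifA : ↥(Algebra.adjoin ↥D.O {Ch.x}) := algebraMap ↥D.O _ Ch.ϖ

theorem unifA_prime : Prime Ch.unifA := by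
  have hx' := Ch.transcendental_O
  have h1 : Prime (C (Ch.ϖ) : (↥D.O)[X]) := prime_C_iff.mpr Ch.irr.prime
  have h2 := (MulEquiv.prime_iff
    (Polynomial.algEquivOfTranscendental ↥D.O Ch.x hx').toMulEquiv).mpr h1
  have h3 : (Polynomial.algEquivOfTranscendental ↥D.O Ch.x hx').toMulEquiv (C (Ch.ϖ)) =
      Ch.unifA := by
    show (Polynomial.algEquivOfTranscendental ↥D.O Ch.x hx') (C (Ch.ϖ)) = _
    rw [← Polynomial.algebraMap_eq, AlgEquiv.commutes]
    rfl
  rwa [h3] at h2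

theorem coe_unifA : ((Ch.unifA : ↥(Algebra.adjoin ↥D.O {Ch.x})) : F) =
    algebraMap L F ((Ch.ϖ : ↥D.O) : L) := rfl

theorem algebraMap_unifA : algebraMap ↥(Algebra.adjoin ↥D.O {Ch.x}) F Ch.unifA =
    algebraMap L F ((Ch.ϖ : ↥D.O) : L) := rfl

theorem adjoin_le_OvAlg : Algebra.adjoin ↥D.O {Ch.x} ≤ D.OvAlg :=
  Algebra.adjoin_le (by
    intro y hy
    rw [Set.mem_singleton_iff] at hy
    rw [hy]
    exact Ch.mem)

theorem mem_Ov_of_mem_adjoin (a : ↥(Algebra.adjoin ↥D.O {Ch.x})) : (a : F) ∈ D.Ov :=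
  Ch.adjoin_le_OvAlg a.2

/-- `O[x] → O_v` -/
def toOv : ↥(Algebra.adjoin ↥D.O {Ch.x}) →+* ↥D.Ov where
  toFun a := ⟨(a : F), Ch.mem_Ov_of_mem_adjoin a⟩
  map_one' := rfl
  map_mul' _ _ := rfl
  map_zero' := rfl
  map_add' _ _ := rfl

theorem coe_toOv (a : ↥(Algebra.adjoin ↥D.O {Ch.x})) : ((Ch.toOv a : ↥D.Ov) : F) = (a : F) := rfl

/-- `x` as an element of `O[x]` -/
def xA : ↥(Algebra.adjoin ↥D.O {Ch.x}) := ⟨Ch.x, Algebra.self_mem_adjoin_singleton ↥D.O Ch.x⟩

/-- `ρ (P(x)) = P̄ (ρ x)`. -/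
theorem ρ_toOv_aeval (P : (↥D.O)[X]) :
    D.ρ (Ch.toOv (aeval Ch.xA P)) = aeval Ch.xb (P.map D.π) := by
  have key : ((D.ρ).comp Ch.toOv).comp (aeval Ch.xA).toRingHom =
      ((aeval Ch.xb).toRingHom).comp (Polynomial.mapRingHom D.π) := by
    apply Polynomial.ringHom_ext
    · intro a
      simp only [RingHom.comp_apply, AlgHom.toRingHom_eq_coe, RingHom.coe_coe, aeval_C,
        coe_mapRingHom, Polynomial.map_C]
      exact D.ρ_algebraMap a
    · simp only [RingHom.comp_apply, AlgHom.toRingHom_eq_coe, RingHom.coe_coe, aeval_X,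
        coe_mapRingHom, Polynomial.map_X]
      rfl
  exact congrArg (fun f : (↥D.O)[X] →+* Ω => f P) key

theorem exists_aeval_eq (a : ↥(Algebra.adjoin ↥D.O {Ch.x})) :
    ∃ P : (↥D.O)[X], aeval Ch.xA P = a := by
  obtain ⟨P, hP⟩ := (Polynomial.algEquivOfTranscendental ↥D.O Ch.x Ch.transcendental_O).surjective a
  refine ⟨P, ?_⟩
  rw [← hP, Polynomial.algEquivOfTranscendental_apply]
  rfl

/-- the kernel of `ρ` on `O[x]` is generated by `ϖ`. -/
theorem unifA_dvd_of_ρ_eq_zero (a : ↥(Algebra.adjoin ↥D.O {Ch.x}))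
    (ha : D.ρ (Ch.toOv a) = 0) : Ch.unifA ∣ a := by
  obtain ⟨P, rfl⟩ := Ch.exists_aeval_eq a
  rw [ρ_toOv_aeval] at ha
  have hP : P.map D.π = 0 := (transcendental_iff.mp Ch.trρ) _ ha
  have hdvd : C (Ch.ϖ) ∣ P := by
    rw [Polynomial.C_dvd_iff_dvd_coeff]
    intro i
    have h1 := congrArg (fun Q => Q.coeff i) hP
    simp only [Polynomial.coeff_map, Polynomial.coeff_zero] at h1
    exact (D.π_eq_zero_iff Ch.irr _).mp h1
  obtain ⟨Q, rfl⟩ := hdvd
  refine ⟨aeval Ch.xA Q, ?_⟩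
  rw [map_mul, aeval_C]
  rfl

/-- elements integral over `O[x]` lie in the valuation ring -/
theorem mem_Ov_of_isIntegral {y : F} (hy : IsIntegral ↥(Algebra.adjoin ↥D.O {Ch.x}) y) :
    y ∈ D.Ov := by
  have h1 : IsIntegral ↥D.Ov y := by
    obtain ⟨p, hp, hpy⟩ := hy
    refine ⟨p.map Ch.toOv, hp.map _, ?_⟩
    rw [Polynomial.eval₂_map]
    exact hpy
  obtain ⟨z, hz⟩ := (isIntegrallyClosed_iff F).mp
    (inferInstance : IsIntegrallyClosed ↥D.Ov) h1
  rw [← hz]
  exact z.2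

/-- **The abstract algebra core instantiated** for `A = O[x]`. -/
def core : ResidueCore ↥(Algebra.adjoin ↥D.O {Ch.x}) F Ω where
  O := D.Ov.toSubring
  ρ := D.ρ
  l := Ch.unifA
  prime_l := Ch.unifA_prime
  mem_of_isIntegral := fun y hy => Ch.mem_Ov_of_isIntegral hy
  ρ_l := D.ρ_unif Ch.irr
  exists_of_ρ_eq_zero := by
    intro f hf
    obtain ⟨f', hf'⟩ := (D.ρ_eq_zero_iff Ch.irr f).mp hf
    exact ⟨f', hf'⟩
  dvd_of_ρ_eq_zero := fun a ha => Ch.unifA_dvd_of_ρ_eq_zero a ha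

theorem core_incl (a : ↥(Algebra.adjoin ↥D.O {Ch.x})) : Ch.core.incl a = Ch.toOv a := rfl

theorem core_ρ : Ch.core.ρ = D.ρ := rfl

end TaChart

end Fermat.Agent.T1
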