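import Fermat.Agent.Lib.T1.GoodRed.AbsCore

/-!
# T1-A (good reduction package): consequences of the abstract algebra core

For a chart `x` of an abstract Gauss valuation package (`AbsCore.lean`), and `n ≥ [F : L(x)]`
elements `b i ∈ O_v` whose residues are independent over `ρ (O[x])`:

* every element of `O_v` is an `O[x]_(ϖ)`-combination of the `b i` (`exists_mul_eq_sum`), has a
  multiple by some `t ∈ O[x] ∖ ϖ O[x]` integral over `O[x]` (`exists_isIntegral_mul`);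
* `b` is an `L(x)`-basis of `F` (`linearIndependent_coe`, `le_finrank`);
* **(Int)**: an element of `O_v` integral over `L[x]` is integral over `O[x]`, and its residue is
  integral over `k[ρ x]`;
* the residue field `ρ (O_v)` is generated over `k (ρ x)` by the `ρ (b i)`;
* `O_v` is the unique valuation ring of `F` above the Gauss valuation ring of `L(x)`.
-/

set_option autoImplicit false
set_option linter.unusedSectionVars false
set_option linter.unusedVariables false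
set_option linter.style.haveILetI false

open Polynomial IntermediateField Fermat.Agent.Igusa

noncomputable section

namespace Fermat.Agent.T1

namespace TaChart

variable {L F k Ω : Type*} [Field L] [Field F] [Algebra L F] [Field k] [Field Ω] [Algebra k Ω]
variable {D : TaAbs L F k Ω} (Ch : TaChart D)

/-! ### Clearing denominators -/

/-- every element of `L[x]` lies in `O[x]` after multiplication by a power of `ϖ` -/
theorem exists_pow_mul_mem_adjoin (b : F) (hb : b ∈ Algebra.adjoin L {Ch.x}) :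
    ∃ m : ℕ, algebraMap L F ((Ch.ϖ : ↥D.O) : L) ^ m * b ∈ Algebra.adjoin ↥D.O {Ch.x} := by
  have hl : algebraMap L F ((Ch.ϖ : ↥D.O) : L) ∈ Algebra.adjoin ↥D.O {Ch.x} :=
    Subalgebra.algebraMap_mem _ Ch.ϖ
  induction hb using Algebra.adjoin_induction with
  | mem y hy =>
    rw [Set.mem_singleton_iff] at hy
    refine ⟨0, ?_⟩
    rw [pow_zero, one_mul, hy]
    exact Algebra.self_mem_adjoin_singleton ↥D.O Ch.x
  | algebraMap q =>
    obtain ⟨m, hm⟩ := D.exists_pow_mul_mem_O Ch.irr q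
    refine ⟨m, ?_⟩
    have h1 : algebraMap L F ((Ch.ϖ : ↥D.O) : L) ^ m * algebraMap L F q =
        algebraMap ↥D.O F ⟨((Ch.ϖ : ↥D.O) : L) ^ m * q, hm⟩ := by
      rw [D.algebraMap_O_apply, map_mul, map_pow]
    rw [h1]
    exact Subalgebra.algebraMap_mem _ _
  | add b₁ b₂ _ _ h₁ h₂ =>
    obtain ⟨m₁, hm₁⟩ := h₁
    obtain ⟨m₂, hm₂⟩ := h₂
    refine ⟨m₁ + m₂, ?_⟩
    have h1 : algebraMap L F ((Ch.ϖ : ↥D.O) : L) ^ (m₁ + m₂) * (b₁ + b₂) =
        algebraMap L F ((Ch.ϖ : ↥D.O) : L) ^ m₂ *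
            (algebraMap L F ((Ch.ϖ : ↥D.O) : L) ^ m₁ * b₁) +
          algebraMap L F ((Ch.ϖ : ↥D.O) : L) ^ m₁ *
            (algebraMap L F ((Ch.ϖ : ↥D.O) : L) ^ m₂ * b₂) := by
      rw [pow_add]; ring
    rw [h1]
    exact add_mem (mul_mem (pow_mem hl _) hm₁) (mul_mem (pow_mem hl _) hm₂)
  | mul b₁ b₂ _ _ h₁ h₂ =>
    obtain ⟨m₁, hm₁⟩ := h₁
    obtain ⟨m₂, hm₂⟩ := h₂
    refine ⟨m₁ + m₂, ?_⟩
    have h1 : algebraMap L F ((Ch.ϖ : ↥D.O) : L) ^ (m₁ + m₂) * (b₁ * b₂) =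
        (algebraMap L F ((Ch.ϖ : ↥D.O) : L) ^ m₁ * b₁) *
          (algebraMap L F ((Ch.ϖ : ↥D.O) : L) ^ m₂ * b₂) := by
      rw [pow_add]; ring
    rw [h1]
    exact mul_mem hm₁ hm₂

theorem adjoin_le_adjoin_field :
    Algebra.adjoin ↥D.O {Ch.x} ≤ (Algebra.adjoin L {Ch.x}).restrictScalars ↥D.O :=
  Algebra.adjoin_le (by
    intro y hy
    rw [Set.mem_singleton_iff] at hy
    rw [hy]
    exact Algebra.self_mem_adjoin_singleton L Ch.x)

/-- the inclusion `O[x] → L[x]` -/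
def toAdjoinField : ↥(Algebra.adjoin ↥D.O {Ch.x}) →+* ↥(Algebra.adjoin L {Ch.x}) :=
  (algebraMap ↥(Algebra.adjoin ↥D.O {Ch.x}) F).codRestrict (Algebra.adjoin L {Ch.x})
    (fun a => Ch.adjoin_le_adjoin_field a.2)

theorem coe_toAdjoinField (a : ↥(Algebra.adjoin ↥D.O {Ch.x})) :
    ((Ch.toAdjoinField a : ↥(Algebra.adjoin L {Ch.x})) : F) = (a : F) :=
  RingHom.codRestrict_apply _ _ _ a

/-- clearing denominators: if `y` is integral over `L[x]` then `ϖ ^ m y` is integral over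
`O[x]` for some `m` -/
theorem isIntegral_pow_mul (y : F) (hy : IsIntegral ↥(Algebra.adjoin L {Ch.x}) y) :
    ∃ m : ℕ, IsIntegral ↥(Algebra.adjoin ↥D.O {Ch.x})
      (algebraMap L F ((Ch.ϖ : ↥D.O) : L) ^ m * y) := by
  classical
  obtain ⟨P, hP, hPy⟩ := hy
  set ϖF : F := algebraMap L F ((Ch.ϖ : ↥D.O) : L) with hϖF
  have hl : ϖF ∈ Algebra.adjoin ↥D.O {Ch.x} := Subalgebra.algebraMap_mem _ Ch.ϖ
  have hlL : ϖF ∈ Algebra.adjoin L {Ch.x} := Subalgebra.algebraMap_mem _ _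
  -- a common exponent for the coefficients
  obtain ⟨m, hm⟩ : ∃ m : ℕ, ∀ i, ϖF ^ m * ((P.coeff i : ↥(Algebra.adjoin L {Ch.x})) : F) ∈
      Algebra.adjoin ↥D.O {Ch.x} := by
    choose f hf using fun i =>
      Ch.exists_pow_mul_mem_adjoin ((P.coeff i : ↥(Algebra.adjoin L {Ch.x})) : F) (P.coeff i).2
    refine ⟨P.support.sup f, fun i => ?_⟩
    by_cases hi : i ∈ P.support
    · have hle : f i ≤ P.support.sup f := Finset.le_sup hi
      obtain ⟨c, hc⟩ := Nat.exists_eq_add_of_le hle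
      rw [hc, pow_add, mul_comm (_ ^ f i), mul_assoc]
      exact mul_mem (pow_mem hl _) (hf i)
    · rw [Polynomial.notMem_support_iff.mp hi]
      simp
  refine ⟨m, ?_⟩
  set s : ↥(Algebra.adjoin L {Ch.x}) := (⟨ϖF, hlL⟩ : ↥(Algebra.adjoin L {Ch.x})) ^ m with hs
  have hsF : ((s : ↥(Algebra.adjoin L {Ch.x})) : F) = ϖF ^ m := by
    rw [hs]; push_cast; rfl
  have hsA : ((s : ↥(Algebra.adjoin L {Ch.x})) : F) ∈ Algebra.adjoin ↥D.O {Ch.x} := by
    rw [hsF]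
    exact pow_mem hl _
  -- the scaled polynomial has coefficients in `O[x]`
  have hlift : P.scaleRoots s ∈ Polynomial.lifts Ch.toAdjoinField := by
    rw [Polynomial.lifts_iff_coeff_lifts]
    intro i
    rw [Polynomial.coeff_scaleRoots]
    rcases lt_trichotomy i P.natDegree with hi | hi | hi
    · -- `i < d`
      obtain ⟨c, hc⟩ := Nat.exists_eq_add_of_lt hi
      have hc' : P.natDegree - i = (c + 1) := by omega
      rw [hc', pow_succ]
      have h1 : ((P.coeff i * (s ^ c * s) : ↥(Algebra.adjoin L {Ch.x})) : F) ∈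
          Algebra.adjoin ↥D.O {Ch.x} := by
        have h2 : ((P.coeff i * (s ^ c * s) : ↥(Algebra.adjoin L {Ch.x})) : F) =
            ((s : ↥(Algebra.adjoin L {Ch.x})) : F) ^ c *
              (ϖF ^ m * ((P.coeff i : ↥(Algebra.adjoin L {Ch.x})) : F)) := by
          push_cast
          rw [hsF]
          ring
        rw [h2]
        exact mul_mem (pow_mem hsA _) (hm i)
      exact ⟨⟨_, h1⟩, Subtype.ext rfl⟩
    · rw [hi, Nat.sub_self, pow_zero, mul_one, Polynomial.coeff_natDegree, hP.leadingCoeff]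
      exact ⟨1, map_one _⟩
    · rw [Polynomial.coeff_eq_zero_of_natDegree_lt hi, zero_mul]
      exact ⟨0, map_zero _⟩
  obtain ⟨Q, hQmap, -, hQmonic⟩ :=
    Polynomial.lifts_and_natDegree_eq_and_monic hlift ((Polynomial.monic_scaleRoots_iff s).mpr hP)
  refine ⟨Q, hQmonic, ?_⟩
  have hcomp : (algebraMap ↥(Algebra.adjoin ↥D.O {Ch.x}) F) =
      (algebraMap ↥(Algebra.adjoin L {Ch.x}) F).comp Ch.toAdjoinField := rfl
  rw [hcomp, ← Polynomial.eval₂_map, hQmap, ← hsF]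
  have h3 := Polynomial.scaleRoots_eval₂_mul (p := P) (algebraMap ↥(Algebra.adjoin L {Ch.x}) F)
    y s
  have h4 : algebraMap ↥(Algebra.adjoin L {Ch.x}) F s = ((s : ↥(Algebra.adjoin L {Ch.x})) : F) :=
    rfl
  rw [h4] at h3
  rw [h3, hPy, mul_zero]

/-! ### `L(x)` is the fraction field of `O[x]` -/

theorem adjoin_le_Lx :
    Algebra.adjoin ↥D.O {Ch.x} ≤ (L⟮Ch.x⟯).toSubalgebra.restrictScalars ↥D.O :=
  Algebra.adjoin_le (by
    intro y hy
    rw [Set.mem_singleton_iff] at hy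
    rw [hy]
    exact mem_adjoin_simple_self L Ch.x)

/-- `O[x] → L(x)` -/
def toLx : ↥(Algebra.adjoin ↥D.O {Ch.x}) →+* ↥(L⟮Ch.x⟯) :=
  (algebraMap ↥(Algebra.adjoin ↥D.O {Ch.x}) F).codRestrict (L⟮Ch.x⟯)
    (fun a => Ch.adjoin_le_Lx a.2)

theorem coe_toLx (a : ↥(Algebra.adjoin ↥D.O {Ch.x})) :
    ((Ch.toLx a : ↥(L⟮Ch.x⟯)) : F) = (a : F) :=
  RingHom.codRestrict_apply _ _ _ a

/-- every element of `L(x)` is a quotient of two elements of `O[x]` -/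
theorem exists_div_of_mem_Lx {z : F} (hz : z ∈ L⟮Ch.x⟯) :
    ∃ a s : ↥(Algebra.adjoin ↥D.O {Ch.x}), z = (a : F) / (s : F) := by
  obtain ⟨r, s, rfl⟩ := (mem_adjoin_simple_iff L z).mp hz
  have hr : aeval Ch.x r ∈ Algebra.adjoin L {Ch.x} := by
    rw [Algebra.adjoin_singleton_eq_range_aeval]
    exact AlgHom.mem_range_self _ r
  have hs : aeval Ch.x s ∈ Algebra.adjoin L {Ch.x} := by
    rw [Algebra.adjoin_singleton_eq_range_aeval]
    exact AlgHom.mem_range_self _ s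
  obtain ⟨m₁, hm₁⟩ := Ch.exists_pow_mul_mem_adjoin _ hr
  obtain ⟨m₂, hm₂⟩ := Ch.exists_pow_mul_mem_adjoin _ hs
  set ϖF : F := algebraMap L F ((Ch.ϖ : ↥D.O) : L) with hϖF
  have hl : ϖF ∈ Algebra.adjoin ↥D.O {Ch.x} := Subalgebra.algebraMap_mem _ Ch.ϖ
  have h0 : ϖF ≠ 0 := D.algebraMap_unif_ne_zero Ch.irr
  refine ⟨⟨ϖF ^ m₂ * (ϖF ^ m₁ * aeval Ch.x r), mul_mem (pow_mem hl _) hm₁⟩,
    ⟨ϖF ^ m₁ * (ϖF ^ m₂ * aeval Ch.x s), mul_mem (pow_mem hl _) hm₂⟩, ?_⟩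
  show _ = (ϖF ^ m₂ * (ϖF ^ m₁ * aeval Ch.x r)) / (ϖF ^ m₁ * (ϖF ^ m₂ * aeval Ch.x s))
  have h1 : ϖF ^ m₁ ≠ 0 := pow_ne_zero _ h0
  have h2 : ϖF ^ m₂ ≠ 0 := pow_ne_zero _ h0
  by_cases hs0 : aeval Ch.x s = 0
  · rw [hs0, mul_zero, mul_zero, div_zero, div_zero]
  · field_simp

/-- the algebra structure `O[x] → L(x)` (local instance) -/
@[reducible] def algLx : Algebra ↥(Algebra.adjoin ↥D.O {Ch.x}) ↥(L⟮Ch.x⟯) := Ch.toLx.toAlgebra

attribute [local instance] TaChart.algLx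

theorem algebraMap_Lx_apply (a : ↥(Algebra.adjoin ↥D.O {Ch.x})) :
    ((algebraMap ↥(Algebra.adjoin ↥D.O {Ch.x}) ↥(L⟮Ch.x⟯) a : ↥(L⟮Ch.x⟯)) : F) = (a : F) :=
  Ch.coe_toLx a

theorem isScalarTower_Lx : IsScalarTower ↥(Algebra.adjoin ↥D.O {Ch.x}) ↥(L⟮Ch.x⟯) F :=
  IsScalarTower.of_algebraMap_eq (fun a => (Ch.algebraMap_Lx_apply a).symm)

theorem faithfulSMul_Lx : FaithfulSMul ↥(Algebra.adjoin ↥D.O {Ch.x}) ↥(L⟮Ch.x⟯) := by
  rw [faithfulSMul_iff_algebraMap_injective]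
  intro a a' h
  apply Subtype.ext
  rw [← Ch.algebraMap_Lx_apply a, ← Ch.algebraMap_Lx_apply a', h]

theorem isFractionRing_Lx : IsFractionRing ↥(Algebra.adjoin ↥D.O {Ch.x}) ↥(L⟮Ch.x⟯) := by
  haveI := Ch.faithfulSMul_Lx
  apply IsFractionRing.of_field
  intro z
  obtain ⟨a, s, h⟩ := Ch.exists_div_of_mem_Lx z.2
  refine ⟨a, s, Subtype.ext ?_⟩
  rw [h]
  push_cast
  rw [Ch.algebraMap_Lx_apply, Ch.algebraMap_Lx_apply]

/-! ### The consequences of the abstract algebra core -/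

section Main

variable {n : ℕ} {b : Fin n → ↥D.Ov} [FiniteDimensional ↥(L⟮Ch.x⟯) F]

/-- every element of `O_v` is an `O[x]_(ϖ)`-combination of the `b i` -/
theorem exists_mul_eq_sum (hb : Ch.core.Indep b) (hn : Module.finrank ↥(L⟮Ch.x⟯) F ≤ n)
    (y : ↥D.Ov) :
    ∃ (s : ↥(Algebra.adjoin ↥D.O {Ch.x})) (a : Fin n → ↥(Algebra.adjoin ↥D.O {Ch.x})),
      ¬ Ch.unifA ∣ s ∧ (s : F) * (y : F) = ∑ i, (a i : F) * (b i : F) := by
  haveI := Ch.ufm_adjoin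
  haveI := Ch.isScalarTower_Lx
  haveI := Ch.isFractionRing_Lx
  exact ResidueCore.exists_mul_eq_sum (K := ↥(L⟮Ch.x⟯)) (D := Ch.core) hb hn y

/-- every element of `O_v` has a multiple by some `t ∉ ϖ O[x]` which is integral over `O[x]` -/
theorem exists_isIntegral_mul (hb : Ch.core.Indep b) (hn : Module.finrank ↥(L⟮Ch.x⟯) F ≤ n)
    (y : ↥D.Ov) :
    ∃ t : ↥(Algebra.adjoin ↥D.O {Ch.x}), ¬ Ch.unifA ∣ t ∧
      IsIntegral ↥(Algebra.adjoin ↥D.O {Ch.x}) ((t : F) * (y : F)) := by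
  haveI := Ch.ufm_adjoin
  haveI := Ch.isScalarTower_Lx
  haveI := Ch.isFractionRing_Lx
  exact ResidueCore.exists_isIntegral_mul (K := ↥(L⟮Ch.x⟯)) (D := Ch.core) hb hn y

/-- the `b i` are linearly independent over `L(x)` -/
theorem linearIndependent_coe (hb : Ch.core.Indep b) :
    LinearIndependent ↥(L⟮Ch.x⟯) (fun i => ((b i : ↥D.Ov) : F)) := by
  haveI := Ch.ufm_adjoin
  haveI := Ch.isScalarTower_Lx
  haveI := Ch.isFractionRing_Lx
  exact ResidueCore.linearIndependent_of_indep (K := ↥(L⟮Ch.x⟯)) (D := Ch.core) hb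

theorem le_finrank (hb : Ch.core.Indep b) : n ≤ Module.finrank ↥(L⟮Ch.x⟯) F := by
  have h := (Ch.linearIndependent_coe hb).fintype_card_le_finrank
  rwa [Fintype.card_fin] at h

/-- if `ϖ z` is integral over `O[x]` and `z ∈ O_v`... : the kernel of `ρ` on the integral closure
of `O[x]` is generated by `ϖ` -/
theorem isIntegral_of_isIntegral_unif_mul (hb : Ch.core.Indep b)
    (hn : Module.finrank ↥(L⟮Ch.x⟯) F ≤ n) {z : F} (hz : z ∈ D.Ov)
    (h : IsIntegral ↥(Algebra.adjoin ↥D.O {Ch.x}) (algebraMap L F ((Ch.ϖ : ↥D.O) : L) * z)) :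
    IsIntegral ↥(Algebra.adjoin ↥D.O {Ch.x}) z := by
  haveI := Ch.ufm_adjoin
  haveI := Ch.isScalarTower_Lx
  haveI := Ch.isFractionRing_Lx
  obtain ⟨t, ht, hty⟩ := Ch.exists_isIntegral_mul hb hn ⟨z, hz⟩
  exact isIntegral_of_isIntegral_mul_of_prime (↥(L⟮Ch.x⟯)) Ch.unifA_prime ht h hty

/-- **(Int)**: an element of `O_v` which is integral over `L[x]` is integral over `O[x]`. -/
theorem isIntegral_of_isIntegral_field (hb : Ch.core.Indep b)
    (hn : Module.finrank ↥(L⟮Ch.x⟯) F ≤ n) {f : F} (hf : f ∈ D.Ov)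
    (hint : IsIntegral ↥(Algebra.adjoin L {Ch.x}) f) :
    IsIntegral ↥(Algebra.adjoin ↥D.O {Ch.x}) f := by
  obtain ⟨m, hm⟩ := Ch.isIntegral_pow_mul f hint
  induction m with
  | zero => simpa using hm
  | succ m ih =>
    apply ih
    have hmem : algebraMap L F ((Ch.ϖ : ↥D.O) : L) ^ m * f ∈ D.Ov :=
      D.Ov.mul_mem _ _ (pow_mem (D.algebraMap_mem Ch.ϖ) _) hf
    apply Ch.isIntegral_of_isIntegral_unif_mul hb hn hmem
    rw [← mul_assoc, ← pow_succ']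
    exact hm

end Main

/-! ### Residues of integral elements -/

/-- `O[x] → k[ρ x]` -/
theorem ρ_toOv_mem_adjoin (a : ↥(Algebra.adjoin ↥D.O {Ch.x})) :
    D.ρ (Ch.toOv a) ∈ Algebra.adjoin k {Ch.xb} := by
  obtain ⟨P, rfl⟩ := Ch.exists_aeval_eq a
  rw [Ch.ρ_toOv_aeval, Algebra.adjoin_singleton_eq_range_aeval]
  exact AlgHom.mem_range_self _ _

/-- the residue of an element integral over `O[x]` is integral over `k[ρ x]` -/
theorem isIntegral_ρ (f : ↥D.Ov) (hf : IsIntegral ↥(Algebra.adjoin ↥D.O {Ch.x}) (f : F)) :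
    IsIntegral ↥(Algebra.adjoin k {Ch.xb}) (D.ρ f) := by
  obtain ⟨Q, hQ, hQf⟩ := hf
  -- the relation inside `O_v`
  have h1 : Polynomial.eval₂ Ch.toOv f Q = 0 := by
    apply Subtype.ext
    have h2 := Polynomial.hom_eval₂ Q Ch.toOv D.Ov.subtype f
    rw [ZeroMemClass.coe_zero]
    rw [← hQf]
    exact h2
  have h3 := Polynomial.hom_eval₂ Q Ch.toOv D.ρ f
  rw [h1, map_zero] at h3
  -- `ρ ∘ toOv` factors through `k[ρ x]`
  set φ : ↥(Algebra.adjoin ↥D.O {Ch.x}) →+* ↥(Algebra.adjoin k {Ch.xb}) :=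
    (D.ρ.comp Ch.toOv).codRestrict (Algebra.adjoin k {Ch.xb}) (fun a => Ch.ρ_toOv_mem_adjoin a)
    with hφ
  have hφc : (algebraMap ↥(Algebra.adjoin k {Ch.xb}) Ω).comp φ = D.ρ.comp Ch.toOv := by
    ext a
    exact RingHom.codRestrict_apply (D.ρ.comp Ch.toOv) (Algebra.adjoin k {Ch.xb})
      (fun a => Ch.ρ_toOv_mem_adjoin a) a
  refine ⟨Q.map φ, hQ.map _, ?_⟩
  rw [Polynomial.eval₂_map, hφc]
  exact h3.symm

/-- **(Int)**, residue form: the residue of an element of `O_v` which is integral over `L[x]` is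
integral over `k[ρ x]`. -/
theorem isIntegral_ρ_of_isIntegral_field {n : ℕ} {b : Fin n → ↥D.Ov}
    [FiniteDimensional ↥(L⟮Ch.x⟯) F] (hb : Ch.core.Indep b)
    (hn : Module.finrank ↥(L⟮Ch.x⟯) F ≤ n) (f : ↥D.Ov)
    (hint : IsIntegral ↥(Algebra.adjoin L {Ch.x}) (f : F)) :
    IsIntegral ↥(Algebra.adjoin k {Ch.xb}) (D.ρ f) :=
  Ch.isIntegral_ρ f (Ch.isIntegral_of_isIntegral_field hb hn f.2 hint)

/-! ### The residue field -/

theorem aeval_xb_mem (P : k[X]) : aeval Ch.xb P ∈ k⟮Ch.xb⟯ := by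
  rw [aeval_eq_sum_range]
  exact sum_mem fun i _ => IntermediateField.smul_mem _ (pow_mem (mem_adjoin_simple_self k _) i)

/-- `ρ (O[x]) ⊆ k(ρ x)` -/
theorem ρ_incl_mem_range (a : ↥(Algebra.adjoin ↥D.O {Ch.x})) :
    Ch.core.ρ (Ch.core.incl a) ∈ Set.range (algebraMap ↥(k⟮Ch.xb⟯) Ω) := by
  obtain ⟨P, rfl⟩ := Ch.exists_aeval_eq a
  show D.ρ (Ch.toOv (aeval Ch.xA P)) ∈ Set.range (algebraMap ↥(k⟮Ch.xb⟯) Ω)
  rw [ρ_toOv_aeval]
  exact ⟨⟨aeval Ch.xb (P.map D.π), Ch.aeval_xb_mem _⟩, rfl⟩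

/-- **existence of an independent family** from a lower bound for the residue degree -/
theorem exists_indep (G : Set ↥D.Ov) {n : ℕ}
    (hn : n ≤ Module.finrank ↥(k⟮Ch.xb⟯) ↥(adjoin ↥(k⟮Ch.xb⟯) (D.ρ '' G))) :
    ∃ b : Fin n → ↥D.Ov, (∀ i, b i ∈ Submonoid.closure G) ∧ Ch.core.Indep b :=
  ResidueCore.exists_indep_of_le_finrank_field (D := Ch.core) (κ := ↥(k⟮Ch.xb⟯))
    Ch.ρ_incl_mem_range G hn

theorem ρ_toOv_ne_zero {s : ↥(Algebra.adjoin ↥D.O {Ch.x})} (hs : ¬ Ch.unifA ∣ s) :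
    D.ρ (Ch.toOv s) ≠ 0 := fun h => hs (Ch.unifA_dvd_of_ρ_eq_zero s h)

/-- **the residue field is generated by the `ρ (b i)` over `k (ρ x)`** -/
theorem ρ_mem_of_forall_mem {n : ℕ} {b : Fin n → ↥D.Ov} [FiniteDimensional ↥(L⟮Ch.x⟯) F]
    (hb : Ch.core.Indep b) (hn : Module.finrank ↥(L⟮Ch.x⟯) F ≤ n)
    (E : IntermediateField k Ω) (hxE : Ch.xb ∈ E) (hbE : ∀ i, D.ρ (b i) ∈ E) (f : ↥D.Ov) :
    D.ρ f ∈ E := by
  obtain ⟨s, a, hs, hsa⟩ := Ch.exists_mul_eq_sum hb hn f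
  have hA : ∀ c : ↥(Algebra.adjoin ↥D.O {Ch.x}), D.ρ (Ch.toOv c) ∈ E := by
    intro c
    obtain ⟨P, rfl⟩ := Ch.exists_aeval_eq c
    rw [Ch.ρ_toOv_aeval, aeval_eq_sum_range]
    exact sum_mem fun i _ => IntermediateField.smul_mem _ (pow_mem hxE i)
  have h3 : Ch.toOv s * f = ∑ i, Ch.toOv (a i) * b i := by
    apply Subtype.ext
    rw [AddSubmonoidClass.coe_finsetSum]
    exact hsa
  have h4 := congrArg D.ρ h3
  rw [map_mul, map_sum] at h4
  have hs0 := Ch.ρ_toOv_ne_zero hs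
  have hf : D.ρ f = (D.ρ (Ch.toOv s))⁻¹ * ∑ i, D.ρ (Ch.toOv (a i) * b i) := by
    rw [← h4, ← mul_assoc, inv_mul_cancel₀ hs0, one_mul]
  rw [hf]
  refine E.mul_mem (E.inv_mem (hA s)) (E.sum_mem fun i _ => ?_)
  rw [map_mul]
  exact E.mul_mem (hA _) (hbE i)

/-! ### Uniqueness of the extension of the Gauss valuation -/

/-- **the Gauss valuation ring of `F` is contained in every valuation ring of `F` above the Gauss
valuation ring of `L(x)`** (i.e. containing `O[x]` and the inverses of the elements of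
`O[x] ∖ ϖ O[x]`). -/
theorem Ov_le_of_forall_inv_mem {n : ℕ} {b : Fin n → ↥D.Ov} [FiniteDimensional ↥(L⟮Ch.x⟯) F]
    (hb : Ch.core.Indep b) (hn : Module.finrank ↥(L⟮Ch.x⟯) F ≤ n)
    (V : ValuationSubring F) (hO : ∀ a : ↥D.O, algebraMap L F (a : L) ∈ V) (hx : Ch.x ∈ V)
    (hu : ∀ t : ↥(Algebra.adjoin ↥D.O {Ch.x}), ¬ Ch.unifA ∣ t → ((t : F))⁻¹ ∈ V) :
    D.Ov ≤ V := by
  intro y hy
  obtain ⟨t, ht, hty⟩ := Ch.exists_isIntegral_mul hb hn ⟨y, hy⟩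
  -- `O[x] ⊆ V`
  set VA : Subalgebra ↥D.O F :=
    { V.toSubring with algebraMap_mem' := fun a => hO a } with hVA
  have hle : Algebra.adjoin ↥D.O {Ch.x} ≤ VA :=
    Algebra.adjoin_le (by
      intro z hz
      rw [Set.mem_singleton_iff] at hz
      rw [hz]
      exact hx)
  have hmem : ∀ a : ↥(Algebra.adjoin ↥D.O {Ch.x}), (a : F) ∈ V := fun a => hle a.2
  set φ : ↥(Algebra.adjoin ↥D.O {Ch.x}) →+* ↥V :=
    (algebraMap ↥(Algebra.adjoin ↥D.O {Ch.x}) F).codRestrict V hmem with hφ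
  have h1 : IsIntegral ↥V ((t : F) * y) := by
    obtain ⟨p, hp, hpy⟩ := hty
    refine ⟨p.map φ, hp.map _, ?_⟩
    rw [Polynomial.eval₂_map]
    have hc : (algebraMap ↥V F).comp φ = algebraMap ↥(Algebra.adjoin ↥D.O {Ch.x}) F := by
      ext a
      exact RingHom.codRestrict_apply (algebraMap ↥(Algebra.adjoin ↥D.O {Ch.x}) F) V hmem a
    rw [hc]
    exact hpy
  obtain ⟨z, hz⟩ := (isIntegrallyClosed_iff F).mp (inferInstance : IsIntegrallyClosed ↥V) h1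
  have ht0 : (t : F) ≠ 0 := by
    intro h0
    apply ht
    have : t = 0 := Subtype.ext h0
    rw [this]
    exact dvd_zero _
  have hy' : y = ((t : F))⁻¹ * ((t : F) * y) := by
    rw [← mul_assoc, inv_mul_cancel₀ ht0, one_mul]
  rw [hy']
  refine V.mul_mem _ _ (hu t ht) ?_
  rw [← hz]
  exact z.2

theorem unifA_dvd_aeval_iff (P : (↥D.O)[X]) :
    Ch.unifA ∣ aeval Ch.xA P ↔ P.map D.π = 0 := by
  constructor
  · rintro ⟨v, hv⟩
    have h1 : D.ρ (Ch.toOv (aeval Ch.xA P)) = 0 := by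
      rw [hv, map_mul, map_mul]
      have : D.ρ (Ch.toOv Ch.unifA) = 0 := D.ρ_unif Ch.irr
      rw [this, zero_mul]
    rw [Ch.ρ_toOv_aeval] at h1
    exact (transcendental_iff.mp Ch.trρ) _ h1
  · intro h0
    apply Ch.unifA_dvd_of_ρ_eq_zero
    rw [Ch.ρ_toOv_aeval, h0, map_zero]

/-- uniqueness of the extension of the Gauss valuation, polynomial form -/
theorem Ov_le_of_forall_aeval_inv_mem {n : ℕ} {b : Fin n → ↥D.Ov}
    [FiniteDimensional ↥(L⟮Ch.x⟯) F]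
    (hb : Ch.core.Indep b) (hn : Module.finrank ↥(L⟮Ch.x⟯) F ≤ n)
    (V : ValuationSubring F) (hO : ∀ a : ↥D.O, algebraMap L F (a : L) ∈ V) (hx : Ch.x ∈ V)
    (hu : ∀ P : (↥D.O)[X], P.map D.π ≠ 0 → (aeval Ch.x P)⁻¹ ∈ V) :
    D.Ov ≤ V := by
  refine Ch.Ov_le_of_forall_inv_mem hb hn V hO hx ?_
  intro t ht
  obtain ⟨P, rfl⟩ := Ch.exists_aeval_eq t
  have hP : P.map D.π ≠ 0 := fun h0 => ht ((Ch.unifA_dvd_aeval_iff P).mpr h0)
  have h2 := hu P hP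
  have h3 : ((aeval Ch.xA P : ↥(Algebra.adjoin ↥D.O {Ch.x})) : F) = aeval Ch.x P := by
    rw [Polynomial.aeval_subalgebra_coe]
    rfl
  rw [h3]
  exact h2

end TaChart

end Fermat.Agent.T1
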