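/-
T1-A (helper7, for helper6's T1A-CORE (A4)): **orthonormal bases, abstractly**.
(1) `ta_cart_pid`: every subspace `W` of `K^ι` (`K = Frac R`, `R` a PID, `ι` finite) has a `K`-basis of
    vectors of `R^ι` such that a `K`-combination is integral iff all its coefficients are.
(2) `ta_cart_of_orth`: if `e : κ → F` (`κ` finite) is an orthonormal family for a subring `Ov ⊆ F` over
    `(L, O)`, and `Q W ⊆ span e` for a unit `Q` of `Ov`, then `W` has an orthonormal basis.
-/
import Mathlib

set_option autoImplicit false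
set_option linter.unusedSectionVars false
set_option linter.style.haveILetI false

namespace Fermat.Agent.T1

open Module

section PID

variable {R K : Type*} [CommRing R] [IsDomain R] [IsPrincipalIdealRing R] [Field K] [Algebra R K]
  [IsFractionRing R K] {ι : Type*} [Finite ι]

/-- coordinatewise `R → K` -/
noncomputable def taCartPhi (R K : Type*) [CommRing R] [Field K] [Algebra R K] (ι : Type*) :
    (ι → R) →ₗ[R] (ι → K) :=
  (Algebra.linearMap R K).compLeft ι

theorem taCartPhi_apply (x : ι → R) (i : ι) : taCartPhi R K ι x i = algebraMap R K (x i) := rfl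

theorem taCartPhi_injective : Function.Injective (taCartPhi R K ι) := by
  intro x y h
  funext i
  exact IsFractionRing.injective R K (congrFun h i)

/-- **saturated lattices in `K^ι`**: every subspace `W` of `K^ι` (`K = Frac R`, `R` a PID) has a
`K`-basis of vectors in `R^ι` such that a `K`-combination is integral iff its coefficients are. -/
theorem ta_cart_pid (W : Submodule K (ι → K)) :
    ∃ (n : ℕ) (b : Fin n → (ι → R)),
      LinearIndependent K (fun j => taCartPhi R K ι (b j)) ∧
      Submodule.span K (Set.range (fun j => taCartPhi R K ι (b j))) = W ∧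
      ∀ c : Fin n → K, (∑ j, c j • taCartPhi R K ι (b j)) ∈ Set.range (taCartPhi R K ι) →
        ∀ j, c j ∈ Set.range (algebraMap R K) := by
  classical
  haveI : Fintype ι := Fintype.ofFinite ι
  set φ := taCartPhi R K ι with hφ
  set M : Submodule R (ι → R) := (W.restrictScalars R).comap φ with hM
  obtain ⟨n, bM⟩ := Submodule.basisOfPid (Pi.basisFun R ι) M
  let b : Fin n → (ι → R) := fun j => (bM j : ι → R)
  have hbW : ∀ j, φ (b j) ∈ W := fun j => (bM j).2
  have hindR : LinearIndependent R (fun j => φ (b j)) := by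
    have h1 : LinearIndependent R (fun j => (bM j : ι → R)) :=
      bM.linearIndependent.map' M.subtype (Submodule.ker_subtype M)
    exact h1.map' φ (LinearMap.ker_eq_bot.mpr taCartPhi_injective)
  have hindK : LinearIndependent K (fun j => φ (b j)) :=
    (LinearIndependent.iff_fractionRing R K).mp hindR
  -- every element of `W` has a multiple in `M`
  have hmul : ∀ w ∈ W, ∃ d : R, d ≠ 0 ∧ ∃ m ∈ M, φ m = (algebraMap R K d) • w := by
    intro w hw
    obtain ⟨d, hd⟩ := IsLocalization.exist_integer_multiples (nonZeroDivisors R) Finset.univ w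
    choose m hm using fun i => hd i (Finset.mem_univ i)
    refine ⟨d, nonZeroDivisors.ne_zero d.2, m, ?_, ?_⟩
    · show φ m ∈ W
      have : φ m = (algebraMap R K d) • w := by
        funext i
        rw [hφ, taCartPhi_apply, hm i, Pi.smul_apply, Algebra.smul_def, smul_eq_mul]
      rw [this]
      exact W.smul_mem _ hw
    · funext i
      rw [hφ, taCartPhi_apply, hm i, Pi.smul_apply, Algebra.smul_def, smul_eq_mul]
  -- coordinates of elements of `M`
  have hcoord : ∀ m ∈ M, ∃ o : Fin n → R, φ m = ∑ j, algebraMap R K (o j) • φ (b j) := by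
    intro m hm
    refine ⟨fun j => bM.repr ⟨m, hm⟩ j, ?_⟩
    have h1 := bM.sum_repr ⟨m, hm⟩
    have h2 : m = ∑ j, bM.repr ⟨m, hm⟩ j • b j := by
      have h3 := congrArg (fun x : M => (x : ι → R)) h1
      simp only [Submodule.coe_sum, Submodule.coe_smul] at h3
      exact h3.symm
    conv_lhs => rw [h2]
    rw [map_sum]
    refine Finset.sum_congr rfl (fun j _ => ?_)
    rw [map_smul, algebraMap_smul]
  refine ⟨n, b, hindK, ?_, ?_⟩
  · apply le_antisymm
    · rw [Submodule.span_le]
      rintro _ ⟨j, rfl⟩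
      exact hbW j
    · intro w hw
      obtain ⟨d, hd0, m, hm, hmw⟩ := hmul w hw
      obtain ⟨o, ho⟩ := hcoord m hm
      have hd : algebraMap R K d ≠ 0 := by
        rw [Ne, IsFractionRing.to_map_eq_zero_iff]
        exact hd0
      have : w = (algebraMap R K d)⁻¹ • ∑ j, algebraMap R K (o j) • φ (b j) := by
        rw [← ho, hmw, smul_smul, inv_mul_cancel₀ hd, one_smul]
      rw [this]
      refine Submodule.smul_mem _ _ (Submodule.sum_mem _ (fun j _ => ?_))
      exact Submodule.smul_mem _ _ (Submodule.subset_span ⟨j, rfl⟩)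
  · rintro c ⟨m, hm⟩ j
    have hmM : m ∈ M := by
      show φ m ∈ W
      rw [hm]
      exact Submodule.sum_mem _ (fun j _ => W.smul_mem _ (hbW j))
    obtain ⟨o, ho⟩ := hcoord m hmM
    rw [hm] at ho
    have h0 : ∑ j, (c j - algebraMap R K (o j)) • φ (b j) = 0 := by
      simp only [sub_smul, Finset.sum_sub_distrib]
      rw [ho, sub_self]
    have := Fintype.linearIndependent_iff.mp hindK _ h0 j
    exact ⟨o j, (sub_eq_zero.mp this).symm⟩

end PID

end Fermat.Agent.T1

namespace Fermat.Agent.T1

section Orth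

variable {L F : Type*} [Field L] [Field F] [Algebra L F] (O : ValuationSubring L)
  [IsPrincipalIdealRing ↥O] (Ov : Subring F) {κ : Type*} [Fintype κ] (e : κ → F)

/-- **orthonormal bases of finite-dimensional subspaces**: if `e` is an orthonormal family for `Ov` over
`(L, O)` and the subspace `W`, multiplied by a unit `Q` of `Ov`, lies in the span of `e`, then `W` has an
orthonormal basis. -/
theorem ta_cart_of_orth (hO : ∃ x : L, x ∉ O)
    (horth : ∀ x : κ → L, (∑ s, x s • e s) ∈ Ov ↔ ∀ s, x s ∈ O)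
    (W : Submodule L F) (Q : F) (hQ0 : Q ≠ 0) (hQ : ∀ y : F, Q * y ∈ Ov ↔ y ∈ Ov)
    (hQW : ∀ w ∈ W, ∃ x : κ → L, Q * w = ∑ s, x s • e s) :
    ∃ (n : ℕ) (b : Fin n → F), (∀ i, b i ∈ Ov) ∧ LinearIndependent L b ∧
      Submodule.span L (Set.range b) = W ∧
      ∀ c : Fin n → L, (∑ i, c i • b i ∈ Ov ↔ ∀ i, c i ∈ O) := by
  classical
  set ψ : (κ → L) →ₗ[L] F := Fintype.linearCombination L e with hψ
  have hψa : ∀ x : κ → L, ψ x = ∑ s, x s • e s := fun x => Fintype.linearCombination_apply L e x
  -- `ψ` is injective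
  have hψinj : Function.Injective ψ := by
    rw [← LinearMap.ker_eq_bot, LinearMap.ker_eq_bot']
    intro x hx
    funext s
    by_contra hs
    obtain ⟨z, hz⟩ := hO
    have h1 : ψ ((z / x s) • x) = 0 := by rw [map_smul, hx, smul_zero]
    have h2 : (∑ t, ((z / x s) • x) t • e t) ∈ Ov := by
      rw [← hψa, h1]
      exact Ov.zero_mem
    have h3 := (horth _).mp h2 s
    apply hz
    have : ((z / x s) • x) s = z := by
      rw [Pi.smul_apply, smul_eq_mul, div_mul_cancel₀ z hs]
    rwa [this] at h3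
  -- the coordinate subspace
  set W'' : Submodule L (κ → L) := (W.map (LinearMap.mulLeft L Q)).comap ψ with hW''
  have hmemW'' : ∀ x : κ → L, x ∈ W'' ↔ ∃ w ∈ W, Q * w = ψ x := by
    intro x
    rw [hW'', Submodule.mem_comap, Submodule.mem_map]
    rfl
  obtain ⟨n, b', hind, hspan, hcart⟩ := ta_cart_pid (R := ↥O) (K := L) W''
  have hφO : ∀ y : κ → L, y ∈ Set.range (taCartPhi (↥O) L κ) ↔ ∀ s, y s ∈ O := by
    intro y
    constructor
    · rintro ⟨x, rfl⟩ s
      exact (x s).2
    · intro h
      exact ⟨fun s => ⟨y s, h s⟩, rfl⟩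
  have hb'W : ∀ j, taCartPhi (↥O) L κ (b' j) ∈ W'' := by
    intro j
    rw [← hspan]
    exact Submodule.subset_span ⟨j, rfl⟩
  refine ⟨n, fun j => Q⁻¹ * ψ (taCartPhi (↥O) L κ (b' j)), ?_, ?_, ?_, ?_⟩
  · intro j
    rw [← hQ, mul_inv_cancel_left₀ hQ0, hψa, horth]
    exact fun s => (b' j s).2
  · have h1 : LinearIndependent L (fun j => ψ (taCartPhi (↥O) L κ (b' j))) :=
      hind.map' ψ (LinearMap.ker_eq_bot.mpr hψinj)
    have h2 := h1.map' (LinearMap.mulLeft L Q⁻¹) (by
      rw [LinearMap.ker_eq_bot]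
      intro a b hab
      exact mul_left_cancel₀ (inv_ne_zero hQ0) hab)
    exact h2
  · apply le_antisymm
    · rw [Submodule.span_le]
      rintro _ ⟨j, rfl⟩
      obtain ⟨w, hw, hwx⟩ := (hmemW'' _).mp (hb'W j)
      show Q⁻¹ * ψ (taCartPhi (↥O) L κ (b' j)) ∈ W
      rw [← hwx, inv_mul_cancel_left₀ hQ0]
      exact hw
    · intro w hw
      obtain ⟨x, hx⟩ := hQW w hw
      have hxW : x ∈ W'' := (hmemW'' x).mpr ⟨w, hw, by rw [hx, hψa]⟩
      rw [← hspan] at hxW
      have h1 : w = (LinearMap.mulLeft L Q⁻¹).comp ψ x := by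
        show w = Q⁻¹ * ψ x
        rw [hψa, ← hx, inv_mul_cancel_left₀ hQ0]
      rw [h1]
      have h2 : Submodule.map ((LinearMap.mulLeft L Q⁻¹).comp ψ)
          (Submodule.span L (Set.range fun j => taCartPhi (↥O) L κ (b' j)))
          ≤ Submodule.span L (Set.range fun j => Q⁻¹ * ψ (taCartPhi (↥O) L κ (b' j))) := by
        rw [Submodule.map_span, Submodule.span_le]
        rintro _ ⟨_, ⟨j, rfl⟩, rfl⟩
        exact Submodule.subset_span ⟨j, rfl⟩
      exact h2 (Submodule.mem_map_of_mem hxW)
  · intro c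
    have key : (∑ i, c i • (Q⁻¹ * ψ (taCartPhi (↥O) L κ (b' i)))) ∈ Ov ↔
        (∑ j, c j • taCartPhi (↥O) L κ (b' j)) ∈ Set.range (taCartPhi (↥O) L κ) := by
      rw [← hQ, hφO, ← horth, ← hψa, map_sum, Finset.mul_sum]
      have : ∀ i, Q * c i • (Q⁻¹ * ψ (taCartPhi (↥O) L κ (b' i)))
          = ψ (c i • taCartPhi (↥O) L κ (b' i)) := by
        intro i
        rw [map_smul, mul_smul_comm, mul_inv_cancel_left₀ hQ0]
      rw [Finset.sum_congr rfl (fun i _ => this i)]
    rw [key]
    constructor
    · intro h j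
      obtain ⟨r, hr⟩ := hcart c h j
      rw [← hr]
      exact r.2
    · intro h
      rw [hφO]
      intro s
      rw [Finset.sum_apply]
      refine O.sum_mem (fun j _ => ?_)
      rw [Pi.smul_apply, smul_eq_mul]
      exact O.mul_mem _ _ (h j) (b' j s).2

end Orth

end Fermat.Agent.T1
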