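import Fermat.Agent.Lib.T1.GoodRed.Level
import Fermat.Agent.Lib.Igusa.ResidueDegree
import Fermat.Agent.Lib.Igusa.TowerBridge
import Fermat.Agent.Lib.Igusa.TowerMain
import Fermat.Agent.Lib.Igusa.DegreeBound

/-!
# T1-A (good reduction package): the two degree bounds

* `ta_psi_le_finrank_igGenSet`: over ANY field `k` with `N ≠ 0` in `k`,
  `ψ(N) ≤ [k(j̄)(X_d, Ū_r) : k(j̄)]` inside `k((q))` (Igusa's tower over the algebraic closure,
  descended by base change);
* `ta_finrank_le`: over any field `L` of characteristic zero, `[F_{N,L} : L(j)] ≤ ψ(N)`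
  (base change from `ℚ`).
-/

set_option autoImplicit false
set_option linter.unusedSectionVars false
set_option linter.unusedVariables false
set_option linter.style.haveILetI false
set_option synthInstance.maxHeartbeats 400000
set_option maxHeartbeats 1000000

open HahnSeries ModularCurve Polynomial IntermediateField Fermat.Agent.Igusa
open ModularCurve.IgusaScheme

noncomputable section

namespace Fermat.Agent.T1

/-! ### The lower bound on the special fibre -/

section Special

variable (k : Type*) [Field k] (N : ℕ) [NeZero N]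

/-- **Igusa's degree bound over an arbitrary field** in which `N` is invertible. -/
theorem ta_psi_le_finrank_igGenSet (hN : (N : k) ≠ 0) :
    dedekindPsi N ≤ Module.finrank ↥(kappaJ k) ↥(adjoin ↥(kappaJ k) (igGenSet k N)) := by
  have hN' : ((N : ℕ) : AlgebraicClosure k) ≠ 0 := by
    intro h
    apply hN
    apply (algebraMap k (AlgebraicClosure k)).injective
    rw [map_natCast, h, map_zero]
  have h1 := ig_tower_bound_of_relfinrank (AlgebraicClosure k) N hN'
    (TowerData.dedekindPsi_le (pzTowerData (AlgebraicClosure k) N hN'))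
  have := finiteDimensional_adjoin_igGenSet (K := k) N
  have h := bcd_finrank_lsMapHom_le (algebraMap k (AlgebraicClosure k)) (igGenSet k N)
  rw [image_lsMapHom_igGenSet] at h
  exact h1.trans h

end Special

/-! ### The upper bound on the generic fibre -/

section Generic

variable (L : Type*) [Field L] [Algebra ℚ L] (N : ℕ) [NeZero N]

/-- the base change map `F_{N,ℚ} → F_{N,L}` -/
def taBC : ↥(modularFunctionFieldFull N) →+* ↥(TaF L N) :=
  ((coeffEmb L).comp (algebraMap ↥(modularFunctionFieldFull N) (LaurentSeries ℚ))).codRestrict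
    (TaF L N) (fun x => coeffEmb_mem_laurentBaseChange L x.2)

theorem coe_taBC (x : ↥(modularFunctionFieldFull N)) :
    ((taBC L N x : ↥(TaF L N)) : LaurentSeries L) = coeffEmb L (x : LaurentSeries ℚ) := rfl

theorem taBC_jFull : taBC L N (jFull N) = taJ N := by
  apply Subtype.ext
  rw [coe_taBC, coe_jFull, coe_taJ, ta_coeffEmb_jq]

theorem taBC_algebraMap (c : ℚ) :
    taBC L N (algebraMap ℚ ↥(modularFunctionFieldFull N) c) =
      algebraMap L ↥(TaF L N) (algebraMap ℚ L c) := by
  apply Subtype.ext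
  rw [coe_taBC]
  have h1 : ((algebraMap ℚ ↥(modularFunctionFieldFull N) c : ↥(modularFunctionFieldFull N)) :
      LaurentSeries ℚ) = algebraMap ℚ (LaurentSeries ℚ) c :=
    RingHom.congr_fun (Subsingleton.elim
      ((modularFunctionFieldFull N).toSubfield.subtype.comp
        (algebraMap ℚ ↥(modularFunctionFieldFull N))) (algebraMap ℚ (LaurentSeries ℚ))) c
  rw [h1, ta_coeffEmb_algebraMap (L := L) c]
  rfl

/-- `F_{N,L}` is generated over `L` by the image of `F_{N,ℚ}` -/
theorem ta_adjoin_range_taBC :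
    adjoin ↥(L⟮taJ (L := L) N⟯) (taBC L N '' Set.univ) = ⊤ := by
  rw [eq_top_iff]
  intro f _
  set E := adjoin ↥(L⟮taJ (L := L) N⟯) (taBC L N '' Set.univ) with hE
  set E' : IntermediateField L (LaurentSeries L) := (E.restrictScalars L).map (TaF L N).val
    with hE'
  have hle : TaF L N ≤ E' := by
    rw [TaF, laurentBaseChange, IntermediateField.adjoin_le_iff]
    rintro y ⟨z, hz, rfl⟩
    refine ⟨taBC L N ⟨z, hz⟩, ?_, rfl⟩
    exact subset_adjoin _ _ ⟨⟨z, hz⟩, Set.mem_univ _, rfl⟩
  obtain ⟨g, hg, hgf⟩ := hle f.2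
  have : g = f := Subtype.ext hgf
  rw [← this]
  exact hg

/-- `F_{N,ℚ} → F_{N,L}` maps `ℚ(j)` into `L(j)` -/
theorem taBC_mem_range (a : ↥(ℚ⟮jFull N⟯)) :
    taBC L N (algebraMap ↥(ℚ⟮jFull N⟯) ↥(modularFunctionFieldFull N) a) ∈
      Set.range (algebraMap ↥(L⟮taJ (L := L) N⟯) ↥(TaF L N)) := by
  refine bcd_map_algebraMap_mem_range (taBC L N) ?_ {jFull N} {taJ N} ?_ a
  · intro c
    exact ⟨algebraMap ℚ L c, (taBC_algebraMap L N c).symm⟩
  · intro s hs
    rw [Set.mem_singleton_iff] at hs
    rw [hs, taBC_jFull]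
    exact mem_adjoin_simple_self L _

theorem ta_finrank_le_and_finite :
    Module.finrank ↥(L⟮taJ (L := L) N⟯) ↥(TaF L N) ≤ dedekindPsi N ∧
      FiniteDimensional ↥(L⟮taJ (L := L) N⟯) ↥(TaF L N) := by
  have htop : adjoin ↥(ℚ⟮jFull N⟯) (Set.univ : Set ↥(modularFunctionFieldFull N)) = ⊤ := by
    rw [eq_top_iff]
    intro f _
    exact subset_adjoin _ _ (Set.mem_univ f)
  haveI hfd0 : FiniteDimensional ↥(ℚ⟮jFull N⟯)
      ↥(adjoin ↥(ℚ⟮jFull N⟯) (Set.univ : Set ↥(modularFunctionFieldFull N))) := by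
    rw [htop]
    exact (IntermediateField.topEquiv (F := ↥(ℚ⟮jFull N⟯))
      (E := ↥(modularFunctionFieldFull N))).symm.toLinearEquiv.finiteDimensional
  obtain ⟨h1, h2⟩ := bcd_finrank_adjoin_image_le (K0 := ↥(ℚ⟮jFull N⟯))
    (K := ↥(L⟮taJ (L := L) N⟯)) (taBC L N) (taBC_mem_range L N) Set.univ
  rw [ta_adjoin_range_taBC] at h1 h2
  rw [htop, IntermediateField.finrank_top', IntermediateField.finrank_top'] at h1
  refine ⟨h1.trans (finrank_adjoin_jFull_le N), ?_⟩
  exact (IntermediateField.topEquiv (F := ↥(L⟮taJ (L := L) N⟯))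
    (E := ↥(TaF L N))).toLinearEquiv.finiteDimensional

/-- **`[F_{N,L} : L(j)] ≤ ψ(N)`** -/
theorem ta_finrank_le : Module.finrank ↥(L⟮taJ (L := L) N⟯) ↥(TaF L N) ≤ dedekindPsi N :=
  (ta_finrank_le_and_finite L N).1

instance ta_finiteDimensional : FiniteDimensional ↥(L⟮taJ (L := L) N⟯) ↥(TaF L N) :=
  (ta_finrank_le_and_finite L N).2

end Generic

end Fermat.Agent.T1
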